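/-
P-SS2 row 900 (SS2-C3 REGL), layer 1: THE TWO VERTICAL VALUATIONS AT LEVEL `M q`.  helper7.

Level `N = M q`, `q` prime, `q ∤ M`, `E₀ = ModelField K₁ (M q)`, `A₀` a discrete valuation ring of
the number field `K₁` with uniformiser `ϖ`, in which `q` is not a unit, chart `x = j`.

* `vInf K₁ A₀ N`   : the Gauss valuation ring of `q`-expansions (`V_∞ = V₁₀`), a
  `ValuationSubring (ModelField K₁ N)`  (`= Fermat.Agent.H7.SS.gaussVal`).
* `vZero K₁ A₀ N W` : its transform under the Atkin-Lehner automorphism (`V_0 = V₀₁`).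
* `isUniformiser_vInf`, `isUniformiser_vZero` : `ϖ` is a uniformiser of both (the special fibre
  is reduced).
* `isVertical_vInf`, `isVertical_vZero` : both are vertical valuations of the chart `j` in the
  sense of `Fermat.Agent.H11.SS2.IsVertical`.
* `vertical_eq_or` : they are the ONLY vertical valuations.
* `mem_gaussClosure_iff_vInf_vZero` : `C(j) = V_∞ ∩ V_0`; `piDvdSet_iff_vInf_vZero` :
  `ϖ C(j) = 𝔪_∞ ∩ 𝔪_0`.

Abstract tools: `isPrincipalIdealRing_of_factor` (a valuation subring with a uniformiser `t` in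
which every nonzero element is a unit times a power of `t` is a principal ideal ring),
`eq_of_le_of_uniformiser` (such a ring is a maximal among the valuation subrings in which `t` is
not a unit), `le_or_le_of_inf_le` (a valuation subring containing `V₁ ∩ V₂` contains `V₁` or
`V₂`).
-/
import Fermat.Agent.H7.SS.GaussSDFinal
import Fermat.Agent.H55.SS.GaussConverse
import Fermat.Agent.H90.SS.SigmaCongr
import Fermat.Agent.H11.SS2.Defs

set_option autoImplicit false
set_option linter.style.haveILetI false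
set_option linter.unusedSectionVars false

noncomputable section

namespace Fermat.Agent.H7.SS2

open ModularCurve
open Fermat.Agent.H22.KL
open Fermat.Agent.H48.QExp
open Fermat.Agent.H82.SS
open Fermat.Agent.H7.SS
open Fermat.Agent.H11.SS2

/-! ### Abstract valuation lemmas -/

section Abstract

variable {F : Type*} [Field F]

/-- A valuation subring containing `V₁ ∩ V₂` contains `V₁` or `V₂`. -/
theorem le_or_le_of_inf_le (V₁ V₂ V : ValuationSubring F)
    (h : ∀ z, z ∈ V₁ → z ∈ V₂ → z ∈ V) : V₁ ≤ V ∨ V₂ ≤ V := by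
  by_contra hcon
  push Not at hcon
  obtain ⟨h1, h2⟩ := hcon
  obtain ⟨a, ha1, haV⟩ := SetLike.not_le_iff_exists.1 h1
  obtain ⟨b, hb2, hbV⟩ := SetLike.not_le_iff_exists.1 h2
  have ha0 : a ≠ 0 := fun h0 => haV (h0 ▸ V.zero_mem)
  have hb0 : b ≠ 0 := fun h0 => hbV (h0 ▸ V.zero_mem)
  have ha2 : a ∉ V₂ := fun h2' => haV (h a ha1 h2')
  have hb1 : b ∉ V₁ := fun h1' => hbV (h b h1' hb2)
  -- valuations of the inverses
  have hVa : V.valuation a⁻¹ < 1 := by
    rw [← ValuationSubring.mem_nonunits_iff, ValuationSubring.mem_nonunits_iff_or, inv_inv]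
    exact Or.inr haV
  have hVb : V.valuation b⁻¹ < 1 := by
    rw [← ValuationSubring.mem_nonunits_iff, ValuationSubring.mem_nonunits_iff_or, inv_inv]
    exact Or.inr hbV
  have h2a : V₂.valuation a⁻¹ < 1 := by
    rw [← ValuationSubring.mem_nonunits_iff, ValuationSubring.mem_nonunits_iff_or, inv_inv]
    exact Or.inr ha2
  have h1b : V₁.valuation b⁻¹ < 1 := by
    rw [← ValuationSubring.mem_nonunits_iff, ValuationSubring.mem_nonunits_iff_or, inv_inv]
    exact Or.inr hb1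
  have h1a : 1 ≤ V₁.valuation a⁻¹ := by
    rw [Valuation.one_le_val_iff _ (inv_ne_zero ha0), inv_inv,
      ValuationSubring.valuation_le_one_iff]
    exact ha1
  have h2b : 1 ≤ V₂.valuation b⁻¹ := by
    rw [Valuation.one_le_val_iff _ (inv_ne_zero hb0), inv_inv,
      ValuationSubring.valuation_le_one_iff]
    exact hb2
  set s : F := a⁻¹ + b⁻¹ with hs
  have hs1 : V₁.valuation s = V₁.valuation a⁻¹ :=
    Valuation.map_add_eq_of_lt_left _ (lt_of_lt_of_le h1b h1a)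
  have hs2 : V₂.valuation s = V₂.valuation b⁻¹ :=
    Valuation.map_add_eq_of_lt_right _ (lt_of_lt_of_le h2a h2b)
  have hs0 : s ≠ 0 := by
    intro h0
    rw [h0, map_zero] at hs1
    rw [← hs1] at h1a
    exact absurd h1a (not_le.2 zero_lt_one)
  have hsV : V.valuation s < 1 :=
    lt_of_le_of_lt (Valuation.map_add _ _ _) (max_lt hVa hVb)
  have hz1 : s⁻¹ ∈ V₁ := by
    rw [← ValuationSubring.valuation_le_one_iff, ← Valuation.one_le_val_iff _ hs0, hs1]
    exact h1a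
  have hz2 : s⁻¹ ∈ V₂ := by
    rw [← ValuationSubring.valuation_le_one_iff, ← Valuation.one_le_val_iff _ hs0, hs2]
    exact h2b
  have hzV : s⁻¹ ∈ V := h _ hz1 hz2
  rw [← ValuationSubring.valuation_le_one_iff, ← Valuation.one_le_val_iff _ hs0] at hzV
  exact absurd hsV (not_lt.2 hzV)

/-- If `𝔪_V = t V` and `t` is not a unit of `V' ⊇ V`, then `V' = V`. -/
theorem eq_of_le_of_uniformiser (V V' : ValuationSubring F) (t : F) (ht0 : t ≠ 0)
    (ht : ∀ y ∈ V.nonunits, y / t ∈ V) (hle : V ≤ V') (ht' : t ∈ V'.nonunits) : V' = V := by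
  refine le_antisymm (fun x hx => ?_) hle
  by_contra hxV
  have hx0 : x ≠ 0 := fun h0 => hxV (h0 ▸ V.zero_mem)
  have h1 : x⁻¹ ∈ V.nonunits := by
    rw [ValuationSubring.mem_nonunits_iff_or, inv_inv]
    exact Or.inr hxV
  have h2 : x⁻¹ / t ∈ V' := hle (ht _ h1)
  have h3 : V'.valuation (x⁻¹ / t) ≤ 1 := (ValuationSubring.valuation_le_one_iff _ _).2 h2
  have h4 : V'.valuation t < 1 := (ValuationSubring.mem_nonunits_iff V').1 ht'
  have h5 : V'.valuation x⁻¹ < 1 := by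
    have : x⁻¹ = x⁻¹ / t * t := by field_simp
    rw [this, map_mul]
    calc V'.valuation (x⁻¹ / t) * V'.valuation t ≤ 1 * V'.valuation t := by gcongr
      _ = V'.valuation t := one_mul _
      _ < 1 := h4
  have h6 : V'.valuation x ≤ 1 := (ValuationSubring.valuation_le_one_iff _ _).2 hx
  rw [Valuation.val_lt_one_iff _ (inv_ne_zero hx0), inv_inv] at h5
  exact absurd h6 (not_le.2 h5)

/-- A valuation subring with a uniformiser `t` in which every nonzero element is a unit times a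
power of `t` is a principal ideal ring (a discrete valuation ring). -/
theorem isPrincipalIdealRing_of_factor (V : ValuationSubring F) (t : F) (ht0 : t ≠ 0)
    (htm : t ∈ V.nonunits) (ht : ∀ y ∈ V.nonunits, y / t ∈ V)
    (hfac : ∀ x ∈ V, x ≠ 0 → ∃ n : ℕ, x / t ^ n ∈ V ∧ t ^ n / x ∈ V) :
    IsPrincipalIdealRing V := by
  have htV : t ∈ V := V.nonunits_le htm
  set p : V := ⟨t, htV⟩ with hp
  have hp0 : p ≠ 0 := fun h => ht0 (congrArg Subtype.val h)
  have hmax : IsLocalRing.maximalIdeal V = Ideal.span {p} := by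
    ext x
    rw [Ideal.mem_span_singleton']
    constructor
    · intro hx
      have hx' : (x : F) ∈ V.nonunits := by
        rw [ValuationSubring.mem_nonunits_iff_exists_mem_maximalIdeal]
        exact ⟨x.2, hx⟩
      refine ⟨⟨(x : F) / t, ht _ hx'⟩, ?_⟩
      apply Subtype.ext
      show (x : F) / t * t = x
      field_simp
    · rintro ⟨a, rfl⟩
      have : ((a * p : V) : F) ∈ V.nonunits := by
        rw [ValuationSubring.mem_nonunits_iff]
        show V.valuation ((a : F) * t) < 1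
        rw [map_mul]
        have h1 : V.valuation (a : F) ≤ 1 := (ValuationSubring.valuation_le_one_iff _ _).2 a.2
        have h2 : V.valuation t < 1 := (ValuationSubring.mem_nonunits_iff V).1 htm
        calc V.valuation (a : F) * V.valuation t ≤ 1 * V.valuation t := by gcongr
          _ = V.valuation t := one_mul _
          _ < 1 := h2
      rw [ValuationSubring.mem_nonunits_iff_exists_mem_maximalIdeal] at this
      obtain ⟨_, h⟩ := this
      exact h
  have hirr : Irreducible p := by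
    have hprime : (Ideal.span {p}).IsPrime := by
      rw [← hmax]
      exact (IsLocalRing.maximalIdeal.isMaximal V).isPrime
    exact ((Ideal.span_singleton_prime hp0).1 hprime).irreducible
  haveI : IsDiscreteValuationRing V := by
    apply IsDiscreteValuationRing.ofHasUnitMulPowIrreducibleFactorization
    refine ⟨p, hirr, fun {x} hx => ?_⟩
    have hx0 : (x : F) ≠ 0 := fun h => hx (Subtype.ext h)
    obtain ⟨n, h1, h2⟩ := hfac x x.2 hx0
    refine ⟨n, ?_⟩
    have hu : IsUnit (⟨(x : F) / t ^ n, h1⟩ : V) := by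
      refine IsUnit.of_mul_eq_one (⟨t ^ n / (x : F), h2⟩ : V) ?_
      apply Subtype.ext
      show (x : F) / t ^ n * (t ^ n / (x : F)) = 1
      field_simp
    obtain ⟨u, hu⟩ := hu
    refine ⟨u, ?_⟩
    rw [hu]
    apply Subtype.ext
    show t ^ n * ((x : F) / t ^ n) = x
    field_simp
  infer_instance

end Abstract

/-! ### The Gauss valuation ring of `E ⊆ K₁((t))` is a discrete valuation ring -/

section Generic

variable {K₁ : Type} [Field K₁] {A₀ : Type} [CommRing A₀] [IsDomain A₀]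
  [IsDiscreteValuationRing A₀] [Algebra A₀ K₁] [IsFractionRing A₀ K₁]
  (E : IntermediateField K₁ (LaurentSeries K₁))

/-- `ϖ` lies in the maximal ideal of the Gauss valuation ring. -/
theorem inM_uniformiser {ϖ : A₀} (hϖ : Irreducible ϖ) :
    InM (A₀ := A₀) E (algebraMap K₁ (LaurentSeries K₁) (algebraMap A₀ K₁ ϖ)) := by
  refine ⟨algebraMap A₀ (LaurentSeries A₀) ϖ, 1, ?_, ?_, ?_, ?_, ?_⟩
  · rw [coeffMap_algebraMap_gen]
    exact E.algebraMap_mem _
  · rw [map_one]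
    exact E.one_mem
  · rw [coeffMap_algebraMap_gen]
    have : IsLocalRing.residue A₀ ϖ = 0 := by
      rw [IsLocalRing.residue_eq_zero_iff]
      exact (IsLocalRing.mem_maximalIdeal _).2 hϖ.not_isUnit
    rw [this, map_zero]
  · rw [map_one]
    exact one_ne_zero
  · rw [map_one, mul_one, coeffMap_algebraMap_gen]

/-- Every nonzero element of the Gauss valuation ring is a unit times a power of `ϖ`. -/
theorem inV_factor (hG : HasGNF A₀ E) {ϖ : A₀} (hϖ : Irreducible ϖ) {x : LaurentSeries K₁}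
    (hxE : x ∈ E) (hx0 : x ≠ 0) (hx : InV (A₀ := A₀) E x) :
    ∃ n : ℕ, InV (A₀ := A₀) E
        (x / algebraMap K₁ (LaurentSeries K₁) (algebraMap A₀ K₁ ϖ) ^ n) ∧
      InV (A₀ := A₀) E (algebraMap K₁ (LaurentSeries K₁) (algebraMap A₀ K₁ ϖ) ^ n / x) := by
  have hφ : Function.Injective (algebraMap A₀ K₁) := IsFractionRing.injective A₀ K₁
  have hϖ0 : algebraMap K₁ (LaurentSeries K₁) (algebraMap A₀ K₁ ϖ) ≠ 0 := by
    rw [Ne, map_eq_zero, map_eq_zero_iff _ hφ]
    exact hϖ.ne_zero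
  obtain ⟨c, a, b, hc, ha, hb, hra, hrb, h⟩ := hG x hxE hx0
  have ha0 := gIota_ne_zero_of_gRho (K₁ := K₁) hra
  have hb0 := gIota_ne_zero_of_gRho (K₁ := K₁) hrb
  -- the case `c ∈ A₀`
  have key : ∀ c₀ : A₀, algebraMap A₀ K₁ c₀ = c → ∃ n : ℕ, InV (A₀ := A₀) E
        (x / algebraMap K₁ (LaurentSeries K₁) (algebraMap A₀ K₁ ϖ) ^ n) ∧
      InV (A₀ := A₀) E (algebraMap K₁ (LaurentSeries K₁) (algebraMap A₀ K₁ ϖ) ^ n / x) := by
    intro c₀ hc₀
    have hc₀0 : c₀ ≠ 0 := by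
      rintro rfl
      rw [map_zero] at hc₀
      exact hc hc₀.symm
    obtain ⟨n, u, hnu⟩ := IsDiscreteValuationRing.eq_unit_mul_pow_irreducible hc₀0 hϖ
    have hru : gRho A₀ (algebraMap A₀ (LaurentSeries A₀) (u : A₀) * a) ≠ 0 := by
      rw [gRho_algebraMap_mul]
      refine mul_ne_zero ?_ hra
      rw [Ne, map_eq_zero, IsLocalRing.residue_eq_zero_iff]
      exact fun hm => (IsLocalRing.mem_maximalIdeal _).1 hm u.isUnit
    have huE : gIota K₁ A₀ (algebraMap A₀ (LaurentSeries A₀) (u : A₀) * a) ∈ E := by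
      rw [gIota_algebraMap_mul]
      exact E.mul_mem (E.algebraMap_mem _) ha
    have h' : x * gIota K₁ A₀ b =
        algebraMap K₁ (LaurentSeries K₁) (algebraMap A₀ K₁ ϖ) ^ n *
          (algebraMap K₁ (LaurentSeries K₁) (algebraMap A₀ K₁ (u : A₀)) * gIota K₁ A₀ a) := by
      rw [h, ← hc₀, hnu, map_mul, map_mul, map_pow, map_pow]
      ring
    refine ⟨n, ⟨algebraMap A₀ (LaurentSeries A₀) (u : A₀) * a, b, huE, hb, hrb, ?_⟩,
      ⟨b, algebraMap A₀ (LaurentSeries A₀) (u : A₀) * a, hb, huE, hru, ?_⟩⟩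
    · rw [gIota_algebraMap_mul, div_mul_eq_mul_div, h', mul_div_assoc,
        mul_div_cancel₀ _ (pow_ne_zero n hϖ0)]
    · rw [gIota_algebraMap_mul, div_mul_eq_mul_div, ← h', mul_div_assoc,
        mul_div_cancel₀ _ hx0]
  rcases ValuationRing.isInteger_or_isInteger A₀ c with ⟨c₀, hc₀⟩ | ⟨c', hc'⟩
  · exact key c₀ hc₀
  · by_cases hu : IsUnit c'
    · obtain ⟨u, rfl⟩ := hu
      refine key ((u⁻¹ : A₀ˣ) : A₀) ?_
      have h1 : algebraMap A₀ K₁ ((u⁻¹ : A₀ˣ) : A₀) * algebraMap A₀ K₁ (u : A₀) = 1 := by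
        rw [← map_mul, Units.inv_mul, map_one]
      rw [hc'] at h1
      exact (eq_inv_of_mul_eq_one_left h1).trans (inv_inv c)
    · exfalso
      -- `x⁻¹` lies in the maximal ideal
      have hxinv : InM (A₀ := A₀) E x⁻¹ := by
        refine ⟨algebraMap A₀ (LaurentSeries A₀) c' * b, a, ?_, ha, ?_, hra, ?_⟩
        · rw [gIota_algebraMap_mul]
          exact E.mul_mem (E.algebraMap_mem _) hb
        · rw [gRho_algebraMap_mul]
          have : IsLocalRing.residue A₀ c' = 0 := by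
            rw [IsLocalRing.residue_eq_zero_iff]
            exact (IsLocalRing.mem_maximalIdeal c').2 hu
          rw [this, map_zero, zero_mul]
        · rw [gIota_algebraMap_mul, hc', map_inv₀]
          have hcL : algebraMap K₁ (LaurentSeries K₁) c ≠ 0 := by
            rw [Ne, map_eq_zero]
            exact hc
          field_simp
          rw [mul_comm, h]
      have := hxinv.not_inV_inv E (inv_ne_zero hx0)
      rw [inv_inv] at this
      exact this hx

/-- `𝔪 = ϖ V` for the Gauss valuation ring. -/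
theorem gaussVal_div_mem (hG : HasGNF A₀ E) {ϖ : A₀} (hϖ : Irreducible ϖ) (y : E)
    (hy : y ∈ (gaussVal E hG).nonunits) :
    y / algebraMap K₁ E (algebraMap A₀ K₁ ϖ) ∈ gaussVal E hG := by
  rw [mem_nonunits_gaussVal_iff] at hy
  have h1 := hy.inV_div E hϖ
  rw [mem_gaussVal_iff]
  have h2 : ((y / algebraMap K₁ E (algebraMap A₀ K₁ ϖ) : E) : LaurentSeries K₁) =
      algebraMap K₁ (LaurentSeries K₁) (algebraMap A₀ K₁ ϖ)⁻¹ * (y : LaurentSeries K₁) := by
    rw [map_inv₀, div_eq_inv_mul]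
    rfl
  rw [h2]
  exact h1

theorem uniformiser_mem_nonunits (hG : HasGNF A₀ E) {ϖ : A₀} (hϖ : Irreducible ϖ) :
    algebraMap K₁ E (algebraMap A₀ K₁ ϖ) ∈ (gaussVal E hG).nonunits := by
  rw [mem_nonunits_gaussVal_iff]
  exact inM_uniformiser E hϖ

theorem uniformiser_ne_zero {ϖ : A₀} (hϖ : Irreducible ϖ) :
    algebraMap K₁ E (algebraMap A₀ K₁ ϖ) ≠ 0 := by
  rw [Ne, map_eq_zero, map_eq_zero_iff _ (IsFractionRing.injective A₀ K₁)]
  exact hϖ.ne_zero

/-- `ϖ` is a uniformiser of the Gauss valuation ring. -/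
theorem isUniformiser_gaussVal (hG : HasGNF A₀ E) {ϖ : A₀} (hϖ : Irreducible ϖ) :
    IsUniformiser E (gaussVal E hG) (algebraMap K₁ E (algebraMap A₀ K₁ ϖ)) :=
  ⟨uniformiser_ne_zero E hϖ, uniformiser_mem_nonunits E hG hϖ, gaussVal_div_mem E hG hϖ⟩

/-- Factorisation in the Gauss valuation ring. -/
theorem gaussVal_factor (hG : HasGNF A₀ E) {ϖ : A₀} (hϖ : Irreducible ϖ) (x : E)
    (hx : x ∈ gaussVal E hG) (hx0 : x ≠ 0) :
    ∃ n : ℕ, x / algebraMap K₁ E (algebraMap A₀ K₁ ϖ) ^ n ∈ gaussVal E hG ∧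
      algebraMap K₁ E (algebraMap A₀ K₁ ϖ) ^ n / x ∈ gaussVal E hG := by
  have hx0' : (x : LaurentSeries K₁) ≠ 0 := fun h => hx0 (Subtype.ext h)
  obtain ⟨n, h1, h2⟩ := inV_factor E hG hϖ x.2 hx0' hx
  exact ⟨n, h1, h2⟩

/-- The Gauss valuation ring is a principal ideal ring. -/
theorem isPrincipalIdealRing_gaussVal (hG : HasGNF A₀ E) {ϖ : A₀} (hϖ : Irreducible ϖ) :
    IsPrincipalIdealRing (gaussVal E hG) :=
  isPrincipalIdealRing_of_factor (gaussVal E hG) (algebraMap K₁ E (algebraMap A₀ K₁ ϖ))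
    (uniformiser_ne_zero E hϖ) (uniformiser_mem_nonunits E hG hϖ) (gaussVal_div_mem E hG hϖ)
    (gaussVal_factor E hG hϖ)

end Generic

/-! ### The model field -/

section Model

variable (K₁ : Type) [Field K₁] [Algebra ℚ K₁] (A₀ : Type) [CommRing A₀] [IsDomain A₀]
  [IsDiscreteValuationRing A₀] [Algebra A₀ K₁] [IsFractionRing A₀ K₁] (N : ℕ)

/-- `V_∞` (`= V₁₀`): the Gauss valuation ring of `q`-expansions in the model field. -/
def vInf : ValuationSubring (ModelField K₁ N) :=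
  gaussVal (laurentBaseChange K₁ (modularFunctionFieldFull N)) (hasGNF_model K₁ A₀ N)

/-- `V_0` (`= V₀₁`): the transform of `V_∞` under the automorphism `W`. -/
def vZero (W : ModelField K₁ N ≃ₐ[K₁] ModelField K₁ N) : ValuationSubring (ModelField K₁ N) :=
  (vInf K₁ A₀ N).comap (W : ModelField K₁ N →+* ModelField K₁ N)

variable {K₁ A₀ N}

theorem mem_vInf_iff (z : ModelField K₁ N) :
    z ∈ vInf K₁ A₀ N ↔
      InV (A₀ := A₀) (laurentBaseChange K₁ (modularFunctionFieldFull N))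
        (z : LaurentSeries K₁) := Iff.rfl

theorem mem_nonunits_vInf_iff (z : ModelField K₁ N) :
    z ∈ (vInf K₁ A₀ N).nonunits ↔
      InM (A₀ := A₀) (laurentBaseChange K₁ (modularFunctionFieldFull N))
        (z : LaurentSeries K₁) :=
  mem_nonunits_gaussVal_iff _ _ z

theorem mem_vZero_iff (W : ModelField K₁ N ≃ₐ[K₁] ModelField K₁ N) (z : ModelField K₁ N) :
    z ∈ vZero K₁ A₀ N W ↔ W z ∈ vInf K₁ A₀ N := Iff.rfl

theorem mem_nonunits_vZero_iff (W : ModelField K₁ N ≃ₐ[K₁] ModelField K₁ N)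
    (z : ModelField K₁ N) :
    z ∈ (vZero K₁ A₀ N W).nonunits ↔ W z ∈ (vInf K₁ A₀ N).nonunits := by
  rw [ValuationSubring.mem_nonunits_iff_or, ValuationSubring.mem_nonunits_iff_or,
    mem_vZero_iff, map_inv₀, EmbeddingLike.map_eq_zero_iff]

variable [Algebra A₀ (ModelField K₁ N)] [IsScalarTower A₀ K₁ (ModelField K₁ N)]

theorem algebraMap_uniformiser (ϖ : A₀) :
    algebraMap A₀ (ModelField K₁ N) ϖ = algebraMap K₁ (ModelField K₁ N) (algebraMap A₀ K₁ ϖ) :=
  IsScalarTower.algebraMap_apply A₀ K₁ (ModelField K₁ N) ϖ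

/-- `ϖ` is a uniformiser of `V_∞`. -/
theorem isUniformiser_vInf {ϖ : A₀} (hϖ : Irreducible ϖ) :
    IsUniformiser (ModelField K₁ N) (vInf K₁ A₀ N) (algebraMap A₀ (ModelField K₁ N) ϖ) := by
  rw [algebraMap_uniformiser]
  exact isUniformiser_gaussVal _ _ hϖ

/-- `ϖ` is a uniformiser of `V_0`. -/
theorem isUniformiser_vZero (W : ModelField K₁ N ≃ₐ[K₁] ModelField K₁ N) {ϖ : A₀}
    (hϖ : Irreducible ϖ) :
    IsUniformiser (ModelField K₁ N) (vZero K₁ A₀ N W) (algebraMap A₀ (ModelField K₁ N) ϖ) := by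
  obtain ⟨h0, h1, h2⟩ := isUniformiser_vInf (K₁ := K₁) (N := N) hϖ
  have hW : W (algebraMap A₀ (ModelField K₁ N) ϖ) = algebraMap A₀ (ModelField K₁ N) ϖ := by
    rw [algebraMap_uniformiser, W.commutes]
  refine ⟨h0, ?_, fun y hy => ?_⟩
  · rw [mem_nonunits_vZero_iff, hW]
    exact h1
  · rw [mem_vZero_iff, map_div₀, hW]
    exact h2 _ ((mem_nonunits_vZero_iff W y).1 hy)

theorem isPrincipalIdealRing_vInf {ϖ : A₀} (hϖ : Irreducible ϖ) :
    IsPrincipalIdealRing (vInf K₁ A₀ N) :=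
  isPrincipalIdealRing_gaussVal _ _ hϖ

theorem isPrincipalIdealRing_vZero (W : ModelField K₁ N ≃ₐ[K₁] ModelField K₁ N) {ϖ : A₀}
    (hϖ : Irreducible ϖ) : IsPrincipalIdealRing (vZero K₁ A₀ N W) := by
  obtain ⟨h0, h1, h2⟩ := isUniformiser_vZero (K₁ := K₁) (N := N) W hϖ
  refine isPrincipalIdealRing_of_factor _ _ h0 h1 h2 fun x hx hx0 => ?_
  have hWx0 : W x ≠ 0 := (EmbeddingLike.map_ne_zero_iff).2 hx0
  obtain ⟨n, h3, h4⟩ := gaussVal_factor _ (hasGNF_model K₁ A₀ N) hϖ (W x)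
    ((mem_vZero_iff W x).1 hx) hWx0
  have hW : W (algebraMap A₀ (ModelField K₁ N) ϖ) = algebraMap A₀ (ModelField K₁ N) ϖ := by
    rw [algebraMap_uniformiser, W.commutes]
  refine ⟨n, ?_, ?_⟩
  · rw [mem_vZero_iff, map_div₀, map_pow, hW, algebraMap_uniformiser]
    exact h3
  · rw [mem_vZero_iff, map_div₀, map_pow, hW, algebraMap_uniformiser]
    exact h4

theorem vInf_ne_top {ϖ : A₀} (hϖ : Irreducible ϖ) : vInf K₁ A₀ N ≠ ⊤ := by
  intro h
  obtain ⟨h0, h1, -⟩ := isUniformiser_vInf (K₁ := K₁) (N := N) hϖ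
  rw [ValuationSubring.mem_nonunits_iff_or] at h1
  rcases h1 with h1 | h1
  · exact h0 h1
  · exact h1 (h ▸ ValuationSubring.mem_top _)

theorem vZero_ne_top (W : ModelField K₁ N ≃ₐ[K₁] ModelField K₁ N) {ϖ : A₀}
    (hϖ : Irreducible ϖ) : vZero K₁ A₀ N W ≠ ⊤ := by
  intro h
  obtain ⟨h0, h1, -⟩ := isUniformiser_vZero (K₁ := K₁) (N := N) W hϖ
  rw [ValuationSubring.mem_nonunits_iff_or] at h1
  rcases h1 with h1 | h1
  · exact h0 h1
  · exact h1 (h ▸ ValuationSubring.mem_top _)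

end Model

/-! ### Level `M q`: exactly two vertical valuations -/

section Level

variable (M q : ℕ) [NeZero M] [NeZero q]
  (K₁ : Type) [Field K₁] [Algebra ℚ K₁] [FiniteDimensional ℚ K₁]
  (A₀ : Type) [CommRing A₀] [IsDomain A₀] [IsDiscreteValuationRing A₀]
  [Algebra A₀ K₁] [IsFractionRing A₀ K₁]
  [Algebra A₀ (ModelField K₁ (M * q))] [IsScalarTower A₀ K₁ (ModelField K₁ (M * q))]
  (hqA : ¬ IsUnit ((q : ℕ) : A₀)) (ϖ : A₀) (hϖ : Irreducible ϖ)
  (x : ModelField K₁ (M * q)) (hx : (x : LaurentSeries K₁) = coeffEmb K₁ jq)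
  (W : ModelField K₁ (M * q) ≃ₐ[K₁] ModelField K₁ (M * q)) (hW : IsAtkinLehnerModel K₁ M q W)

include hqA hϖ hx hW

/-- `C(j) ⊆ V_∞ ∩ V_0`. -/
theorem mem_vInf_vZero_of_mem_gaussClosure (z : ModelField K₁ (M * q))
    (hz : z ∈ gaussClosure A₀ (ModelField K₁ (M * q)) ϖ x) :
    z ∈ vInf K₁ A₀ (M * q) ∧ z ∈ vZero K₁ A₀ (M * q) W := by
  obtain ⟨⟨a, b, ha, hb, hbu, hab⟩, ⟨a', b', ha', hb', hbu', hab'⟩⟩ :=
    Fermat.Agent.H55.SS.modelGaussConverse M q K₁ A₀ hqA ϖ hϖ x hx W hW z hz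
  constructor
  · exact Fermat.Agent.H90.SS.inV_of_quot _ _ (a : LaurentSeries K₁) (b : LaurentSeries K₁)
      a.2 b.2 ha hb hbu (congrArg Subtype.val hab)
  · have hWab : W z * W b' = W a' := by rw [← map_mul, hab']
    exact Fermat.Agent.H90.SS.inV_of_quot _ _ (W a' : LaurentSeries K₁)
      (W b' : LaurentSeries K₁) (W a').2 (W b').2 ha' hb' hbu' (congrArg Subtype.val hWab)

/-- `V_∞` is a vertical valuation of the chart `j`. -/
theorem isVertical_vInf :
    IsVertical A₀ (ModelField K₁ (M * q)) ϖ x (vInf K₁ A₀ (M * q)) :=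
  ⟨vInf_ne_top hϖ, isPrincipalIdealRing_vInf hϖ,
    fun z hz => (mem_vInf_vZero_of_mem_gaussClosure M q K₁ A₀ hqA ϖ hϖ x hx W hW z hz).1,
    (isUniformiser_vInf hϖ).2.1⟩

/-- `V_0` is a vertical valuation of the chart `j`. -/
theorem isVertical_vZero :
    IsVertical A₀ (ModelField K₁ (M * q)) ϖ x (vZero K₁ A₀ (M * q) W) :=
  ⟨vZero_ne_top W hϖ, isPrincipalIdealRing_vZero W hϖ,
    fun z hz => (mem_vInf_vZero_of_mem_gaussClosure M q K₁ A₀ hqA ϖ hϖ x hx W hW z hz).2,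
    (isUniformiser_vZero W hϖ).2.1⟩

variable (hq : q.Prime) (hqM : ¬ q ∣ M)

include hq hqM

/-- `V_∞ ∩ V_0 ⊆ C(j)`. -/
theorem mem_gaussClosure_of_mem_vInf_vZero (z : ModelField K₁ (M * q))
    (h1 : z ∈ vInf K₁ A₀ (M * q)) (h2 : z ∈ vZero K₁ A₀ (M * q) W) :
    z ∈ gaussClosure A₀ (ModelField K₁ (M * q)) ϖ x :=
  mem_gaussClosure_of_inV M q jq (Fermat.Agent.H66.SS.modelQExp2 M q hq hqM) K₁ A₀ hqA ϖ hϖ x hx
    W hW z h1 h2

/-- `C(j) = V_∞ ∩ V_0`. -/
theorem mem_gaussClosure_iff_vInf_vZero (z : ModelField K₁ (M * q)) :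
    z ∈ gaussClosure A₀ (ModelField K₁ (M * q)) ϖ x ↔
      z ∈ vInf K₁ A₀ (M * q) ∧ z ∈ vZero K₁ A₀ (M * q) W :=
  ⟨mem_vInf_vZero_of_mem_gaussClosure M q K₁ A₀ hqA ϖ hϖ x hx W hW z,
    fun h => mem_gaussClosure_of_mem_vInf_vZero M q K₁ A₀ hqA ϖ hϖ x hx W hW hq hqM z h.1 h.2⟩

/-- `ϖ C(j) = 𝔪_∞ ∩ 𝔪_0`. -/
theorem piDvdSet_iff_vInf_vZero (z : ModelField K₁ (M * q)) :
    PiDvdSet A₀ (ModelField K₁ (M * q)) ϖ (gaussClosure A₀ (ModelField K₁ (M * q)) ϖ x) z ↔
      z ∈ (vInf K₁ A₀ (M * q)).nonunits ∧ z ∈ (vZero K₁ A₀ (M * q) W).nonunits := by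
  obtain ⟨h0, h1, h2⟩ := isUniformiser_vInf (K₁ := K₁) (N := M * q) hϖ
  obtain ⟨-, h1', h2'⟩ := isUniformiser_vZero (K₁ := K₁) (N := M * q) W hϖ
  constructor
  · rintro ⟨c, hc, rfl⟩
    obtain ⟨hc1, hc2⟩ := mem_vInf_vZero_of_mem_gaussClosure M q K₁ A₀ hqA ϖ hϖ x hx W hW c hc
    constructor
    · rw [ValuationSubring.mem_nonunits_iff, map_mul]
      have e1 := (ValuationSubring.mem_nonunits_iff _).1 h1
      have e2 := (ValuationSubring.valuation_le_one_iff _ _).2 hc1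
      calc _ ≤ (vInf K₁ A₀ (M * q)).valuation (algebraMap A₀ (ModelField K₁ (M * q)) ϖ) * 1 := by
            gcongr
        _ < 1 := by rwa [mul_one]
    · rw [ValuationSubring.mem_nonunits_iff, map_mul]
      have e1 := (ValuationSubring.mem_nonunits_iff _).1 h1'
      have e2 := (ValuationSubring.valuation_le_one_iff _ _).2 hc2
      calc _ ≤ (vZero K₁ A₀ (M * q) W).valuation
            (algebraMap A₀ (ModelField K₁ (M * q)) ϖ) * 1 := by gcongr
        _ < 1 := by rwa [mul_one]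
  · rintro ⟨hz1, hz2⟩
    refine ⟨z / algebraMap A₀ (ModelField K₁ (M * q)) ϖ, ?_, ?_⟩
    · exact mem_gaussClosure_of_mem_vInf_vZero M q K₁ A₀ hqA ϖ hϖ x hx W hW hq hqM _
        (h2 z hz1) (h2' z hz2)
    · field_simp

/-- **Exactly two vertical valuations at level `M q`.** -/
theorem vertical_eq_or (V : ValuationSubring (ModelField K₁ (M * q)))
    (hV : IsVertical A₀ (ModelField K₁ (M * q)) ϖ x V) :
    V = vInf K₁ A₀ (M * q) ∨ V = vZero K₁ A₀ (M * q) W := by
  obtain ⟨-, -, hC, hϖV⟩ := hV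
  obtain ⟨h0, -, h2⟩ := isUniformiser_vInf (K₁ := K₁) (N := M * q) hϖ
  obtain ⟨-, -, h2'⟩ := isUniformiser_vZero (K₁ := K₁) (N := M * q) W hϖ
  rcases le_or_le_of_inf_le (vInf K₁ A₀ (M * q)) (vZero K₁ A₀ (M * q) W) V
    (fun z hz1 hz2 => hC z
      (mem_gaussClosure_of_mem_vInf_vZero M q K₁ A₀ hqA ϖ hϖ x hx W hW hq hqM z hz1 hz2))
    with h | h
  · left
    exact eq_of_le_of_uniformiser _ _ _ h0 h2 h hϖV
  · right
    exact eq_of_le_of_uniformiser _ _ _ h0 h2' h hϖV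

end Level

end Fermat.Agent.H7.SS2
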