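/-
P-SS2 row 900 (SS2-C3 REGL), THE EXACT TARGET.  helper7.

Level `L = M q`, `q` prime, `q ∤ M`, auxiliary level (`4 ∣ M` for `q` odd, `9 ∣ M` for `q = 2`),
UNRAMIFIED base: `K₁` a number field, `A₀` a discrete valuation ring of `K₁` in which `q` is a
uniformiser; `E₀ = ModelField K₁ (M q)`, charts `y = j` and `y = j⁻¹`, `B(y)` the integral
closure of `A₀[y]` in `E₀`; `V₁ = V_∞ = vInf` (component `C₁₀`), `V₂ = V_0 = vZero W`
(component `C₀₁`); `H` the Hauptmodul (q-expansion `h₀`), `H_q = H(t^q)`,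
`X = H_q - H ^ q`, `Y = H - H_q ^ q`.

`RegLAt A E ϖ y 𝔪 V₁ V₂ X Y` : the closed point `𝔪` is

* (sm10) a smooth point on `V₁` only, `𝔪 B_𝔪 = (ϖ, U)`;
* (sm01) a smooth point on `V₂` only, `𝔪 B_𝔪 = (ϖ, U)`;
* (ss)   a node: both `V₁` and `V₂` pass through `𝔪`, `𝔪 B_𝔪 = (e X, e Y)`, where `e` is a
         unit of `B_𝔪` (`e = 1` in the chart `j`; in the chart `j⁻¹` the functions `X`, `Y`
         have poles at the cusps and `e` is a power of `j⁻¹`), `e X` is a local equation of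
         `V₁`, `e Y` a local equation of `V₂`, and `X Y = ϖ · unit`.

`RegLStatement M q h₀` : `RegLAt` at every maximal ideal containing `q` of both charts.
`RegLChartStatement M q h₀` : the same in the chart `j` only, with `e = 1`.
-/
import Fermat.Agent.H7.SS2.Vertical

set_option autoImplicit false
set_option linter.style.haveILetI false
set_option linter.unusedSectionVars false

noncomputable section

namespace Fermat.Agent.H7.SS2

open ModularCurve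
open Fermat.Agent.H22.KL
open Fermat.Agent.H48.QExp
open Fermat.Agent.H82.SS
open Fermat.Agent.H7.SS
open Fermat.Agent.H11.SS2

/-- The closed point `𝔪` of the chart `y` is a smooth point of the special fibre on exactly one
of the two components `V₁`, `V₂`, with parameters `(ϖ, U)`, or a node with parameters
`(e X, e Y)`, `X Y = ϖ · unit`. -/
def RegLAt (A : Type) [CommRing A] (E : Type) [Field E] [Algebra A E] (ϖ : A) (y : E)
    (𝔪 : Ideal (chartClosure A E y)) (V₁ V₂ : ValuationSubring E) (X Y : E) : Prop :=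
  (¬ Through A E y 𝔪 V₂ ∧ ∃ U : E, IsRegPoint A E ϖ y 𝔪 V₁ (algebraMap A E ϖ) U) ∨
  (¬ Through A E y 𝔪 V₁ ∧ ∃ U : E, IsRegPoint A E ϖ y 𝔪 V₂ (algebraMap A E ϖ) U) ∨
  (∃ e : E, IsLocUnit A E y 𝔪 e ∧
    IsRegPoint A E ϖ y 𝔪 V₁ (e * X) (e * Y) ∧ IsRegPoint A E ϖ y 𝔪 V₂ (e * Y) (e * X) ∧
    IsLocUnit A E y 𝔪 (X * Y / algebraMap A E ϖ))

/-- The same with `e = 1` (chart `j`). -/
def RegLAtOne (A : Type) [CommRing A] (E : Type) [Field E] [Algebra A E] (ϖ : A) (y : E)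
    (𝔪 : Ideal (chartClosure A E y)) (V₁ V₂ : ValuationSubring E) (X Y : E) : Prop :=
  (¬ Through A E y 𝔪 V₂ ∧ ∃ U : E, IsRegPoint A E ϖ y 𝔪 V₁ (algebraMap A E ϖ) U) ∨
  (¬ Through A E y 𝔪 V₁ ∧ ∃ U : E, IsRegPoint A E ϖ y 𝔪 V₂ (algebraMap A E ϖ) U) ∨
  (IsRegPoint A E ϖ y 𝔪 V₁ X Y ∧ IsRegPoint A E ϖ y 𝔪 V₂ Y X ∧
    IsLocUnit A E y 𝔪 (X * Y / algebraMap A E ϖ))

/-- **REGL** (row SS2-C3): the model of level `M q` over an unramified base is regular, with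
smooth points on exactly one of the two components and nodes `(X, Y)`, `X Y = q · unit`, at the
crossing points; both charts. -/
def RegLStatement (M q : ℕ) [NeZero M] [NeZero q] (h₀ : LaurentSeries ℚ) : Prop :=
  ∀ (K₁ : Type) [Field K₁] [Algebra ℚ K₁] [FiniteDimensional ℚ K₁]
    (A₀ : Type) [CommRing A₀] [IsDomain A₀] [IsDiscreteValuationRing A₀]
    [Algebra A₀ K₁] [IsFractionRing A₀ K₁]
    [Algebra A₀ (ModelField K₁ (M * q))] [IsScalarTower A₀ K₁ (ModelField K₁ (M * q))],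
    Irreducible ((q : ℕ) : A₀) →
    ∀ (x : ModelField K₁ (M * q)), (x : LaurentSeries K₁) = coeffEmb K₁ jq →
    ∀ (W : ModelField K₁ (M * q) ≃ₐ[K₁] ModelField K₁ (M * q)), IsAtkinLehnerModel K₁ M q W →
    ∀ (H Hq : ModelField K₁ (M * q)), (H : LaurentSeries K₁) = coeffEmb K₁ h₀ →
      (Hq : LaurentSeries K₁) = qExpand K₁ q (coeffEmb K₁ h₀) →
    ∀ (y : ModelField K₁ (M * q)), y = x ∨ y = x⁻¹ →
    ∀ 𝔪 : Ideal (chartClosure A₀ (ModelField K₁ (M * q)) y), 𝔪.IsMaximal →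
      algebraMap A₀ (chartClosure A₀ (ModelField K₁ (M * q)) y) ((q : ℕ) : A₀) ∈ 𝔪 →
      RegLAt A₀ (ModelField K₁ (M * q)) ((q : ℕ) : A₀) y 𝔪
        (vInf K₁ A₀ (M * q)) (vZero K₁ A₀ (M * q) W) (Hq - H ^ q) (H - Hq ^ q)

/-- **REGL in the chart `j`**, with the parameters `X = H_q - H ^ q`, `Y = H - H_q ^ q`
themselves at the nodes. -/
def RegLChartStatement (M q : ℕ) [NeZero M] [NeZero q] (h₀ : LaurentSeries ℚ) : Prop :=
  ∀ (K₁ : Type) [Field K₁] [Algebra ℚ K₁] [FiniteDimensional ℚ K₁]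
    (A₀ : Type) [CommRing A₀] [IsDomain A₀] [IsDiscreteValuationRing A₀]
    [Algebra A₀ K₁] [IsFractionRing A₀ K₁]
    [Algebra A₀ (ModelField K₁ (M * q))] [IsScalarTower A₀ K₁ (ModelField K₁ (M * q))],
    Irreducible ((q : ℕ) : A₀) →
    ∀ (x : ModelField K₁ (M * q)), (x : LaurentSeries K₁) = coeffEmb K₁ jq →
    ∀ (W : ModelField K₁ (M * q) ≃ₐ[K₁] ModelField K₁ (M * q)), IsAtkinLehnerModel K₁ M q W →
    ∀ (H Hq : ModelField K₁ (M * q)), (H : LaurentSeries K₁) = coeffEmb K₁ h₀ →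
      (Hq : LaurentSeries K₁) = qExpand K₁ q (coeffEmb K₁ h₀) →
    ∀ 𝔪 : Ideal (chartClosure A₀ (ModelField K₁ (M * q)) x), 𝔪.IsMaximal →
      algebraMap A₀ (chartClosure A₀ (ModelField K₁ (M * q)) x) ((q : ℕ) : A₀) ∈ 𝔪 →
      RegLAtOne A₀ (ModelField K₁ (M * q)) ((q : ℕ) : A₀) x 𝔪
        (vInf K₁ A₀ (M * q)) (vZero K₁ A₀ (M * q) W) (Hq - H ^ q) (H - Hq ^ q)

theorem RegLAtOne.regLAt {A : Type} [CommRing A] {E : Type} [Field E] [Algebra A E] {ϖ : A}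
    {y : E} {𝔪 : Ideal (chartClosure A E y)} (h𝔪 : 𝔪 ≠ ⊤) {V₁ V₂ : ValuationSubring E} {X Y : E}
    (h : RegLAtOne A E ϖ y 𝔪 V₁ V₂ X Y) : RegLAt A E ϖ y 𝔪 V₁ V₂ X Y := by
  rcases h with h | h | ⟨h1, h2, h3⟩
  · exact Or.inl h
  · exact Or.inr (Or.inl h)
  · refine Or.inr (Or.inr ⟨1, ⟨one_ne_zero, ?_, ?_⟩, ?_, ?_, h3⟩)
    · exact ⟨1, fun h1 => h𝔪 ((Ideal.eq_top_iff_one 𝔪).2 h1), by simp⟩
    · exact ⟨1, fun h1 => h𝔪 ((Ideal.eq_top_iff_one 𝔪).2 h1), by simp⟩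
    · simpa using h1
    · simpa using h2

end Fermat.Agent.H7.SS2

end
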