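/-
P-SS2 row 900 (SS2-C3 REGL), layer 2: THE FORMAL CORE (chart language, no model).  helper7.

Setting `TwoComp A E ϖ y V₁ V₂` : the special fibre of the chart `y` has exactly two reduced
components: `V₁`, `V₂` are vertical valuations with uniformiser `ϖ` and `𝔪_{V₁} ∩ 𝔪_{V₂} = ϖ C(y)`.

* `TwoComp.through_or`        : every prime `𝔪 ∋ ϖ` of `B(y)` lies on `V₁` or on `V₂`.
* `TwoComp.isRegPoint_smooth` : a point on `V₁` only with `𝔪 B_𝔪 = (ϖ, U)` is a regular point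
  `IsRegPoint A E ϖ y 𝔪 V₁ ϖ U` (the centre of `V₁` is `ϖ B_𝔪`: Lemma T).
* `TwoComp.isRegPoint_node`   : a point with `X ∈ 𝔪_{V₁}`, `Y ∈ 𝔪_{V₂}`, `X Y = ϖ ψ`, `ψ ∉ 𝔪`,
  `𝔪 B_𝔪 = (X, Y)` is a node: `IsRegPoint .. V₁ X Y`, `IsRegPoint .. V₂ Y X`, `X Y / ϖ` a unit.
-/
import Fermat.Agent.H11.SS2.Defs

set_option autoImplicit false
set_option linter.style.haveILetI false
set_option linter.unusedSectionVars false
set_option linter.unusedVariables false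

noncomputable section

namespace Fermat.Agent.H7.SS2

open Fermat.Agent.H22.KL
open Fermat.Agent.H11.SS2
open Fermat.Agent.H67.KLConn (PiDvd)

/-- The special fibre of the chart `y` has exactly two reduced components `V₁`, `V₂`. -/
structure TwoComp (A : Type) [CommRing A] (E : Type) [Field E] [Algebra A E] (ϖ : A) (y : E)
    (V₁ V₂ : ValuationSubring E) : Prop where
  vert₁ : IsVertical A E ϖ y V₁
  vert₂ : IsVertical A E ϖ y V₂
  unif₁ : IsUniformiser E V₁ (algebraMap A E ϖ)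
  unif₂ : IsUniformiser E V₂ (algebraMap A E ϖ)
  piC : ∀ z : E, z ∈ V₁.nonunits → z ∈ V₂.nonunits →
    PiDvdSet A E ϖ (gaussClosure A E ϖ y) z

section Core

variable {A : Type} [CommRing A] [IsDomain A] [IsDiscreteValuationRing A]
  {E : Type} [Field E] [Algebra A E]
  {ϖ : A} {y : E} {V₁ V₂ : ValuationSubring E}

theorem TwoComp.symm (h : TwoComp A E ϖ y V₁ V₂) : TwoComp A E ϖ y V₂ V₁ :=
  ⟨h.vert₂, h.vert₁, h.unif₂, h.unif₁, fun z h2 h1 => h.piC z h1 h2⟩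

variable (hinj : Function.Injective (algebraMap A E)) (hϖ : Irreducible ϖ)
  (hy : Transcendental A y)

include hinj hϖ hy

theorem TwoComp.mem₁ (h : TwoComp A E ϖ y V₁ V₂) {s : E} (hs : s ∈ chartClosure A E y) :
    s ∈ V₁ :=
  h.vert₁.2.2.1 s ((Fermat.Agent.H89.gaussClosureStatement A E hinj ϖ hϖ y hy).1 s hs)

theorem TwoComp.mem₂ (h : TwoComp A E ϖ y V₁ V₂) {s : E} (hs : s ∈ chartClosure A E y) :
    s ∈ V₂ :=
  h.symm.mem₁ hinj hϖ hy hs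

/-- `B ∩ 𝔪_{V₁} ∩ 𝔪_{V₂} = ϖ B`. -/
theorem TwoComp.exists_eq_mul (h : TwoComp A E ϖ y V₁ V₂) {s : E}
    (hs : s ∈ chartClosure A E y) (h1 : s ∈ V₁.nonunits) (h2 : s ∈ V₂.nonunits) :
    ∃ c : chartClosure A E y, s = algebraMap A E ϖ * (c : E) := by
  obtain ⟨r, hr, hsr⟩ := Fermat.Agent.H34.lemmaT A E hinj ϖ hϖ y hy s hs (h.piC s h1 h2)
  refine ⟨⟨r, hr⟩, ?_⟩
  rw [hsr, pow_one, Algebra.smul_def]

theorem nonunits_mul_mem {V : ValuationSubring E} {a b : E} (ha : a ∈ V.nonunits)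
    (hb : b ∈ V) : a * b ∈ V.nonunits := by
  rw [ValuationSubring.mem_nonunits_iff] at ha ⊢
  rw [map_mul]
  exact mul_lt_one_of_lt_of_le ha ((V.valuation_le_one_iff b).2 hb)

theorem mem_mul_nonunits {V : ValuationSubring E} {a b : E} (ha : a ∈ V)
    (hb : b ∈ V.nonunits) : a * b ∈ V.nonunits := by
  rw [mul_comm]
  exact nonunits_mul_mem (hinj := hinj) (hϖ := hϖ) (hy := hy) hb ha

/-- **Classification**: every prime `𝔪 ∋ ϖ` lies on `V₁` or on `V₂`. -/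
theorem TwoComp.through_or (h : TwoComp A E ϖ y V₁ V₂)
    (𝔪 : Ideal (chartClosure A E y)) (h𝔪 : 𝔪.IsPrime)
    (hϖ𝔪 : algebraMap A (chartClosure A E y) ϖ ∈ 𝔪) :
    Through A E y 𝔪 V₁ ∨ Through A E y 𝔪 V₂ := by
  by_contra hcon
  push Not at hcon
  obtain ⟨h1, h2⟩ := hcon
  unfold Through at h1 h2
  push Not at h1 h2
  obtain ⟨s₁, hs₁, hs₁𝔪⟩ := h1
  obtain ⟨s₂, hs₂, hs₂𝔪⟩ := h2
  have h3 : ((s₁ * s₂ : chartClosure A E y) : E) ∈ V₁.nonunits := by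
    push_cast
    exact nonunits_mul_mem (hinj := hinj) (hϖ := hϖ) (hy := hy) hs₁
      (h.mem₁ hinj hϖ hy s₂.2)
  have h4 : ((s₁ * s₂ : chartClosure A E y) : E) ∈ V₂.nonunits := by
    push_cast
    exact mem_mul_nonunits (hinj := hinj) (hϖ := hϖ) (hy := hy)
      (h.mem₂ hinj hϖ hy s₁.2) hs₂
  obtain ⟨c, hc⟩ := h.exists_eq_mul hinj hϖ hy (s₁ * s₂).2 h3 h4
  have h5 : s₁ * s₂ = algebraMap A (chartClosure A E y) ϖ * c := Subtype.ext hc
  have h6 : s₁ * s₂ ∈ 𝔪 := by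
    rw [h5]
    exact 𝔪.mul_mem_right _ hϖ𝔪
  rcases h𝔪.mem_or_mem h6 with h7 | h7
  · exact hs₁𝔪 h7
  · exact hs₂𝔪 h7

theorem ne_zero_of_not_mem {𝔪 : Ideal (chartClosure A E y)} {b : chartClosure A E y}
    (hb : b ∉ 𝔪) : (b : E) ≠ 0 := by
  intro h0
  apply hb
  have : b = 0 := Subtype.ext h0
  rw [this]
  exact 𝔪.zero_mem

/-- **Smooth point on `V₁` only.** -/
theorem TwoComp.isRegPoint_smooth (h : TwoComp A E ϖ y V₁ V₂)
    (𝔪 : Ideal (chartClosure A E y)) (h𝔪 : 𝔪.IsPrime)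
    (ht₁ : Through A E y 𝔪 V₁) (ht₂ : ¬ Through A E y 𝔪 V₂)
    (U : chartClosure A E y) (hU : U ∈ 𝔪)
    (hgen : ∀ z ∈ 𝔪, ∃ s, s ∉ 𝔪 ∧ ∃ b₁ b₂ : chartClosure A E y,
      s * z = algebraMap A (chartClosure A E y) ϖ * b₁ + U * b₂) :
    IsRegPoint A E ϖ y 𝔪 V₁ (algebraMap A E ϖ) (U : E) := by
  unfold Through at ht₂
  push Not at ht₂
  obtain ⟨e, he₂, he𝔪⟩ := ht₂
  have he0 : (e : E) ≠ 0 := ne_zero_of_not_mem (hinj := hinj) (hϖ := hϖ) (hy := hy) he𝔪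
  have hϖ0 : algebraMap A E ϖ ≠ 0 := h.unif₁.1
  refine ⟨h.vert₁, ht₁, (chartClosure A E y).algebraMap_mem ϖ, U.2, fun _ => hU, h.unif₁,
    ?_, ?_⟩
  · intro s hs
    have h1 : ((e * s : chartClosure A E y) : E) ∈ V₁.nonunits := by
      push_cast
      exact mem_mul_nonunits (hinj := hinj) (hϖ := hϖ) (hy := hy)
        (h.mem₁ hinj hϖ hy e.2) hs
    have h2 : ((e * s : chartClosure A E y) : E) ∈ V₂.nonunits := by
      push_cast
      exact nonunits_mul_mem (hinj := hinj) (hϖ := hϖ) (hy := hy) he₂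
        (h.mem₂ hinj hϖ hy s.2)
    obtain ⟨c, hc⟩ := h.exists_eq_mul hinj hϖ hy (e * s).2 h1 h2
    refine ⟨e, he𝔪, ?_⟩
    have h3 : (e : E) * ((s : E) / algebraMap A E ϖ) = (c : E) := by
      push_cast at hc
      rw [← mul_div_assoc, hc, mul_div_cancel_left₀ _ hϖ0]
    rw [h3]
    exact c.2
  · intro z hz
    obtain ⟨s, hs, b₁, b₂, hsz⟩ := hgen z hz
    have hs0 : (s : E) ≠ 0 := ne_zero_of_not_mem (hinj := hinj) (hϖ := hϖ) (hy := hy) hs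
    have hsz' : (s : E) * (z : E) = algebraMap A E ϖ * (b₁ : E) + (U : E) * (b₂ : E) := by
      have := congrArg (Subtype.val) hsz
      push_cast at this
      exact this
    refine ⟨(b₁ : E) / (s : E), (b₂ : E) / (s : E), ⟨s, hs, ?_⟩, ⟨s, hs, ?_⟩, ?_⟩
    · rw [mul_div_cancel₀ _ hs0]
      exact b₁.2
    · rw [mul_div_cancel₀ _ hs0]
      exact b₂.2
    · field_simp
      rw [mul_comm (z : E), hsz']
      ring

/-- **Node.**  `d X Y = ϖ ψ` with `d, ψ ∉ 𝔪`. -/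
theorem TwoComp.isRegPoint_node (h : TwoComp A E ϖ y V₁ V₂)
    (𝔪 : Ideal (chartClosure A E y)) (h𝔪 : 𝔪.IsPrime)
    (ht₁ : Through A E y 𝔪 V₁) (ht₂ : Through A E y 𝔪 V₂)
    (X Y d ψ : chartClosure A E y) (hX : (X : E) ∈ V₁.nonunits) (hY : (Y : E) ∈ V₂.nonunits)
    (hd : d ∉ 𝔪) (hψ : ψ ∉ 𝔪)
    (hXY : d * (X * Y) = algebraMap A (chartClosure A E y) ϖ * ψ)
    (hgen : ∀ z ∈ 𝔪, ∃ s, s ∉ 𝔪 ∧ ∃ b₁ b₂ : chartClosure A E y, s * z = X * b₁ + Y * b₂) :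
    IsRegPoint A E ϖ y 𝔪 V₁ (X : E) (Y : E) ∧ IsRegPoint A E ϖ y 𝔪 V₂ (Y : E) (X : E) ∧
      IsLocUnit A E y 𝔪 ((X : E) * (Y : E) / algebraMap A E ϖ) := by
  have hϖ0 : algebraMap A E ϖ ≠ 0 := h.unif₁.1
  have hψ0 : (ψ : E) ≠ 0 := ne_zero_of_not_mem (hinj := hinj) (hϖ := hϖ) (hy := hy) hψ
  have hd0 : (d : E) ≠ 0 := ne_zero_of_not_mem (hinj := hinj) (hϖ := hϖ) (hy := hy) hd
  have hXYE : (d : E) * ((X : E) * (Y : E)) = algebraMap A E ϖ * (ψ : E) := by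
    have := congrArg (Subtype.val) hXY
    push_cast at this
    exact this
  have hX𝔪 : X ∈ 𝔪 := ht₁ X hX
  have hY𝔪 : Y ∈ 𝔪 := ht₂ Y hY
  have hX0 : (X : E) ≠ 0 := by
    intro h0
    rw [h0, zero_mul, mul_zero] at hXYE
    exact mul_ne_zero hϖ0 hψ0 hXYE.symm
  have hY0 : (Y : E) ≠ 0 := by
    intro h0
    rw [h0, mul_zero, mul_zero] at hXYE
    exact mul_ne_zero hϖ0 hψ0 hXYE.symm
  -- the general statement for one branch
  have key : ∀ (W₁ W₂ : ValuationSubring E) (hW : TwoComp A E ϖ y W₁ W₂)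
      (hw₁ : Through A E y 𝔪 W₁) (P Q : chartClosure A E y) (hP : (P : E) ∈ W₁.nonunits)
      (hQ : (Q : E) ∈ W₂.nonunits) (hP𝔪 : P ∈ 𝔪) (hQ𝔪 : Q ∈ 𝔪)
      (hPQ : (d : E) * ((P : E) * (Q : E)) = algebraMap A E ϖ * (ψ : E)) (hP0 : (P : E) ≠ 0)
      (hQ0 : (Q : E) ≠ 0)
      (hg : ∀ z ∈ 𝔪, ∃ s, s ∉ 𝔪 ∧ ∃ b₁ b₂ : chartClosure A E y, s * z = P * b₁ + Q * b₂),
      IsRegPoint A E ϖ y 𝔪 W₁ (P : E) (Q : E) := by
    intro W₁ W₂ hW hw₁ P Q hP hQ hP𝔪 hQ𝔪 hPQ hP0 hQ0 hg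
    -- `ψ` is a unit of `W₁`
    have hψW : (ψ : E) ∉ W₁.nonunits := fun hc => hψ (hw₁ ψ hc)
    have hψinv : (ψ : E)⁻¹ ∈ W₁ := by
      rw [← ValuationSubring.valuation_le_one_iff, map_inv₀]
      have h1 : W₁.valuation (ψ : E) = 1 := by
        have h2 : W₁.valuation (ψ : E) ≤ 1 :=
          (W₁.valuation_le_one_iff _).2 (hW.mem₁ hinj hϖ hy ψ.2)
        rcases lt_or_eq_of_le h2 with h3 | h3
        · exact absurd ((ValuationSubring.mem_nonunits_iff (A := W₁)).2 h3) hψW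
        · exact h3
      rw [h1, inv_one]
    refine ⟨hW.vert₁, hw₁, P.2, Q.2, fun _ => hQ𝔪, ⟨hP0, hP, ?_⟩, ?_, ?_⟩
    · -- uniformiser: `z / P = (z / ϖ) * (d Q / ψ)`
      intro z hz
      have h1 : z / (P : E) = z / algebraMap A E ϖ * ((d : E) * (Q : E) * (ψ : E)⁻¹) := by
        field_simp
        have h2 : z * (algebraMap A E ϖ * (ψ : E)) = z * ((d : E) * ((P : E) * (Q : E))) := by
          rw [hPQ]
        linear_combination h2
      rw [h1]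
      exact W₁.mul_mem _ _ (hW.unif₁.2.2 z hz)
        (W₁.mul_mem _ _ (W₁.mul_mem _ _ (hW.mem₁ hinj hϖ hy d.2) (hW.mem₁ hinj hϖ hy Q.2))
          hψinv)
    · -- `prin`
      intro s hs
      have h1 : ((s * Q : chartClosure A E y) : E) ∈ W₁.nonunits := by
        push_cast
        exact nonunits_mul_mem (hinj := hinj) (hϖ := hϖ) (hy := hy) hs
          (hW.mem₁ hinj hϖ hy Q.2)
      have h2 : ((s * Q : chartClosure A E y) : E) ∈ W₂.nonunits := by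
        push_cast
        exact mem_mul_nonunits (hinj := hinj) (hϖ := hϖ) (hy := hy)
          (hW.mem₂ hinj hϖ hy s.2) hQ
      obtain ⟨c, hc⟩ := hW.exists_eq_mul hinj hϖ hy (s * Q).2 h1 h2
      push_cast at hc
      refine ⟨ψ, hψ, ?_⟩
      have h3 : (ψ : E) * ((s : E) / (P : E)) = ((c * d : chartClosure A E y) : E) := by
        push_cast
        rw [← mul_div_assoc, div_eq_iff hP0]
        have h4 : algebraMap A E ϖ * ((ψ : E) * (s : E))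
            = algebraMap A E ϖ * ((c : E) * (d : E) * (P : E)) := by
          calc algebraMap A E ϖ * ((ψ : E) * (s : E))
              = (s : E) * (algebraMap A E ϖ * (ψ : E)) := by ring
            _ = (s : E) * ((d : E) * ((P : E) * (Q : E))) := by rw [hPQ]
            _ = (d : E) * (P : E) * ((s : E) * (Q : E)) := by ring
            _ = (d : E) * (P : E) * (algebraMap A E ϖ * (c : E)) := by rw [hc]
            _ = algebraMap A E ϖ * ((c : E) * (d : E) * (P : E)) := by ring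
        exact mul_left_cancel₀ hϖ0 h4
      rw [h3]
      exact (c * d).2
    · -- `gen`
      intro z hz
      obtain ⟨s, hs, b₁, b₂, hsz⟩ := hg z hz
      have hs0 : (s : E) ≠ 0 := ne_zero_of_not_mem (hinj := hinj) (hϖ := hϖ) (hy := hy) hs
      have hsz' : (s : E) * (z : E) = (P : E) * (b₁ : E) + (Q : E) * (b₂ : E) := by
        have := congrArg (Subtype.val) hsz
        push_cast at this
        exact this
      refine ⟨(b₁ : E) / (s : E), (b₂ : E) / (s : E), ⟨s, hs, ?_⟩, ⟨s, hs, ?_⟩, ?_⟩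
      · rw [mul_div_cancel₀ _ hs0]
        exact b₁.2
      · rw [mul_div_cancel₀ _ hs0]
        exact b₂.2
      · field_simp
        rw [mul_comm (z : E), hsz']
        ring
  refine ⟨key V₁ V₂ h ht₁ X Y hX hY hX𝔪 hY𝔪 hXYE hX0 hY0 hgen,
    key V₂ V₁ h.symm ht₂ Y X hY hX hY𝔪 hX𝔪 (by rw [mul_comm (Y : E)]; exact hXYE) hY0 hX0 ?_,
    ?_⟩
  · intro z hz
    obtain ⟨s, hs, b₁, b₂, hsz⟩ := hgen z hz
    exact ⟨s, hs, b₂, b₁, by rw [hsz]; ring⟩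
  · have h1 : (X : E) * (Y : E) / algebraMap A E ϖ = (ψ : E) / (d : E) := by
      rw [div_eq_div_iff hϖ0 hd0]
      linear_combination hXYE
    rw [h1]
    refine ⟨div_ne_zero hψ0 hd0, ⟨d, hd, ?_⟩, ⟨ψ, hψ, ?_⟩⟩
    · rw [mul_div_cancel₀ _ hd0]
      exact ψ.2
    · rw [inv_div, mul_div_cancel₀ _ hψ0]
      exact d.2

end Core

end Fermat.Agent.H7.SS2

end
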