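/-
P-SS2 row 900 (SS2-C3 REGL), layer 3: THE MODEL, chart `j`.  helper7.

Level `M q`, `E₀ = ModelField K₁ (M q)`, `V₁ = vInf`, `V₂ = vZero W`.

* `twoComp_model`, `twoComp_model_inv` : the setting `TwoComp` of the formal core in the charts
  `j` and `j⁻¹`.
* `through_vInf_or_vZero` : every closed point of the special fibre lies on `V_∞` or on `V_0`.
* `inM_frob` : the Frobenius congruence `f(t^q) - f(t)^q ∈ 𝔪_∞` for integral `f`.
* `mem_nonunits_vInf_X`, `mem_nonunits_vZero_Y` : `X = H_q - H^q ∈ 𝔪_∞`, `Y = H - H_q^q ∈ 𝔪_0`.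
* `SmoothGenStatement M q`, `NodeGenStatement M q h₀` : the two geometric inputs (generators of
  `𝔪 B_𝔪` at the points on one component, resp. at the crossing points).
* `regLChart_of` : the two inputs give `RegLChartStatement M q h₀`.
-/
import Fermat.Agent.H7.SS2.RegLDefs
import Fermat.Agent.H7.SS2.RegLCore
import Fermat.Agent.H58.KL.ModelTr
import Fermat.Agent.H57.SS.Frob

set_option autoImplicit false
set_option linter.style.haveILetI false
set_option linter.unusedSectionVars false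
set_option linter.unusedVariables false

noncomputable section

namespace Fermat.Agent.H7.SS2

open ModularCurve
open Fermat.Agent.H22.KL
open Fermat.Agent.H48.QExp
open Fermat.Agent.H82.SS
open Fermat.Agent.H7.SS
open Fermat.Agent.H11.SS2

/-! ### The Frobenius congruence -/

section Frob

variable {K₁ : Type} [Field K₁] {A₀ : Type} [CommRing A₀] [IsDomain A₀]
  [IsDiscreteValuationRing A₀] [Algebra A₀ K₁] [IsFractionRing A₀ K₁]

/-- **Frobenius congruence**: `f(t^q) - f(t)^q ∈ 𝔪_∞` for a series `f` with integer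
coefficients. -/
theorem inM_frob (E : IntermediateField K₁ (LaurentSeries K₁)) (q : ℕ) [NeZero q]
    (hq : q.Prime) (hqA : ¬ IsUnit ((q : ℕ) : A₀)) (f : LaurentSeries ℤ)
    (hE : qExpand K₁ q (coeffMap (Int.castRingHom K₁) f)
      - (coeffMap (Int.castRingHom K₁) f) ^ q ∈ E) :
    InM (A₀ := A₀) E (qExpand K₁ q (coeffMap (Int.castRingHom K₁) f)
      - (coeffMap (Int.castRingHom K₁) f) ^ q) := by
  have h0 : ((q : ℕ) : IsLocalRing.ResidueField A₀) = 0 := by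
    have h1 : IsLocalRing.residue A₀ ((q : ℕ) : A₀) = 0 :=
      (IsLocalRing.residue_eq_zero_iff _).mpr ((IsLocalRing.mem_maximalIdeal _).mpr hqA)
    rwa [map_natCast] at h1
  haveI : CharP (IsLocalRing.ResidueField A₀) q := (CharP.charP_iff_prime_eq_zero hq).mpr h0
  set a : LaurentSeries A₀ := qExpand A₀ q (coeffMap (Int.castRingHom A₀) f)
    - (coeffMap (Int.castRingHom A₀) f) ^ q with ha
  have hIa : gIota K₁ A₀ a = qExpand K₁ q (coeffMap (Int.castRingHom K₁) f)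
      - (coeffMap (Int.castRingHom K₁) f) ^ q := by
    rw [ha]
    simp only [map_sub, map_pow, coeffMap_qExpand, coeffMap_coeffMap]
    rw [coeffMap_congr (RingHom.ext_int ((algebraMap A₀ K₁).comp (Int.castRingHom A₀))
      (Int.castRingHom K₁)) f]
  have hRa : gRho A₀ a = 0 := by
    rw [ha]
    simp only [map_sub, map_pow, coeffMap_qExpand, coeffMap_coeffMap]
    rw [coeffMap_congr (RingHom.ext_int ((IsLocalRing.residue A₀).comp (Int.castRingHom A₀))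
      (Int.castRingHom (IsLocalRing.ResidueField A₀))) f]
    rw [Fermat.Agent.H57.SS.frob (IsLocalRing.ResidueField A₀) q hq inferInstance f, sub_self]
  refine ⟨a, 1, ?_, ?_, hRa, ?_, ?_⟩
  · rw [hIa]; exact hE
  · rw [map_one]; exact E.one_mem
  · rw [map_one]; exact one_ne_zero
  · rw [map_one, mul_one, hIa]

end Frob

/-! ### The model -/

section Level

variable (M q : ℕ) [NeZero M] [NeZero q]
  (K₁ : Type) [Field K₁] [Algebra ℚ K₁] [FiniteDimensional ℚ K₁]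
  (A₀ : Type) [CommRing A₀] [IsDomain A₀] [IsDiscreteValuationRing A₀]
  [Algebra A₀ K₁] [IsFractionRing A₀ K₁]
  [Algebra A₀ (ModelField K₁ (M * q))] [IsScalarTower A₀ K₁ (ModelField K₁ (M * q))]

theorem model_algebraMap_injective :
    Function.Injective (algebraMap A₀ (ModelField K₁ (M * q))) := by
  rw [IsScalarTower.algebraMap_eq A₀ K₁ (ModelField K₁ (M * q))]
  exact (algebraMap K₁ (ModelField K₁ (M * q))).injective.comp (IsFractionRing.injective A₀ K₁)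

variable (hqA : ¬ IsUnit ((q : ℕ) : A₀)) (ϖ : A₀) (hϖ : Irreducible ϖ)
  (x : ModelField K₁ (M * q)) (hx : (x : LaurentSeries K₁) = coeffEmb K₁ jq)
  (W : ModelField K₁ (M * q) ≃ₐ[K₁] ModelField K₁ (M * q)) (hW : IsAtkinLehnerModel K₁ M q W)
  (hq : q.Prime) (hqM : ¬ q ∣ M)

include hqA hϖ hx hW hq hqM

/-- The two components in the chart `j`. -/
theorem twoComp_model :
    TwoComp A₀ (ModelField K₁ (M * q)) ϖ x (vInf K₁ A₀ (M * q)) (vZero K₁ A₀ (M * q) W) :=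
  ⟨isVertical_vInf M q K₁ A₀ hqA ϖ hϖ x hx W hW, isVertical_vZero M q K₁ A₀ hqA ϖ hϖ x hx W hW,
    isUniformiser_vInf hϖ, isUniformiser_vZero W hϖ,
    fun z h1 h2 => (piDvdSet_iff_vInf_vZero M q K₁ A₀ hqA ϖ hϖ x hx W hW hq hqM z).2 ⟨h1, h2⟩⟩

/-- The two components in the chart `j⁻¹`. -/
theorem twoComp_model_inv :
    TwoComp A₀ (ModelField K₁ (M * q)) ϖ x⁻¹ (vInf K₁ A₀ (M * q))
      (vZero K₁ A₀ (M * q) W) := by
  have hT : Transcendental A₀ x := Fermat.Agent.H58.modelTranscendental_jq (M * q) K₁ A₀ x hx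
  have hC : gaussClosure A₀ (ModelField K₁ (M * q)) ϖ x⁻¹
      = gaussClosure A₀ (ModelField K₁ (M * q)) ϖ x :=
    (Fermat.Agent.H89.gaussClosureStatement A₀ (ModelField K₁ (M * q))
      (model_algebraMap_injective M q K₁ A₀) ϖ hϖ x hT).2.2
  obtain ⟨⟨a1, a2, a3, a4⟩, ⟨b1, b2, b3, b4⟩, c, d, e⟩ :=
    twoComp_model M q K₁ A₀ hqA ϖ hϖ x hx W hW hq hqM
  refine ⟨⟨a1, a2, ?_, a4⟩, ⟨b1, b2, ?_, b4⟩, c, d, ?_⟩
  · intro z hz
    rw [hC] at hz
    exact a3 z hz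
  · intro z hz
    rw [hC] at hz
    exact b3 z hz
  · intro z h1 h2
    rw [hC]
    exact e z h1 h2

/-- **Classification**: every closed point of the special fibre (either chart) lies on `V_∞`
or on `V_0`. -/
theorem through_vInf_or_vZero (y : ModelField K₁ (M * q)) (hy : y = x ∨ y = x⁻¹)
    (𝔪 : Ideal (chartClosure A₀ (ModelField K₁ (M * q)) y)) (h𝔪 : 𝔪.IsPrime)
    (hϖ𝔪 : algebraMap A₀ (chartClosure A₀ (ModelField K₁ (M * q)) y) ϖ ∈ 𝔪) :
    Through A₀ (ModelField K₁ (M * q)) y 𝔪 (vInf K₁ A₀ (M * q)) ∨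
      Through A₀ (ModelField K₁ (M * q)) y 𝔪 (vZero K₁ A₀ (M * q) W) := by
  have hT : Transcendental A₀ x := Fermat.Agent.H58.modelTranscendental_jq (M * q) K₁ A₀ x hx
  rcases hy with rfl | rfl
  · exact (twoComp_model M q K₁ A₀ hqA ϖ hϖ y hx W hW hq hqM).through_or
      (model_algebraMap_injective M q K₁ A₀) hϖ hT 𝔪 h𝔪 hϖ𝔪
  · exact (twoComp_model_inv M q K₁ A₀ hqA ϖ hϖ x hx W hW hq hqM).through_or
      (model_algebraMap_injective M q K₁ A₀) hϖ (Fermat.Agent.H89.klg_transcendental_inv hT)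
      𝔪 h𝔪 hϖ𝔪

omit hx hϖ hqM in
/-- `X = H_q - H ^ q ∈ 𝔪_∞`. -/
theorem mem_nonunits_vInf_X (f : LaurentSeries ℤ) (H Hq : ModelField K₁ (M * q))
    (hH : (H : LaurentSeries K₁) = coeffMap (Int.castRingHom K₁) f)
    (hHq : (Hq : LaurentSeries K₁) = qExpand K₁ q (coeffMap (Int.castRingHom K₁) f)) :
    Hq - H ^ q ∈ (vInf K₁ A₀ (M * q)).nonunits := by
  rw [mem_nonunits_vInf_iff]
  have h1 : ((Hq - H ^ q : ModelField K₁ (M * q)) : LaurentSeries K₁)
      = qExpand K₁ q (coeffMap (Int.castRingHom K₁) f)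
        - (coeffMap (Int.castRingHom K₁) f) ^ q := by
    rw [← hHq, ← hH]
    rfl
  rw [h1]
  refine inM_frob _ q hq hqA f ?_
  rw [← h1]
  exact (Hq - H ^ q).2

omit hx hϖ hqM in
/-- `Y = H - H_q ^ q ∈ 𝔪_0` if `W H = H_q` and `W H_q = H`. -/
theorem mem_nonunits_vZero_Y (f : LaurentSeries ℤ) (H Hq : ModelField K₁ (M * q))
    (hH : (H : LaurentSeries K₁) = coeffMap (Int.castRingHom K₁) f)
    (hHq : (Hq : LaurentSeries K₁) = qExpand K₁ q (coeffMap (Int.castRingHom K₁) f))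
    (hWH : W H = Hq) (hWHq : W Hq = H) :
    H - Hq ^ q ∈ (vZero K₁ A₀ (M * q) W).nonunits := by
  rw [mem_nonunits_vZero_iff]
  have h1 : W (H - Hq ^ q) = Hq - H ^ q := by
    rw [map_sub, map_pow, hWH, hWHq]
  rw [h1]
  exact mem_nonunits_vInf_X M q K₁ A₀ hqA W hW hq f H Hq hH hHq

end Level

/-! ### The two geometric inputs and the chart `j` -/

/-- **INPUT (points on one component)**: at a maximal ideal `𝔪 ∋ ϖ` of `B(j)` which does not lie
on both components, `𝔪 B_𝔪 = (ϖ, U)`.  (P-SS rows SSH-7: `Fermat.Agent.H41.SS.IsRegularAt`.) -/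
def SmoothGenStatement (M q : ℕ) [NeZero M] [NeZero q] : Prop :=
  ∀ (K₁ : Type) [Field K₁] [Algebra ℚ K₁] [FiniteDimensional ℚ K₁]
    (A₀ : Type) [CommRing A₀] [IsDomain A₀] [IsDiscreteValuationRing A₀]
    [Algebra A₀ K₁] [IsFractionRing A₀ K₁]
    [Algebra A₀ (ModelField K₁ (M * q))] [IsScalarTower A₀ K₁ (ModelField K₁ (M * q))],
    ¬ IsUnit ((q : ℕ) : A₀) →
    ∀ (ϖ : A₀), Irreducible ϖ →
    ∀ (x : ModelField K₁ (M * q)), (x : LaurentSeries K₁) = coeffEmb K₁ jq →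
    ∀ (W : ModelField K₁ (M * q) ≃ₐ[K₁] ModelField K₁ (M * q)), IsAtkinLehnerModel K₁ M q W →
    ∀ 𝔪 : Ideal (chartClosure A₀ (ModelField K₁ (M * q)) x), 𝔪.IsMaximal →
      algebraMap A₀ (chartClosure A₀ (ModelField K₁ (M * q)) x) ϖ ∈ 𝔪 →
      ¬ (Through A₀ (ModelField K₁ (M * q)) x 𝔪 (vInf K₁ A₀ (M * q)) ∧
        Through A₀ (ModelField K₁ (M * q)) x 𝔪 (vZero K₁ A₀ (M * q) W)) →
      ∃ U : chartClosure A₀ (ModelField K₁ (M * q)) x, U ∈ 𝔪 ∧
        ∀ z ∈ 𝔪, ∃ s, s ∉ 𝔪 ∧ ∃ b₁ b₂ : chartClosure A₀ (ModelField K₁ (M * q)) x,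
          s * z = algebraMap A₀ (chartClosure A₀ (ModelField K₁ (M * q)) x) ϖ * b₁ + U * b₂

/-- **INPUT (crossing points)**, unramified base: at a maximal ideal `𝔪 ∋ q` of `B(j)` lying on
both components, `X = H_q - H ^ q` and `Y = H - H_q ^ q` lie in `B(j)`, `d X Y = q ψ` with
`d, ψ ∈ B(j) ∖ 𝔪` (Kronecker's relation, `Ψ̄ ≠ 0` at the supersingular points), and
`𝔪 B_𝔪 = (X, Y)`. -/
def NodeGenStatement (M q : ℕ) [NeZero M] [NeZero q] (h₀ : LaurentSeries ℚ) : Prop :=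
  ∀ (K₁ : Type) [Field K₁] [Algebra ℚ K₁] [FiniteDimensional ℚ K₁]
    (A₀ : Type) [CommRing A₀] [IsDomain A₀] [IsDiscreteValuationRing A₀]
    [Algebra A₀ K₁] [IsFractionRing A₀ K₁]
    [Algebra A₀ (ModelField K₁ (M * q))] [IsScalarTower A₀ K₁ (ModelField K₁ (M * q))],
    Irreducible ((q : ℕ) : A₀) →
    ∀ (x : ModelField K₁ (M * q)), (x : LaurentSeries K₁) = coeffEmb K₁ jq →
    ∀ (W : ModelField K₁ (M * q) ≃ₐ[K₁] ModelField K₁ (M * q)), IsAtkinLehnerModel K₁ M q W →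
    ∀ (H Hq : ModelField K₁ (M * q)), (H : LaurentSeries K₁) = coeffEmb K₁ h₀ →
      (Hq : LaurentSeries K₁) = qExpand K₁ q (coeffEmb K₁ h₀) →
    ∀ 𝔪 : Ideal (chartClosure A₀ (ModelField K₁ (M * q)) x), 𝔪.IsMaximal →
      algebraMap A₀ (chartClosure A₀ (ModelField K₁ (M * q)) x) ((q : ℕ) : A₀) ∈ 𝔪 →
      Through A₀ (ModelField K₁ (M * q)) x 𝔪 (vInf K₁ A₀ (M * q)) →
      Through A₀ (ModelField K₁ (M * q)) x 𝔪 (vZero K₁ A₀ (M * q) W) →
      ∃ X Y d ψ : chartClosure A₀ (ModelField K₁ (M * q)) x,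
        (X : ModelField K₁ (M * q)) = Hq - H ^ q ∧ (Y : ModelField K₁ (M * q)) = H - Hq ^ q ∧
        d ∉ 𝔪 ∧ ψ ∉ 𝔪 ∧
        d * (X * Y) = algebraMap A₀ (chartClosure A₀ (ModelField K₁ (M * q)) x)
          ((q : ℕ) : A₀) * ψ ∧
        ∀ z ∈ 𝔪, ∃ s, s ∉ 𝔪 ∧ ∃ b₁ b₂ : chartClosure A₀ (ModelField K₁ (M * q)) x,
          s * z = X * b₁ + Y * b₂

/-- **REGL in the chart `j`** from the two geometric inputs. -/
theorem regLChart_of (M q : ℕ) [NeZero M] [NeZero q] (hq : q.Prime) (hqM : ¬ q ∣ M)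
    (f : LaurentSeries ℤ)
    (hlev : ∀ (K₁ : Type) [Field K₁] [Algebra ℚ K₁],
      coeffMap (Int.castRingHom K₁) f ∈ laurentBaseChange K₁ (modularFunctionFieldFull M))
    (hS : SmoothGenStatement M q)
    (hN : NodeGenStatement M q (coeffMap (Int.castRingHom ℚ) f)) :
    RegLChartStatement M q (coeffMap (Int.castRingHom ℚ) f) := by
  intro K₁ _ _ _ A₀ _ _ _ _ _ _ _ hqirr x hx W hW H Hq hH hHq 𝔪 h𝔪 hq𝔪
  have hqA : ¬ IsUnit ((q : ℕ) : A₀) := hqirr.not_isUnit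
  have hinj := model_algebraMap_injective M q K₁ A₀
  have hT : Transcendental A₀ x := Fermat.Agent.H58.modelTranscendental_jq (M * q) K₁ A₀ x hx
  have hTC := twoComp_model M q K₁ A₀ hqA _ hqirr x hx W hW hq hqM
  have hcf : coeffEmb K₁ (coeffMap (Int.castRingHom ℚ) f) = coeffMap (Int.castRingHom K₁) f := by
    rw [coeffEmb, coeffMap_coeffMap]
    exact coeffMap_congr (RingHom.ext_int _ _) f
  rw [hcf] at hH hHq
  by_cases hboth : Through A₀ (ModelField K₁ (M * q)) x 𝔪 (vInf K₁ A₀ (M * q)) ∧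
      Through A₀ (ModelField K₁ (M * q)) x 𝔪 (vZero K₁ A₀ (M * q) W)
  · -- node
    obtain ⟨X, Y, d, ψ, hXe, hYe, hd, hψ, hXY, hgen⟩ :=
      hN K₁ A₀ hqirr x hx W hW H Hq (by rw [hcf]; exact hH) (by rw [hcf]; exact hHq) 𝔪 h𝔪 hq𝔪
        hboth.1 hboth.2
    -- `W H = H_q`, `W H_q = H`
    set H' : ModelField K₁ M := ⟨coeffMap (Int.castRingHom K₁) f, hlev K₁⟩ with hH'
    have hα : heckeAlphaBar K₁ M q H' = H := Subtype.ext (by rw [coe_heckeAlphaBar, hH])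
    have hβ : heckeBetaBar K₁ M q H' = Hq := Subtype.ext (by rw [coe_heckeBetaBar, hHq])
    have hWH : W H = Hq := by rw [← hα, hW.1, hβ]
    have hWHq : W Hq = H := by rw [← hβ, hW.2, hα]
    have hXV : (X : ModelField K₁ (M * q)) ∈ (vInf K₁ A₀ (M * q)).nonunits := by
      rw [hXe]
      exact mem_nonunits_vInf_X M q K₁ A₀ hqA W hW hq f H Hq hH hHq
    have hYV : (Y : ModelField K₁ (M * q)) ∈ (vZero K₁ A₀ (M * q) W).nonunits := by
      rw [hYe]
      exact mem_nonunits_vZero_Y M q K₁ A₀ hqA W hW hq f H Hq hH hHq hWH hWHq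
    have := hTC.isRegPoint_node hinj hqirr hT 𝔪 h𝔪.isPrime hboth.1 hboth.2 X Y d ψ hXV hYV hd hψ
      hXY hgen
    rw [hXe, hYe] at this
    exact Or.inr (Or.inr this)
  · obtain ⟨U, hU, hgen⟩ := hS K₁ A₀ hqA _ hqirr x hx W hW 𝔪 h𝔪 hq𝔪 hboth
    rcases hTC.through_or hinj hqirr hT 𝔪 h𝔪.isPrime hq𝔪 with h1 | h2
    · have h2 : ¬ Through A₀ (ModelField K₁ (M * q)) x 𝔪 (vZero K₁ A₀ (M * q) W) :=
        fun h2 => hboth ⟨h1, h2⟩
      exact Or.inl ⟨h2, U, hTC.isRegPoint_smooth hinj hqirr hT 𝔪 h𝔪.isPrime h1 h2 U hU hgen⟩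
    · have h1 : ¬ Through A₀ (ModelField K₁ (M * q)) x 𝔪 (vInf K₁ A₀ (M * q)) :=
        fun h1 => hboth ⟨h1, h2⟩
      exact Or.inr (Or.inl ⟨h1, U,
        hTC.symm.isRegPoint_smooth hinj hqirr hT 𝔪 h𝔪.isPrime h2 h1 U hU hgen⟩)

end Fermat.Agent.H7.SS2

end
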