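/-
P-SS2 row 900 (SS2-C3 REGL), layer 4: CHART TRANSFER of regular points.  helper7.

`𝔪` a prime ideal of `B(y⁻¹)` with `y⁻¹ ∉ 𝔪`, `𝔪' = ctIdeal y hy 𝔪` the corresponding ideal of
`B(y)` (`Fermat.Agent.H66.CT`).  The local rings coincide:

* `inLoc_ct_iff`    : `InLoc A E y⁻¹ 𝔪 z ↔ InLoc A E y 𝔪' z`;
* `isLocUnit_ct_iff`;
* `through_ct_iff`  : `Through A E y⁻¹ 𝔪 V ↔ Through A E y 𝔪' V` (for `V ⊇ B(y), B(y⁻¹)`);
* `isRegPoint_ct`   : `IsRegPoint A E ϖ y 𝔪' V x₁ x₂ → IsRegPoint A E ϖ y⁻¹ 𝔪 V (y⁻ᵃ x₁) (y⁻ᵇ x₂)`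
  as soon as `y⁻ᵃ x₁, y⁻ᵇ x₂ ∈ B(y⁻¹)`;
* `regLAt_ct`       : `RegLAtOne` (or `RegLAt`) at `𝔪'` gives `RegLAt` at `𝔪`.
-/
import Fermat.Agent.H7.SS2.RegLDefs
import Fermat.Agent.H66.SS.ChartTransfer

set_option autoImplicit false
set_option linter.style.haveILetI false
set_option linter.unusedSectionVars false
set_option linter.unusedVariables false

noncomputable section

namespace Fermat.Agent.H7.SS2

open Fermat.Agent.H22.KL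
open Fermat.Agent.H11.SS2
open Fermat.Agent.H66.CT

section Transfer

variable {A : Type} [CommRing A] {E : Type} [Field E] [Algebra A E]
  {y : E} {𝔪 : Ideal (chartClosure A E y⁻¹)}

theorem ct_pow_mem (x : E) (k : ℕ) : x ^ k ∈ chartClosure A E x :=
  Subalgebra.pow_mem _ (ct_self_mem (A := A) x) k

/-- raise the exponent: `y⁻ʲ r ∈ B(y⁻¹)` implies `y⁻⁽ʲ⁺ⁱ⁾ r ∈ B(y⁻¹)`. -/
theorem ct_inv_pow_add_mem {r : E} {j : ℕ} (h : y⁻¹ ^ j * r ∈ chartClosure A E y⁻¹) (i : ℕ) :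
    y⁻¹ ^ (j + i) * r ∈ chartClosure A E y⁻¹ := by
  have h1 : y⁻¹ ^ (j + i) * r = y⁻¹ ^ i * (y⁻¹ ^ j * r) := by ring
  rw [h1]
  exact Subalgebra.mul_mem _ (ct_pow_mem y⁻¹ i) h

/-- overlap in the other direction. -/
theorem ct_overlap_inv (hy : y ≠ 0) (r : E) (hr : r ∈ chartClosure A E y⁻¹) :
    ∃ k : ℕ, y ^ k * r ∈ chartClosure A E y := by
  obtain ⟨k, hk⟩ := Fermat.Agent.H85.klc_overlap (A := A) (inv_ne_zero hy) r hr
  rw [inv_inv] at hk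
  exact ⟨k, hk⟩

theorem ct_pow_add_mem {r : E} {j : ℕ} (h : y ^ j * r ∈ chartClosure A E y) (i : ℕ) :
    y ^ (j + i) * r ∈ chartClosure A E y := by
  have h1 : y ^ (j + i) * r = y ^ i * (y ^ j * r) := by ring
  rw [h1]
  exact Subalgebra.mul_mem _ (ct_pow_mem y i) h

variable (hy : y ≠ 0) [h𝔪 : 𝔪.IsPrime] (hun : y⁻¹ ∉ ctImg (chartClosure A E y⁻¹) 𝔪)

include hun in
/-- an element of `B(y)` of the form `y ^ k * b`, `b ∈ B(y⁻¹) ∖ 𝔪`, is not in `𝔪'`. -/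
theorem ct_not_mem_of_pow_mul {b : chartClosure A E y⁻¹} (hb : b ∉ 𝔪) (k : ℕ)
    (h : y ^ k * (b : E) ∈ chartClosure A E y) :
    (⟨y ^ k * (b : E), h⟩ : chartClosure A E y) ∉ ctIdeal y hy 𝔪 := by
  intro hmem
  rw [mem_ctIdeal] at hmem
  have h1 : y⁻¹ ^ k * (y ^ k * (b : E)) = (b : E) := by
    rw [← mul_assoc, ← mul_pow, inv_mul_cancel₀ hy, one_pow, one_mul]
  have h2 := ctSet_all hun hmem k (by rw [h1]; exact b.2)
  rw [h1] at h2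
  exact hb ((ctImg_coe b).1 h2)

include hun in
/-- **The local rings coincide.** -/
theorem inLoc_ct_iff (z : E) :
    InLoc A E y⁻¹ 𝔪 z ↔ InLoc A E y (ctIdeal y hy 𝔪) z := by
  constructor
  · rintro ⟨b, hb, hbz⟩
    obtain ⟨j₁, hj₁⟩ := ct_overlap_inv (A := A) hy (b : E) b.2
    obtain ⟨j₂, hj₂⟩ := ct_overlap_inv (A := A) hy ((b : E) * z) hbz
    have h1 := ct_pow_add_mem hj₁ j₂
    have h2 : y ^ (j₁ + j₂) * ((b : E) * z) ∈ chartClosure A E y := by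
      have := ct_pow_add_mem hj₂ j₁
      rwa [add_comm] at this
    refine ⟨⟨_, h1⟩, ct_not_mem_of_pow_mul hy hun hb _ h1, ?_⟩
    show y ^ (j₁ + j₂) * (b : E) * z ∈ chartClosure A E y
    rw [mul_assoc]
    exact h2
  · rintro ⟨b, hb, hbz⟩
    obtain ⟨j₁, hj₁⟩ := Fermat.Agent.H85.klc_overlap (A := A) hy (b : E) b.2
    obtain ⟨j₂, hj₂⟩ := Fermat.Agent.H85.klc_overlap (A := A) hy ((b : E) * z) hbz
    have h1 := ct_inv_pow_add_mem hj₁ j₂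
    have h2 : y⁻¹ ^ (j₁ + j₂) * ((b : E) * z) ∈ chartClosure A E y⁻¹ := by
      have := ct_inv_pow_add_mem hj₂ j₁
      rwa [add_comm] at this
    refine ⟨⟨_, h1⟩, ?_, ?_⟩
    · intro hmem
      apply hb
      rw [mem_ctIdeal]
      exact ⟨j₁ + j₂, (ctImg_coe (⟨_, h1⟩ : chartClosure A E y⁻¹)).2 hmem⟩
    · show y⁻¹ ^ (j₁ + j₂) * (b : E) * z ∈ chartClosure A E y⁻¹
      rw [mul_assoc]
      exact h2

include hun in
theorem isLocUnit_ct_iff (z : E) :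
    IsLocUnit A E y⁻¹ 𝔪 z ↔ IsLocUnit A E y (ctIdeal y hy 𝔪) z := by
  unfold IsLocUnit
  rw [inLoc_ct_iff hy hun, inLoc_ct_iff hy hun]

include hy hun in
/-- `y` and `y⁻¹` are units of the local ring. -/
theorem inLoc_zpow (n : ℤ) : InLoc A E y⁻¹ 𝔪 (y ^ n) := by
  have hne : (⟨y⁻¹, ct_self_mem (A := A) y⁻¹⟩ : chartClosure A E y⁻¹) ∉ 𝔪 := fun h =>
    hun ⟨ct_self_mem (A := A) y⁻¹, h⟩
  have hpow : ∀ k : ℕ, (⟨y⁻¹, ct_self_mem (A := A) y⁻¹⟩ : chartClosure A E y⁻¹) ^ k ∉ 𝔪 :=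
    fun k h => hne (h𝔪.mem_of_pow_mem k h)
  rcases Int.eq_nat_or_neg n with ⟨k, rfl | rfl⟩
  · refine ⟨⟨y⁻¹, ct_self_mem (A := A) y⁻¹⟩ ^ k, hpow k, ?_⟩
    have : ((⟨y⁻¹, ct_self_mem (A := A) y⁻¹⟩ ^ k : chartClosure A E y⁻¹) : E) * y ^ (k : ℤ)
        = 1 := by
      push_cast
      rw [zpow_natCast, ← mul_pow, inv_mul_cancel₀ hy, one_pow]
    rw [this]
    exact Subalgebra.one_mem _
  · refine ⟨1, fun h => h𝔪.ne_top ((Ideal.eq_top_iff_one 𝔪).2 h), ?_⟩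
    have : ((1 : chartClosure A E y⁻¹) : E) * y ^ (-(k : ℤ)) = y⁻¹ ^ k := by
      push_cast
      rw [one_mul, zpow_neg, zpow_natCast, inv_pow]
    rw [this]
    exact ct_pow_mem y⁻¹ k

theorem inLoc_mul' {x : E} {𝔫 : Ideal (chartClosure A E x)} (h𝔫 : 𝔫.IsPrime) {z w : E}
    (hz : InLoc A E x 𝔫 z) (hw : InLoc A E x 𝔫 w) : InLoc A E x 𝔫 (z * w) := by
  obtain ⟨b, hb, hbz⟩ := hz
  obtain ⟨c, hc, hcw⟩ := hw
  refine ⟨b * c, fun h => (h𝔫.mem_or_mem h).elim hb hc, ?_⟩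
  have h1 : ((b * c : chartClosure A E x) : E) * (z * w)
      = ((b : E) * z) * ((c : E) * w) := by
    push_cast; ring
  rw [h1]
  exact Subalgebra.mul_mem _ hbz hcw

include hun in
/-- **The components through the point coincide.** -/
theorem through_ct_iff (V : ValuationSubring E)
    (h₁ : ∀ s ∈ chartClosure A E y, s ∈ V) (h₂ : ∀ s ∈ chartClosure A E y⁻¹, s ∈ V) :
    Through A E y⁻¹ 𝔪 V ↔ Through A E y (ctIdeal y hy 𝔪) V := by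
  have hyV : y ∈ V := h₁ y (ct_self_mem (A := A) y)
  have hyiV : y⁻¹ ∈ V := h₂ y⁻¹ (ct_self_mem (A := A) y⁻¹)
  have hmul : ∀ {a b : E}, a ∈ V → b ∈ V.nonunits → a * b ∈ V.nonunits := by
    intro a b ha hb
    rw [ValuationSubring.mem_nonunits_iff] at hb ⊢
    rw [map_mul, mul_comm]
    exact mul_lt_one_of_lt_of_le hb ((V.valuation_le_one_iff a).2 ha)
  constructor
  · intro h s hs
    obtain ⟨k, hk⟩ := Fermat.Agent.H85.klc_overlap (A := A) hy (s : E) s.2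
    rw [mem_ctIdeal]
    refine ⟨k, ?_⟩
    have h3 := h ⟨_, hk⟩ (hmul (V.pow_mem hyiV k) hs)
    exact (ctImg_coe (⟨_, hk⟩ : chartClosure A E y⁻¹)).2 h3
  · intro h s hs
    obtain ⟨k, hk⟩ := ct_overlap_inv (A := A) hy (s : E) s.2
    have h3 := h ⟨_, hk⟩ (hmul (V.pow_mem hyV k) hs)
    by_contra hs𝔪
    exact ct_not_mem_of_pow_mul hy hun hs𝔪 k hk h3

include hun in
/-- **Chart transfer of a regular point.** -/
theorem isRegPoint_ct [IsDomain A] [IsDiscreteValuationRing A]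
    (hinj : Function.Injective (algebraMap A E)) {ϖ : A} (hϖ : Irreducible ϖ)
    (hyT : Transcendental A y) (V : ValuationSubring E) (x₁ x₂ : E)
    (h : IsRegPoint A E ϖ y (ctIdeal y hy 𝔪) V x₁ x₂) (a b : ℕ)
    (ha : y⁻¹ ^ a * x₁ ∈ chartClosure A E y⁻¹) (hb : y⁻¹ ^ b * x₂ ∈ chartClosure A E y⁻¹) :
    IsRegPoint A E ϖ y⁻¹ 𝔪 V (y⁻¹ ^ a * x₁) (y⁻¹ ^ b * x₂) := by
  obtain ⟨hC1, hC2, hC3⟩ := Fermat.Agent.H89.gaussClosureStatement A E hinj ϖ hϖ y hyT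
  have hyiT : Transcendental A y⁻¹ := Fermat.Agent.H89.klg_transcendental_inv hyT
  obtain ⟨hC1', -, -⟩ := Fermat.Agent.H89.gaussClosureStatement A E hinj ϖ hϖ y⁻¹ hyiT
  have hvert : IsVertical A E ϖ y⁻¹ V := by
    obtain ⟨v1, v2, v3, v4⟩ := h.vert
    refine ⟨v1, v2, ?_, v4⟩
    intro z hz
    rw [hC3] at hz
    exact v3 z hz
  have h₁ : ∀ s ∈ chartClosure A E y, s ∈ V := fun s hs => h.vert.2.2.1 s (hC1 s hs)
  have h₂ : ∀ s ∈ chartClosure A E y⁻¹, s ∈ V := fun s hs => hvert.2.2.1 s (hC1' s hs)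
  have hyV : y ∈ V := h₁ y (ct_self_mem (A := A) y)
  have hyiV : y⁻¹ ∈ V := h₂ y⁻¹ (ct_self_mem (A := A) y⁻¹)
  have hthru : Through A E y⁻¹ 𝔪 V := (through_ct_iff hy hun V h₁ h₂).2 h.thru
  have hpow0 : ∀ k : ℕ, y⁻¹ ^ k ≠ 0 := fun k => pow_ne_zero k (inv_ne_zero hy)
  have hL : ∀ z : E, InLoc A E y (ctIdeal y hy 𝔪) z → InLoc A E y⁻¹ 𝔪 z :=
    fun z hz => (inLoc_ct_iff hy hun z).2 hz
  have hLy : ∀ n : ℤ, InLoc A E y⁻¹ 𝔪 (y ^ n) := inLoc_zpow hy hun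
  refine ⟨hvert, hthru, ha, hb, ?_, ?_, ?_, ?_⟩
  · -- `y⁻ᵇ x₂ ∈ 𝔪`
    intro hb'
    have hx₂ : (⟨x₂, h.mem₂⟩ : chartClosure A E y) ∈ ctIdeal y hy 𝔪 := h.mem_max₂ h.mem₂
    rw [mem_ctIdeal] at hx₂
    exact (ctImg_coe (⟨_, hb'⟩ : chartClosure A E y⁻¹)).1 (ctSet_all hun hx₂ b hb')
  · -- uniformiser
    obtain ⟨u0, u1, u2⟩ := h.unif
    refine ⟨mul_ne_zero (hpow0 a) u0, ?_, ?_⟩
    · rw [ValuationSubring.mem_nonunits_iff] at u1 ⊢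
      rw [map_mul, mul_comm]
      exact mul_lt_one_of_lt_of_le u1 ((V.valuation_le_one_iff _).2 (V.pow_mem hyiV a))
    · intro z hz
      have h3 : z / (y⁻¹ ^ a * x₁) = y ^ a * (z / x₁) := by
        rw [inv_pow]
        field_simp
      rw [h3]
      exact V.mul_mem _ _ (V.pow_mem hyV a) (u2 z hz)
  · -- `prin`
    intro s hs
    obtain ⟨k, hk⟩ := ct_overlap_inv (A := A) hy (s : E) s.2
    have hs' : y ^ k * (s : E) ∈ V.nonunits := by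
      rw [ValuationSubring.mem_nonunits_iff] at hs ⊢
      rw [map_mul, mul_comm]
      exact mul_lt_one_of_lt_of_le hs ((V.valuation_le_one_iff _).2 (V.pow_mem hyV k))
    have h3 := hL _ (h.prin ⟨_, hk⟩ hs')
    have h4 : (s : E) / (y⁻¹ ^ a * x₁) = y ^ ((a : ℤ) - (k : ℤ)) * (y ^ k * (s : E) / x₁) := by
      rw [zpow_sub₀ hy, zpow_natCast, zpow_natCast, inv_pow]
      have hx₁0 : x₁ ≠ 0 := h.unif.1
      field_simp
    rw [h4]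
    exact inLoc_mul' h𝔪 (hLy _) h3
  · -- `gen`
    intro s hs
    obtain ⟨k, hk⟩ := ct_overlap_inv (A := A) hy (s : E) s.2
    have hs' : (⟨_, hk⟩ : chartClosure A E y) ∈ ctIdeal y hy 𝔪 := by
      rw [mem_ctIdeal]
      refine ⟨k, ?_⟩
      have h1 : y⁻¹ ^ k * (y ^ k * (s : E)) = (s : E) := by
        rw [← mul_assoc, ← mul_pow, inv_mul_cancel₀ hy, one_pow, one_mul]
      show y⁻¹ ^ k * (y ^ k * (s : E)) ∈ ctImg (chartClosure A E y⁻¹) 𝔪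
      rw [h1]
      exact (ctImg_coe s).2 hs
    obtain ⟨c₁, c₂, hc₁, hc₂, hsum⟩ := h.gen ⟨_, hk⟩ hs'
    refine ⟨y ^ ((a : ℤ) - (k : ℤ)) * c₁, y ^ ((b : ℤ) - (k : ℤ)) * c₂,
      inLoc_mul' h𝔪 (hLy _) (hL _ hc₁), inLoc_mul' h𝔪 (hLy _) (hL _ hc₂), ?_⟩
    have hsum' : y ^ k * (s : E) = c₁ * x₁ + c₂ * x₂ := hsum
    have hyk : y ^ k ≠ 0 := pow_ne_zero k hy
    have h5 : (s : E) = (y ^ k)⁻¹ * (c₁ * x₁ + c₂ * x₂) := by
      rw [← hsum', ← mul_assoc, inv_mul_cancel₀ hyk, one_mul]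
    rw [h5]
    simp only [zpow_sub₀ hy, zpow_natCast, inv_pow]
    have hya : y ^ a ≠ 0 := pow_ne_zero a hy
    have hyb : y ^ b ≠ 0 := pow_ne_zero b hy
    field_simp

include hun in
/-- **Chart transfer of REGL**: from the chart `y` (at `𝔪'`) to the chart `y⁻¹` (at `𝔪`). -/
theorem regLAt_ct [IsDomain A] [IsDiscreteValuationRing A]
    (hinj : Function.Injective (algebraMap A E)) {ϖ : A} (hϖ : Irreducible ϖ)
    (hyT : Transcendental A y) (V₁ V₂ : ValuationSubring E)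
    (hV₁ : IsVertical A E ϖ y V₁) (hV₂ : IsVertical A E ϖ y V₂) (X Y : E)
    (h : RegLAt A E ϖ y (ctIdeal y hy 𝔪) V₁ V₂ X Y) :
    RegLAt A E ϖ y⁻¹ 𝔪 V₁ V₂ X Y := by
  obtain ⟨hC1, hC2, hC3⟩ := Fermat.Agent.H89.gaussClosureStatement A E hinj ϖ hϖ y hyT
  have hyiT : Transcendental A y⁻¹ := Fermat.Agent.H89.klg_transcendental_inv hyT
  obtain ⟨hC1', -, -⟩ := Fermat.Agent.H89.gaussClosureStatement A E hinj ϖ hϖ y⁻¹ hyiT
  have hB₁ : ∀ (V : ValuationSubring E), IsVertical A E ϖ y V →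
      ∀ s ∈ chartClosure A E y, s ∈ V := fun V hV s hs => hV.2.2.1 s (hC1 s hs)
  have hB₂ : ∀ (V : ValuationSubring E), IsVertical A E ϖ y V →
      ∀ s ∈ chartClosure A E y⁻¹, s ∈ V := fun V hV s hs =>
    hV.2.2.1 s (by rw [← hC3]; exact hC1' s hs)
  have hϖB : algebraMap A E ϖ ∈ chartClosure A E y⁻¹ := Subalgebra.algebraMap_mem _ ϖ
  have hϖ0 : y⁻¹ ^ 0 * algebraMap A E ϖ = algebraMap A E ϖ := by rw [pow_zero, one_mul]
  rcases h with ⟨hn, U, hU⟩ | ⟨hn, U, hU⟩ | ⟨e, he, h1, h2, h3⟩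
  · left
    refine ⟨fun ht => hn ((through_ct_iff hy hun V₂ (hB₁ V₂ hV₂) (hB₂ V₂ hV₂)).1 ht), ?_⟩
    obtain ⟨k, hk⟩ := Fermat.Agent.H85.klc_overlap (A := A) hy U hU.mem₂
    have := isRegPoint_ct hy hun hinj hϖ hyT V₁ _ _ hU 0 k (by rw [hϖ0]; exact hϖB) hk
    rw [hϖ0] at this
    exact ⟨_, this⟩
  · right; left
    refine ⟨fun ht => hn ((through_ct_iff hy hun V₁ (hB₁ V₁ hV₁) (hB₂ V₁ hV₁)).1 ht), ?_⟩
    obtain ⟨k, hk⟩ := Fermat.Agent.H85.klc_overlap (A := A) hy U hU.mem₂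
    have := isRegPoint_ct hy hun hinj hϖ hyT V₂ _ _ hU 0 k (by rw [hϖ0]; exact hϖB) hk
    rw [hϖ0] at this
    exact ⟨_, this⟩
  · right; right
    obtain ⟨k₁, hk₁⟩ := Fermat.Agent.H85.klc_overlap (A := A) hy (e * X) h1.mem₁
    obtain ⟨k₂, hk₂⟩ := Fermat.Agent.H85.klc_overlap (A := A) hy (e * Y) h1.mem₂
    have hkX := ct_inv_pow_add_mem hk₁ k₂
    have hkY : y⁻¹ ^ (k₁ + k₂) * (e * Y) ∈ chartClosure A E y⁻¹ := by
      have := ct_inv_pow_add_mem hk₂ k₁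
      rwa [add_comm] at this
    have r1 := isRegPoint_ct hy hun hinj hϖ hyT V₁ _ _ h1 (k₁ + k₂) (k₁ + k₂) hkX hkY
    have r2 := isRegPoint_ct hy hun hinj hϖ hyT V₂ _ _ h2 (k₁ + k₂) (k₁ + k₂) hkY hkX
    refine ⟨y⁻¹ ^ (k₁ + k₂) * e, ?_, ?_, ?_, (isLocUnit_ct_iff hy hun _).2 h3⟩
    · have he' := (isLocUnit_ct_iff hy hun e).2 he
      refine ⟨mul_ne_zero (pow_ne_zero _ (inv_ne_zero hy)) he'.1, ?_, ?_⟩
      · have := inLoc_mul' h𝔪 (inLoc_zpow hy hun (-((k₁ + k₂ : ℕ) : ℤ))) he'.2.1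
        rwa [zpow_neg, zpow_natCast, ← inv_pow] at this
      · have := inLoc_mul' h𝔪 (inLoc_zpow hy hun (((k₁ + k₂ : ℕ) : ℤ))) he'.2.2
        rw [zpow_natCast] at this
        rw [mul_inv, inv_pow, inv_inv]
        exact this
    · rw [mul_assoc, mul_assoc]
      exact r1
    · rw [mul_assoc, mul_assoc]
      exact r2

end Transfer

end Fermat.Agent.H7.SS2

end
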