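/-
P-SS2 row 900 (SS2-C3 REGL), layer 5: ASSEMBLY, both charts, roots of unity allowed.  helper7.

`RegLRStatement M q h₀ R` : `RegLStatement M q h₀` for the number fields `K₁` containing a
primitive `R`-th root of unity (the P-SS providers of the regularity of level `M` need `μ_R`).

THE THREE GEOMETRIC INPUTS (exact Props):

* `SmoothGenRStatement M q R` : chart `j`, `𝔪 ∋ ϖ` not on both components: `𝔪 B_𝔪 = (ϖ, U)`;
* `NodeGenRStatement M q h₀ R` : chart `j`, unramified base, `𝔪 ∋ q` on both components: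
  `X, Y ∈ B`, `d X Y = q ψ` with `d, ψ ∉ 𝔪`, `𝔪 B_𝔪 = (X, Y)`;
* `CuspGenRStatement M q R` : chart `j⁻¹`, `𝔪 ∋ ϖ, j⁻¹`: `𝔪` is not on both components and
  `𝔪 B_𝔪 = (ϖ, U)`.

`regLR_of : SmoothGenRStatement M q R → NodeGenRStatement M q h₀ R → CuspGenRStatement M q R →
  RegLRStatement M q h₀ R`  (`h₀` integral, of level `M`).
-/
import Fermat.Agent.H7.SS2.RegLModel
import Fermat.Agent.H7.SS2.RegLTransfer

set_option autoImplicit false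
set_option linter.style.haveILetI false
set_option linter.unusedSectionVars false
set_option linter.unusedVariables false

noncomputable section

namespace Fermat.Agent.H7.SS2

open ModularCurve
open Fermat.Agent.H22.KL
open Fermat.Agent.H48.QExp
open Fermat.Agent.H82.SS
open Fermat.Agent.H7.SS
open Fermat.Agent.H11.SS2
open Fermat.Agent.H66.CT

/-- **REGL with roots of unity**: `RegLStatement` for the number fields containing `μ_R`. -/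
def RegLRStatement (M q : ℕ) [NeZero M] [NeZero q] (h₀ : LaurentSeries ℚ) (R : ℕ) : Prop :=
  ∀ (K₁ : Type) [Field K₁] [Algebra ℚ K₁] [FiniteDimensional ℚ K₁]
    (A₀ : Type) [CommRing A₀] [IsDomain A₀] [IsDiscreteValuationRing A₀]
    [Algebra A₀ K₁] [IsFractionRing A₀ K₁]
    [Algebra A₀ (ModelField K₁ (M * q))] [IsScalarTower A₀ K₁ (ModelField K₁ (M * q))],
    Irreducible ((q : ℕ) : A₀) →
    (∃ ζ : K₁, IsPrimitiveRoot ζ R) →
    ∀ (x : ModelField K₁ (M * q)), (x : LaurentSeries K₁) = coeffEmb K₁ jq →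
    ∀ (W : ModelField K₁ (M * q) ≃ₐ[K₁] ModelField K₁ (M * q)), IsAtkinLehnerModel K₁ M q W →
    ∀ (H Hq : ModelField K₁ (M * q)), (H : LaurentSeries K₁) = coeffEmb K₁ h₀ →
      (Hq : LaurentSeries K₁) = qExpand K₁ q (coeffEmb K₁ h₀) →
    ∀ (y : ModelField K₁ (M * q)), y = x ∨ y = x⁻¹ →
    ∀ 𝔪 : Ideal (chartClosure A₀ (ModelField K₁ (M * q)) y), 𝔪.IsMaximal →
      algebraMap A₀ (chartClosure A₀ (ModelField K₁ (M * q)) y) ((q : ℕ) : A₀) ∈ 𝔪 →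
      RegLAt A₀ (ModelField K₁ (M * q)) ((q : ℕ) : A₀) y 𝔪
        (vInf K₁ A₀ (M * q)) (vZero K₁ A₀ (M * q) W) (Hq - H ^ q) (H - Hq ^ q)

/-- **REGL in the chart `j` with roots of unity.** -/
def RegLChartRStatement (M q : ℕ) [NeZero M] [NeZero q] (h₀ : LaurentSeries ℚ) (R : ℕ) :
    Prop :=
  ∀ (K₁ : Type) [Field K₁] [Algebra ℚ K₁] [FiniteDimensional ℚ K₁]
    (A₀ : Type) [CommRing A₀] [IsDomain A₀] [IsDiscreteValuationRing A₀]
    [Algebra A₀ K₁] [IsFractionRing A₀ K₁]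
    [Algebra A₀ (ModelField K₁ (M * q))] [IsScalarTower A₀ K₁ (ModelField K₁ (M * q))],
    Irreducible ((q : ℕ) : A₀) →
    (∃ ζ : K₁, IsPrimitiveRoot ζ R) →
    ∀ (x : ModelField K₁ (M * q)), (x : LaurentSeries K₁) = coeffEmb K₁ jq →
    ∀ (W : ModelField K₁ (M * q) ≃ₐ[K₁] ModelField K₁ (M * q)), IsAtkinLehnerModel K₁ M q W →
    ∀ (H Hq : ModelField K₁ (M * q)), (H : LaurentSeries K₁) = coeffEmb K₁ h₀ →
      (Hq : LaurentSeries K₁) = qExpand K₁ q (coeffEmb K₁ h₀) →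
    ∀ 𝔪 : Ideal (chartClosure A₀ (ModelField K₁ (M * q)) x), 𝔪.IsMaximal →
      algebraMap A₀ (chartClosure A₀ (ModelField K₁ (M * q)) x) ((q : ℕ) : A₀) ∈ 𝔪 →
      RegLAtOne A₀ (ModelField K₁ (M * q)) ((q : ℕ) : A₀) x 𝔪
        (vInf K₁ A₀ (M * q)) (vZero K₁ A₀ (M * q) W) (Hq - H ^ q) (H - Hq ^ q)

/-- **INPUT (points on one component, chart `j`)**. -/
def SmoothGenRStatement (M q : ℕ) [NeZero M] [NeZero q] (R : ℕ) : Prop :=
  ∀ (K₁ : Type) [Field K₁] [Algebra ℚ K₁] [FiniteDimensional ℚ K₁]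
    (A₀ : Type) [CommRing A₀] [IsDomain A₀] [IsDiscreteValuationRing A₀]
    [Algebra A₀ K₁] [IsFractionRing A₀ K₁]
    [Algebra A₀ (ModelField K₁ (M * q))] [IsScalarTower A₀ K₁ (ModelField K₁ (M * q))],
    ¬ IsUnit ((q : ℕ) : A₀) →
    (∃ ζ : K₁, IsPrimitiveRoot ζ R) →
    ∀ (ϖ : A₀), Irreducible ϖ →
    ∀ (x : ModelField K₁ (M * q)), (x : LaurentSeries K₁) = coeffEmb K₁ jq →
    ∀ (W : ModelField K₁ (M * q) ≃ₐ[K₁] ModelField K₁ (M * q)), IsAtkinLehnerModel K₁ M q W →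
    ∀ 𝔪 : Ideal (chartClosure A₀ (ModelField K₁ (M * q)) x), 𝔪.IsMaximal →
      algebraMap A₀ (chartClosure A₀ (ModelField K₁ (M * q)) x) ϖ ∈ 𝔪 →
      ¬ (Through A₀ (ModelField K₁ (M * q)) x 𝔪 (vInf K₁ A₀ (M * q)) ∧
        Through A₀ (ModelField K₁ (M * q)) x 𝔪 (vZero K₁ A₀ (M * q) W)) →
      ∃ U : chartClosure A₀ (ModelField K₁ (M * q)) x, U ∈ 𝔪 ∧
        ∀ z ∈ 𝔪, ∃ s, s ∉ 𝔪 ∧ ∃ b₁ b₂ : chartClosure A₀ (ModelField K₁ (M * q)) x,
          s * z = algebraMap A₀ (chartClosure A₀ (ModelField K₁ (M * q)) x) ϖ * b₁ + U * b₂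

/-- **INPUT (crossing points, chart `j`)**, unramified base. -/
def NodeGenRStatement (M q : ℕ) [NeZero M] [NeZero q] (h₀ : LaurentSeries ℚ) (R : ℕ) : Prop :=
  ∀ (K₁ : Type) [Field K₁] [Algebra ℚ K₁] [FiniteDimensional ℚ K₁]
    (A₀ : Type) [CommRing A₀] [IsDomain A₀] [IsDiscreteValuationRing A₀]
    [Algebra A₀ K₁] [IsFractionRing A₀ K₁]
    [Algebra A₀ (ModelField K₁ (M * q))] [IsScalarTower A₀ K₁ (ModelField K₁ (M * q))],
    Irreducible ((q : ℕ) : A₀) →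
    (∃ ζ : K₁, IsPrimitiveRoot ζ R) →
    ∀ (x : ModelField K₁ (M * q)), (x : LaurentSeries K₁) = coeffEmb K₁ jq →
    ∀ (W : ModelField K₁ (M * q) ≃ₐ[K₁] ModelField K₁ (M * q)), IsAtkinLehnerModel K₁ M q W →
    ∀ (H Hq : ModelField K₁ (M * q)), (H : LaurentSeries K₁) = coeffEmb K₁ h₀ →
      (Hq : LaurentSeries K₁) = qExpand K₁ q (coeffEmb K₁ h₀) →
    ∀ 𝔪 : Ideal (chartClosure A₀ (ModelField K₁ (M * q)) x), 𝔪.IsMaximal →
      algebraMap A₀ (chartClosure A₀ (ModelField K₁ (M * q)) x) ((q : ℕ) : A₀) ∈ 𝔪 →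
      Through A₀ (ModelField K₁ (M * q)) x 𝔪 (vInf K₁ A₀ (M * q)) →
      Through A₀ (ModelField K₁ (M * q)) x 𝔪 (vZero K₁ A₀ (M * q) W) →
      ∃ X Y d ψ : chartClosure A₀ (ModelField K₁ (M * q)) x,
        (X : ModelField K₁ (M * q)) = Hq - H ^ q ∧ (Y : ModelField K₁ (M * q)) = H - Hq ^ q ∧
        d ∉ 𝔪 ∧ ψ ∉ 𝔪 ∧
        d * (X * Y) = algebraMap A₀ (chartClosure A₀ (ModelField K₁ (M * q)) x)
          ((q : ℕ) : A₀) * ψ ∧
        ∀ z ∈ 𝔪, ∃ s, s ∉ 𝔪 ∧ ∃ b₁ b₂ : chartClosure A₀ (ModelField K₁ (M * q)) x,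
          s * z = X * b₁ + Y * b₂

/-- **INPUT (cusps, chart `j⁻¹`)**: a maximal ideal `𝔪 ∋ ϖ, j⁻¹` of `B(j⁻¹)` does not lie on
both components, and `𝔪 B_𝔪 = (ϖ, U)`. -/
def CuspGenRStatement (M q : ℕ) [NeZero M] [NeZero q] (R : ℕ) : Prop :=
  ∀ (K₁ : Type) [Field K₁] [Algebra ℚ K₁] [FiniteDimensional ℚ K₁]
    (A₀ : Type) [CommRing A₀] [IsDomain A₀] [IsDiscreteValuationRing A₀]
    [Algebra A₀ K₁] [IsFractionRing A₀ K₁]
    [Algebra A₀ (ModelField K₁ (M * q))] [IsScalarTower A₀ K₁ (ModelField K₁ (M * q))],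
    ¬ IsUnit ((q : ℕ) : A₀) →
    (∃ ζ : K₁, IsPrimitiveRoot ζ R) →
    ∀ (ϖ : A₀), Irreducible ϖ →
    ∀ (x : ModelField K₁ (M * q)), (x : LaurentSeries K₁) = coeffEmb K₁ jq →
    ∀ (W : ModelField K₁ (M * q) ≃ₐ[K₁] ModelField K₁ (M * q)), IsAtkinLehnerModel K₁ M q W →
    ∀ 𝔪 : Ideal (chartClosure A₀ (ModelField K₁ (M * q)) x⁻¹), 𝔪.IsMaximal →
      algebraMap A₀ (chartClosure A₀ (ModelField K₁ (M * q)) x⁻¹) ϖ ∈ 𝔪 →
      (∀ s : chartClosure A₀ (ModelField K₁ (M * q)) x⁻¹,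
        (s : ModelField K₁ (M * q)) = x⁻¹ → s ∈ 𝔪) →
      ¬ (Through A₀ (ModelField K₁ (M * q)) x⁻¹ 𝔪 (vInf K₁ A₀ (M * q)) ∧
        Through A₀ (ModelField K₁ (M * q)) x⁻¹ 𝔪 (vZero K₁ A₀ (M * q) W)) ∧
      ∃ U : chartClosure A₀ (ModelField K₁ (M * q)) x⁻¹, U ∈ 𝔪 ∧
        ∀ z ∈ 𝔪, ∃ s, s ∉ 𝔪 ∧ ∃ b₁ b₂ : chartClosure A₀ (ModelField K₁ (M * q)) x⁻¹,
          s * z = algebraMap A₀ (chartClosure A₀ (ModelField K₁ (M * q)) x⁻¹) ϖ * b₁ + U * b₂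

/-- **REGL in the chart `j`** from the two geometric inputs of the chart `j`. -/
theorem regLChartR_of (M q : ℕ) [NeZero M] [NeZero q] (hq : q.Prime) (hqM : ¬ q ∣ M)
    (f : LaurentSeries ℤ) (R : ℕ)
    (hlev : ∀ (K₁ : Type) [Field K₁] [Algebra ℚ K₁],
      coeffMap (Int.castRingHom K₁) f ∈ laurentBaseChange K₁ (modularFunctionFieldFull M))
    (hS : SmoothGenRStatement M q R)
    (hN : NodeGenRStatement M q (coeffMap (Int.castRingHom ℚ) f) R) :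
    RegLChartRStatement M q (coeffMap (Int.castRingHom ℚ) f) R := by
  intro K₁ _ _ _ A₀ _ _ _ _ _ _ _ hqirr hζ x hx W hW H Hq hH hHq 𝔪 h𝔪 hq𝔪
  have hqA : ¬ IsUnit ((q : ℕ) : A₀) := hqirr.not_isUnit
  have hinj := model_algebraMap_injective M q K₁ A₀
  have hT : Transcendental A₀ x := Fermat.Agent.H58.modelTranscendental_jq (M * q) K₁ A₀ x hx
  have hTC := twoComp_model M q K₁ A₀ hqA _ hqirr x hx W hW hq hqM
  have hcf : coeffEmb K₁ (coeffMap (Int.castRingHom ℚ) f) = coeffMap (Int.castRingHom K₁) f := by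
    rw [coeffEmb, coeffMap_coeffMap]
    exact coeffMap_congr (RingHom.ext_int _ _) f
  rw [hcf] at hH hHq
  by_cases hboth : Through A₀ (ModelField K₁ (M * q)) x 𝔪 (vInf K₁ A₀ (M * q)) ∧
      Through A₀ (ModelField K₁ (M * q)) x 𝔪 (vZero K₁ A₀ (M * q) W)
  · -- node
    obtain ⟨X, Y, d, ψ, hXe, hYe, hd, hψ, hXY, hgen⟩ :=
      hN K₁ A₀ hqirr hζ x hx W hW H Hq (by rw [hcf]; exact hH) (by rw [hcf]; exact hHq) 𝔪 h𝔪
        hq𝔪 hboth.1 hboth.2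
    set H' : ModelField K₁ M := ⟨coeffMap (Int.castRingHom K₁) f, hlev K₁⟩ with hH'
    have hα : heckeAlphaBar K₁ M q H' = H := Subtype.ext (by rw [coe_heckeAlphaBar, hH])
    have hβ : heckeBetaBar K₁ M q H' = Hq := Subtype.ext (by rw [coe_heckeBetaBar, hHq])
    have hWH : W H = Hq := by rw [← hα, hW.1, hβ]
    have hWHq : W Hq = H := by rw [← hβ, hW.2, hα]
    have hXV : (X : ModelField K₁ (M * q)) ∈ (vInf K₁ A₀ (M * q)).nonunits := by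
      rw [hXe]
      exact mem_nonunits_vInf_X M q K₁ A₀ hqA W hW hq f H Hq hH hHq
    have hYV : (Y : ModelField K₁ (M * q)) ∈ (vZero K₁ A₀ (M * q) W).nonunits := by
      rw [hYe]
      exact mem_nonunits_vZero_Y M q K₁ A₀ hqA W hW hq f H Hq hH hHq hWH hWHq
    have := hTC.isRegPoint_node hinj hqirr hT 𝔪 h𝔪.isPrime hboth.1 hboth.2 X Y d ψ hXV hYV hd hψ
      hXY hgen
    rw [hXe, hYe] at this
    exact Or.inr (Or.inr this)
  · obtain ⟨U, hU, hgen⟩ := hS K₁ A₀ hqA hζ _ hqirr x hx W hW 𝔪 h𝔪 hq𝔪 hboth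
    rcases hTC.through_or hinj hqirr hT 𝔪 h𝔪.isPrime hq𝔪 with h1 | h2
    · have h2 : ¬ Through A₀ (ModelField K₁ (M * q)) x 𝔪 (vZero K₁ A₀ (M * q) W) :=
        fun h2 => hboth ⟨h1, h2⟩
      exact Or.inl ⟨h2, U, hTC.isRegPoint_smooth hinj hqirr hT 𝔪 h𝔪.isPrime h1 h2 U hU hgen⟩
    · have h1 : ¬ Through A₀ (ModelField K₁ (M * q)) x 𝔪 (vInf K₁ A₀ (M * q)) :=
        fun h1 => hboth ⟨h1, h2⟩
      exact Or.inr (Or.inl ⟨h1, U,
        hTC.symm.isRegPoint_smooth hinj hqirr hT 𝔪 h𝔪.isPrime h2 h1 U hU hgen⟩)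

/-- **REGL, both charts**, from the chart `j` and the cusps. -/
theorem regLR_of_chart (M q : ℕ) [NeZero M] [NeZero q] (hq : q.Prime) (hqM : ¬ q ∣ M)
    (h₀ : LaurentSeries ℚ) (R : ℕ)
    (hChart : RegLChartRStatement M q h₀ R) (hC : CuspGenRStatement M q R) :
    RegLRStatement M q h₀ R := by
  intro K₁ _ _ _ A₀ _ _ _ _ _ _ _ hqirr hζ x hx W hW H Hq hH hHq y hy 𝔪 h𝔪 hq𝔪
  have hqA : ¬ IsUnit ((q : ℕ) : A₀) := hqirr.not_isUnit
  have hinj := model_algebraMap_injective M q K₁ A₀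
  have hT : Transcendental A₀ x := Fermat.Agent.H58.modelTranscendental_jq (M * q) K₁ A₀ x hx
  have hx0 : x ≠ 0 := by
    rintro rfl
    exact hT isAlgebraic_zero
  rcases hy with rfl | rfl
  · exact (hChart K₁ A₀ hqirr hζ y hx W hW H Hq hH hHq 𝔪 h𝔪 hq𝔪).regLAt h𝔪.ne_top
  · have hTC := twoComp_model M q K₁ A₀ hqA _ hqirr x hx W hW hq hqM
    have hTCi := twoComp_model_inv M q K₁ A₀ hqA _ hqirr x hx W hW hq hqM
    have hTi : Transcendental A₀ x⁻¹ := Fermat.Agent.H89.klg_transcendental_inv hT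
    haveI : 𝔪.IsPrime := h𝔪.isPrime
    by_cases hcusp : x⁻¹ ∈ ctImg (chartClosure A₀ (ModelField K₁ (M * q)) x⁻¹) 𝔪
    · -- a cusp
      have hcusp' : ∀ s : chartClosure A₀ (ModelField K₁ (M * q)) x⁻¹,
          (s : ModelField K₁ (M * q)) = x⁻¹ → s ∈ 𝔪 := by
        intro s hs
        obtain ⟨h1, h2⟩ := hcusp
        have : s = ⟨x⁻¹, h1⟩ := Subtype.ext hs
        rw [this]
        exact h2
      obtain ⟨hboth, U, hU, hgen⟩ := hC K₁ A₀ hqA hζ _ hqirr x hx W hW 𝔪 h𝔪 hq𝔪 hcusp'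
      rcases hTCi.through_or hinj hqirr hTi 𝔪 h𝔪.isPrime hq𝔪 with h1 | h2
      · have h2 : ¬ Through A₀ (ModelField K₁ (M * q)) x⁻¹ 𝔪 (vZero K₁ A₀ (M * q) W) :=
          fun h2 => hboth ⟨h1, h2⟩
        exact Or.inl ⟨h2, U,
          hTCi.isRegPoint_smooth hinj hqirr hTi 𝔪 h𝔪.isPrime h1 h2 U hU hgen⟩
      · have h1 : ¬ Through A₀ (ModelField K₁ (M * q)) x⁻¹ 𝔪 (vInf K₁ A₀ (M * q)) :=
          fun h1 => hboth ⟨h1, h2⟩
        exact Or.inr (Or.inl ⟨h1, U,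
          hTCi.symm.isRegPoint_smooth hinj hqirr hTi 𝔪 h𝔪.isPrime h2 h1 U hU hgen⟩)
    · -- not a cusp: chart transfer
      have hmax := ctIdeal_isMaximal hqirr hx0 h𝔪 hq𝔪 hcusp
      have hπ := ctIdeal_pi (A := A₀) hx0 hq𝔪
      have h1 := (hChart K₁ A₀ hqirr hζ x hx W hW H Hq hH hHq _ hmax hπ).regLAt hmax.ne_top
      exact regLAt_ct hx0 hcusp hinj hqirr hT _ _ hTC.vert₁ hTC.vert₂ _ _ h1

/-- **REGL (both charts) from the three geometric inputs.** -/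
theorem regLR_of (M q : ℕ) [NeZero M] [NeZero q] (hq : q.Prime) (hqM : ¬ q ∣ M)
    (f : LaurentSeries ℤ) (R : ℕ)
    (hlev : ∀ (K₁ : Type) [Field K₁] [Algebra ℚ K₁],
      coeffMap (Int.castRingHom K₁) f ∈ laurentBaseChange K₁ (modularFunctionFieldFull M))
    (hS : SmoothGenRStatement M q R)
    (hN : NodeGenRStatement M q (coeffMap (Int.castRingHom ℚ) f) R)
    (hC : CuspGenRStatement M q R) :
    RegLRStatement M q (coeffMap (Int.castRingHom ℚ) f) R :=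
  regLR_of_chart M q hq hqM _ R (regLChartR_of M q hq hqM f R hlev hS hN) hC

end Fermat.Agent.H7.SS2

end
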