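/-
P-SS2 row 900 (SS2-C3 REGL), input (C): THE CUSPS, chart `1/j`.  helper7.

`cuspGenR : CuspGenRStatement M q M` for every prime `q ∤ M`, unconditional (roots of unity
`μ_M` in the base field): a cuspidal maximal ideal `𝔪 ∋ ϖ, 1/j` of `B(1/j)` does not lie on both
components and `𝔪 B_𝔪 = (ϖ, U)`.

This is helper67's row 649 (`Fermat.Agent.H67.SS.ssPlaceGenCusp`) with the regular parameter
system in place of the place generators: the abstract chain
`placeGenAt_of_level → placeGenAt_component → cuspPlaceGen_aux → ssPlaceGenCusp_of`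
is repeated with the conclusion of `Fermat.Agent.H67.SS.isRegularAt_of_level`
(`Fermat.Agent.H41.SS.IsRegularAt`) and with the separating element `e ∉ 𝔪` exposed; the
valuation ring of helper89's `modelCuspGauss` is made explicit (`V = V_∞`).
-/
import Fermat.Agent.H67.SS.CuspUncond
import Fermat.Agent.H7.SS2.RegLFinal

set_option autoImplicit false
set_option linter.style.haveILetI false
set_option linter.unusedSectionVars false
set_option linter.unusedVariables false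

noncomputable section

namespace Fermat.Agent.H7.SS2

open Polynomial ModularCurve AlgebraicCurve
open Fermat.Agent.H22.KL Fermat.Agent.H41.SS Fermat.Agent.H45 Fermat.Agent.H82.SS
open Fermat.Agent.H67.SS
open Fermat.Agent.H87.KL (evX IntX)
open Fermat.Agent.H67.KLConn (PiDvd)

section Abstract

variable {A : Type} [CommRing A] [IsDomain A] [IsDiscreteValuationRing A]
  {E' : Type} [Field E'] [Algebra A E'] [CharZero E']
  {E : Type} [Field E] [Algebra A E] [CharZero E]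

/-- **Regular parameters along one component** (abstract; `placeGenAt_of_level` of helper67
with the conclusion `IsRegularAt`). -/
theorem cg_isRegularAt_of_level
    (hinj' : Function.Injective (algebraMap A E'))
    (ι : E' →+* E) (hι : ∀ a : A, ι (algebraMap A E' a) = algebraMap A E a)
    {ϖ : A} (hϖ : Irreducible ϖ) {y' : E'} {y : E}
    (hy' : Transcendental A y')
    (hfd' : ∃ n : ℕ, Nonempty (Module.Basis (Fin n) (chartField A E' y') E'))
    (hMax' : ∀ z ∈ gaussClosure A E' ϖ y', ¬ PiDvdSet A E' ϖ (gaussClosure A E' ϖ y') z →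
      z⁻¹ ∈ gaussClosure A E' ϖ y')
    (g : A[X]) (hgm : g.Monic) (hgirr : Irreducible (g.map (IsLocalRing.residue A)))
    (hNorm' : ∀ z ∈ gaussClosure A E' ϖ y', Fermat.Agent.H91.KLNorm.IntModPi A E' ϖ y' z →
      ∃ s : A[X], OutsideMax A ϖ g s ∧ ∃ b ∈ chartClosure A E' y',
        PiDvdSet A E' ϖ (gaussClosure A E' ϖ y') (aeval y' s * z - b))
    (𝔪 : Ideal ↥(chartClosure A E y)) (h𝔪 : 𝔪.IsMaximal)
    (hϖ𝔪 : algebraMap A ↥(chartClosure A E y) ϖ ∈ 𝔪)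
    (V : ValuationSubring E)
    (hBV : ∀ s : ↥(chartClosure A E y), (s : E) ∈ V)
    (hϖV : algebraMap A E ϖ ∈ V.nonunits)
    (hιB : ∀ s' : ↥(chartClosure A E' y'), ∃ b : ↥(chartClosure A E y), b ∉ 𝔪 ∧
      (b : E) * ι (s' : E') ∈ chartClosure A E y)
    (hSEP : ∃ e : ↥(chartClosure A E y), e ∉ 𝔪 ∧ ∀ s : ↥(chartClosure A E y),
      (s : E) ∈ V.nonunits → ∃ c : ↥(chartClosure A E y),
        e * s = algebraMap A ↥(chartClosure A E y) ϖ * c)
    (hFRAC : ∀ s : ↥(chartClosure A E y), ∃ a' c' : ↥(chartClosure A E' y'),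
      ι (c' : E') ∉ V.nonunits ∧ ι (c' : E') * (s : E) - ι (a' : E') ∈ V.nonunits)
    (hINJ : ∀ s' : ↥(chartClosure A E' y'), ι (s' : E') ∈ V.nonunits →
      PiDvd ϖ (chartClosure A E' y') 1 (s' : E'))
    (hg𝔪 : ∃ b t : ↥(chartClosure A E y), b ∉ 𝔪 ∧ t ∈ 𝔪 ∧ (b : E) * ι (aeval y' g) = (t : E)) :
    ∃ u : ↥(chartClosure A E y), IsRegularAt A E ϖ y 𝔪 u := by
  haveI h𝔪p : 𝔪.IsPrime := h𝔪.isPrime
  haveI hp' := pullIdeal_isPrime ι y' y 𝔪 hιB
  have hϖ' : algebraMap A ↥(chartClosure A E' y') ϖ ∈ pullIdeal ι y' y 𝔪 hιB := by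
    refine ⟨1, algebraMap A ↥(chartClosure A E y) ϖ,
      fun h => h𝔪p.ne_top ((Ideal.eq_top_iff_one _).2 h), hϖ𝔪, ?_⟩
    show ((1 : ↥(chartClosure A E y)) : E) * ι (algebraMap A E' ϖ) = algebraMap A E ϖ
    rw [hι]; simp
  have hg' : evB (A := A) y' g ∈ pullIdeal ι y' y 𝔪 hιB := hg𝔪
  have hmax' : (pullIdeal ι y' y 𝔪 hιB).IsMaximal :=
    isMaximal_of_isPrime_of_mem hϖ g hgirr _ hϖ' hg'
  obtain ⟨U', hreg, hUπ, hval⟩ :=
    localDVR hinj' hϖ hy' hfd' hMax' g hgm hgirr hNorm' _ hmax' hϖ' hg'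
  have hUV : ι (U' : E') ∉ V.nonunits := fun h => hUπ (hINJ U' h)
  exact isRegularAt_of_level ι hι ϖ y' y 𝔪 hϖ𝔪 V hBV hϖV hιB hSEP hFRAC U'
    hreg hUV hval

/-- **A cuspidal point on one component** (abstract; `placeGenAt_component` of helper67 with
the conclusion `IsRegularAt`). -/
theorem cg_isRegularAt_component
    (hinj' : Function.Injective (algebraMap A E')) (hinj : Function.Injective (algebraMap A E))
    (ι : E' →+* E) (hι : ∀ a : A, ι (algebraMap A E' a) = algebraMap A E a)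
    {ϖ : A} (hϖ : Irreducible ϖ) {y' : E'} {y : E}
    (hy' : Transcendental A y') (hy : Transcendental A y)
    (hfd' : ∃ n : ℕ, Nonempty (Module.Basis (Fin n) (chartField A E' y') E'))
    (hGB' : GoodBasis A E' ϖ y') (hBr' : BranchHypAt A E' ϖ y' (X : A[X]))
    (V₁ V₂ : ValuationSubring E)
    (hC : ∀ z : E, z ∈ V₁ → z ∈ V₂ → z ∈ gaussClosure A E ϖ y)
    (hϖ₁ : ∀ z ∈ V₁.nonunits, z / algebraMap A E ϖ ∈ V₁)
    (hϖ₂ : ∀ z ∈ V₂.nonunits, z / algebraMap A E ϖ ∈ V₂)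
    (hB₁ : ∀ s ∈ chartClosure A E y, s ∈ V₁) (hB₂ : ∀ s ∈ chartClosure A E y, s ∈ V₂)
    (hπ₁ : algebraMap A E ϖ ∈ V₁.nonunits)
    (hGC' : ∀ z' ∈ gaussClosure A E' ϖ y', ι z' ∈ V₁)
    (hQ' : ∀ z' : E', ι z' ∈ V₁ → z' ∈ gaussClosure A E' ϖ y')
    (hFR : ∀ z ∈ V₁, ∃ z' : E', ι z' ∈ V₁ ∧ z - ι z' ∈ V₁.nonunits)
    (𝔪 : Ideal ↥(chartClosure A E y)) (h𝔪 : 𝔪.IsMaximal)
    (hϖ𝔪 : algebraMap A ↥(chartClosure A E y) ϖ ∈ 𝔪)
    (hιB : ∀ s' : ↥(chartClosure A E' y'), ∃ b : ↥(chartClosure A E y), b ∉ 𝔪 ∧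
      (b : E) * ι (s' : E') ∈ chartClosure A E y)
    (e : ↥(chartClosure A E y)) (he : (e : E) ∈ V₂.nonunits) (he𝔪 : e ∉ 𝔪)
    (hy𝔪 : ∃ b t : ↥(chartClosure A E y), b ∉ 𝔪 ∧ t ∈ 𝔪 ∧ (b : E) * ι y' = (t : E)) :
    ∃ u : ↥(chartClosure A E y), IsRegularAt A E ϖ y 𝔪 u := by
  have hgirr : Irreducible ((X : A[X]).map (IsLocalRing.residue A)) := by
    rw [Polynomial.map_X]
    exact Polynomial.irreducible_X
  refine cg_isRegularAt_of_level hinj' ι hι hϖ hy' hfd'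
    (hMax_of_val hinj' ι hι hϖ V₁ hϖ₁ hGC' hQ') X monic_X hgirr
    (Fermat.Agent.H70.KL.normalityAtFull A E' hinj' ϖ hϖ y' hy' hGB' X monic_X hgirr hBr')
    𝔪 h𝔪 hϖ𝔪 V₁ (fun s => hB₁ _ s.2) hπ₁ hιB ?_
    (hFRAC_of_val ι hϖ hy' V₁ (fun s => hB₁ _ s.2) hGC' hQ' hFR)
    (hINJ_of_val hinj' ι hι hϖ hy' V₁ hϖ₁ hQ') ?_
  · refine ⟨e, he𝔪, fun s hs => ?_⟩
    obtain ⟨r, hr, hsz⟩ := Fermat.Agent.H31.SS.piDvd_mul_of_mem_centres hinj ϖ hϖ y hy V₁ V₂
      hC hϖ₁ hϖ₂ hB₁ hB₂ e s he hs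
    refine ⟨⟨r, hr⟩, Subtype.ext ?_⟩
    rw [pow_one, Algebra.smul_def] at hsz
    exact hsz
  · obtain ⟨b, t, hb, ht, hbt⟩ := hy𝔪
    refine ⟨b, t, hb, ht, ?_⟩
    rw [aeval_X]
    exact hbt

/-- **The abstract cusp theorem with regular parameters** (`cuspPlaceGen_aux` of helper67):
at a cuspidal maximal ideal `𝔪 ∋ ϖ, y` there is `e ∈ B ∖ 𝔪` in the centre of `V` or of
`W⁻¹ V` (the point lies on one component only), and `𝔪 B_𝔪 = (ϖ, u)`. -/
theorem cg_cusp_aux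
    (hIL : IntLocLeadingStatement) (hIS : IntLocScaleStatement)
    (hinj' : Function.Injective (algebraMap A E')) (hinj : Function.Injective (algebraMap A E))
    (α β : E' →+* E) (hα : ∀ a : A, α (algebraMap A E' a) = algebraMap A E a)
    (W : E ≃+* E) (hWA : ∀ a : A, W (algebraMap A E a) = algebraMap A E a)
    (hWα : ∀ f, W (α f) = β f) (hWβ : ∀ f, W (β f) = α f)
    {ϖ : A} (hϖ : Irreducible ϖ) (x' : E') (q : ℕ) (hq : 2 ≤ q)
    (x xq y : E) (hxdef : α x' = x) (hxqdef : β x' = xq) (hydef : y = x⁻¹)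
    (hy' : Transcendental A x'⁻¹) (hy : Transcendental A y)
    (hfd' : ∃ n : ℕ, Nonempty (Module.Basis (Fin n) (chartField A E' x'⁻¹) E'))
    (hGB' : GoodBasis A E' ϖ x'⁻¹) (hBr' : BranchHypAt A E' ϖ x'⁻¹ (X : A[X]))
    (V : ValuationSubring E)
    (hC : ∀ z : E, z ∈ V → W z ∈ V → z ∈ gaussClosure A E ϖ y)
    (hCV : ∀ z ∈ gaussClosure A E ϖ y, z ∈ V ∧ W z ∈ V)
    (hQ' : ∀ z' : E', α z' ∈ V → z' ∈ gaussClosure A E' ϖ x'⁻¹)
    (hGC' : ∀ z' ∈ gaussClosure A E' ϖ x'⁻¹, α z' ∈ V)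
    (hϖV : algebraMap A E ϖ ∈ V.nonunits)
    (hdiv : ∀ z ∈ V.nonunits, z / algebraMap A E ϖ ∈ V)
    (hFrob : xq - x ^ q ∈ V.nonunits)
    (hInt : xq ∈ chartClosure A E x)
    (hRho : y ^ q * xq ∈ chartClosure A E y)
    (hFR : ∀ z ∈ V, ∃ z' : E', α z' ∈ V ∧ z - α z' ∈ V.nonunits)
    (𝔪 : Ideal ↥(chartClosure A E y)) (h𝔪 : 𝔪.IsMaximal)
    (hϖ𝔪 : algebraMap A ↥(chartClosure A E y) ϖ ∈ 𝔪)
    (hy𝔪 : ∀ s : ↥(chartClosure A E y), (s : E) = y → s ∈ 𝔪) :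
    (∃ e : ↥(chartClosure A E y), e ∉ 𝔪 ∧
      ((e : E) ∈ V.nonunits ∨ W (e : E) ∈ V.nonunits)) ∧
    ∃ u : ↥(chartClosure A E y), IsRegularAt A E ϖ y 𝔪 u := by
  classical
  haveI h𝔪p : 𝔪.IsPrime := h𝔪.isPrime
  have h1𝔪 : (1 : ↥(chartClosure A E y)) ∉ 𝔪 := fun h =>
    h𝔪p.ne_top ((Ideal.eq_top_iff_one _).2 h)
  have hy0 : y ≠ 0 := Fermat.Agent.H89.klg_ne_zero hy
  have hx0 : x ≠ 0 := fun h => hy0 (by rw [hydef, h, inv_zero])
  have hWx : W x = xq := by rw [← hxdef, ← hxqdef]; exact hWα x'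
  have hWxq : W xq = x := by rw [← hxdef, ← hxqdef]; exact hWβ x'
  have hxq0 : xq ≠ 0 := by
    rw [← hWx]
    exact fun h => hx0 ((map_eq_zero W).1 h)
  have hWy : W y = xq⁻¹ := by rw [hydef, map_inv₀, hWx]
  have hβ : ∀ a : A, β (algebraMap A E' a) = algebraMap A E a := by
    intro a
    rw [← hWα, hα, hWA]
  have hαy : α x'⁻¹ = y := by rw [map_inv₀, hxdef, hydef]
  have hβy : β x'⁻¹ = xq⁻¹ := by rw [map_inv₀, hxqdef]
  -- the second valuation ring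
  set V₀ : ValuationSubring E := V.comap (W : E →+* E) with hV₀
  have hmem₀ : ∀ z : E, z ∈ V₀ ↔ W z ∈ V := fun z => Iff.rfl
  have hnu₀ : ∀ z : E, z ∈ V₀.nonunits ↔ W z ∈ V.nonunits := fun z =>
    ss_mem_nonunits_comap W V z
  have hdiv₀ : ∀ z ∈ V₀.nonunits, z / algebraMap A E ϖ ∈ V₀ := by
    intro z hz
    rw [hmem₀, map_div₀, hWA]
    exact hdiv _ ((hnu₀ z).1 hz)
  have hB₁ : ∀ s ∈ chartClosure A E y, s ∈ V := fun s hs =>
    (hCV s (Fermat.Agent.H89.klg_chartClosure_le_gaussClosure hϖ hy hs)).1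
  have hB₂ : ∀ s ∈ chartClosure A E y, s ∈ V₀ := fun s hs =>
    (hCV s (Fermat.Agent.H89.klg_chartClosure_le_gaussClosure hϖ hy hs)).2
  -- `y`, `ρ` as elements of `B`
  have hyB : y ∈ chartClosure A E y := by
    have := etale_aeval_mem_chartClosure A E y (X : A[X])
    rwa [aeval_X] at this
  set yB : ↥(chartClosure A E y) := ⟨y, hyB⟩ with hyBdef
  have hyB𝔪 : yB ∈ 𝔪 := hy𝔪 yB rfl
  set ρ : ↥(chartClosure A E y) := ⟨y ^ q * xq, hRho⟩ with hρdef
  -- units of `V`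
  have hyV : y ∈ V := hB₁ y hyB
  have hyqV : xq⁻¹ ∈ V := by
    rw [← hWy]
    exact hB₂ y hyB
  have hyx : y * x = 1 := by rw [hydef]; exact inv_mul_cancel₀ hx0
  have hyxq : xq⁻¹ * xq = 1 := inv_mul_cancel₀ hxq0
  by_cases hcase : ρ - 1 ∈ 𝔪
  · ---------------- component `∞`
    have hq2 : 0 < q ^ 2 - 1 := by
      have : 4 ≤ q ^ 2 := by nlinarith
      omega
    set eA : ↥(chartClosure A E y) := ρ ^ q - yB ^ (q ^ 2 - 1) with heA
    have heA𝔪 : eA ∉ 𝔪 := by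
      intro h
      apply h1𝔪
      have h2 : ρ ^ q - 1 ∈ 𝔪 := by
        obtain ⟨c, hc⟩ := sub_dvd_pow_sub_pow ρ 1 q
        rw [one_pow] at hc
        rw [hc]
        exact 𝔪.mul_mem_right _ hcase
      have h3 : yB ^ (q ^ 2 - 1) ∈ 𝔪 := Ideal.pow_mem_of_mem 𝔪 hyB𝔪 _ hq2
      have h4 : (1 : ↥(chartClosure A E y)) = eA - (ρ ^ q - 1) + yB ^ (q ^ 2 - 1) := by
        rw [heA]; ring
      rw [h4]
      exact 𝔪.add_mem (𝔪.sub_mem h h2) h3
    have heAV : (eA : E) ∈ V₀.nonunits := by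
      rw [hnu₀]
      have e1 : W (eA : E) = -((xq⁻¹) ^ (q ^ 2) * (xq - x ^ q)) := by
        have e2 : (eA : E) = (y ^ q * xq) ^ q - y ^ (q ^ 2 - 1) := rfl
        rw [e2, map_sub, map_pow, map_mul, map_pow, map_pow, hWy, hWxq]
        have e3 : (xq⁻¹) ^ (q ^ 2 - 1) = (xq⁻¹) ^ (q ^ 2) * xq := by
          have : q ^ 2 = (q ^ 2 - 1) + 1 := by omega
          conv_rhs => rw [this, pow_succ, mul_assoc, hyxq, mul_one]
        rw [e3]
        ring
      rw [e1]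
      exact nu_neg V (nu_mul_left V (V.toSubring.pow_mem hyqV _) hFrob)
    refine ⟨⟨eA, heA𝔪, Or.inr ((hnu₀ _).1 heAV)⟩, ?_⟩
    refine cg_isRegularAt_component hinj' hinj α hα hϖ hy' hy hfd' hGB' hBr' V V₀
      (fun z h1 h2 => hC z h1 h2) hdiv hdiv₀ hB₁ hB₂ hϖV hGC' hQ' hFR 𝔪 h𝔪 hϖ𝔪 ?_
      eA heAV heA𝔪 ?_
    · intro s'
      refine ⟨1, h1𝔪, ?_⟩
      have := map_mem_chartClosure α hα s'.2
      rw [hαy] at this
      simpa using this
    · exact ⟨1, yB, h1𝔪, hyB𝔪, by rw [hαy]; simp [hyBdef]⟩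
  · ---------------- component `0`
    have hxInt : x ∈ chartClosure A E xq := by
      have := map_mem_chartClosure (W : E →+* E) hWA hInt
      rw [RingEquiv.coe_toRingHom, hWxq, hWx] at this
      exact this
    obtain ⟨p, hp⟩ := hIL A E x xq hx0 hxq0 hxInt
    rw [← hydef] at hp
    have hhB : 1 + y * aeval y p ∈ chartClosure A E y :=
      (chartClosure A E y).add_mem (chartClosure A E y).one_mem
        ((chartClosure A E y).mul_mem hyB (etale_aeval_mem_chartClosure A E y p))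
    set h : ↥(chartClosure A E y) := ⟨1 + y * aeval y p, hhB⟩ with hhdef
    have hh𝔪 : h ∉ 𝔪 := by
      intro hh
      apply h1𝔪
      have e1 : (1 : ↥(chartClosure A E y)) =
          h - yB * ⟨aeval y p, etale_aeval_mem_chartClosure A E y p⟩ := by
        apply Subtype.ext
        simp [hhdef, hyBdef]
      rw [e1]
      exact 𝔪.sub_mem hh (𝔪.mul_mem_right _ hyB𝔪)
    set u : ↥(chartClosure A E y) := ⟨(1 + y * aeval y p) * xq⁻¹, hp⟩ with hudef
    have hu𝔪 : u ∈ 𝔪 := by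
      have hux : (u : E) * xq ∈ chartClosure A E y := by
        have e1 : (u : E) * xq = 1 + y * aeval y p := by
          show (1 + y * aeval y p) * xq⁻¹ * xq = _
          rw [mul_assoc, hyxq, mul_one]
        rw [e1]
        exact hhB
      obtain ⟨d, hd⟩ := hIS A E y xq (u : E) x u.2 hux hxInt
      have e2 : u ^ d = ⟨(u : E) ^ d * x, hd⟩ * yB := by
        apply Subtype.ext
        show (u : E) ^ d = (u : E) ^ d * x * y
        rw [mul_assoc, mul_comm x y, hyx, mul_one]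
      exact h𝔪p.mem_of_pow_mem d (by rw [e2]; exact 𝔪.mul_mem_left _ hyB𝔪)
    set eB : ↥(chartClosure A E y) := ρ - 1 with heB
    have heBV : (eB : E) ∈ V.nonunits := by
      have e1 : (eB : E) = y ^ q * (xq - x ^ q) := by
        show y ^ q * xq - 1 = _
        rw [mul_sub, ← mul_pow, hyx, one_pow]
      rw [e1]
      exact nu_mul_left V (V.toSubring.pow_mem hyV _) hFrob
    have hπ₀ : algebraMap A E ϖ ∈ V₀.nonunits := by
      rw [hnu₀, hWA]
      exact hϖV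
    refine ⟨⟨eB, hcase, Or.inl heBV⟩, ?_⟩
    refine cg_isRegularAt_component hinj' hinj β hβ hϖ hy' hy hfd' hGB' hBr' V₀ V
      (fun z h1 h2 => hC z h2 h1) hdiv₀ hdiv hB₂ hB₁ hπ₀ ?_ ?_ ?_ 𝔪 h𝔪 hϖ𝔪 ?_
      eB heBV hcase ?_
    · intro z' hz'
      rw [hmem₀, hWβ]
      exact hGC' z' hz'
    · intro z' hz'
      rw [hmem₀, hWβ] at hz'
      exact hQ' z' hz'
    · intro z hz
      obtain ⟨z', hz'V, hzz'⟩ := hFR (W z) hz
      refine ⟨z', ?_, ?_⟩
      · rw [hmem₀, hWβ]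
        exact hz'V
      · rw [hnu₀, map_sub, hWβ]
        exact hzz'
    · intro s'
      have hs := map_mem_chartClosure β hβ s'.2
      rw [hβy] at hs
      have hhy : (h : E) * xq⁻¹ ∈ chartClosure A E y := hp
      obtain ⟨d, hd⟩ := hIS A E y xq⁻¹ (h : E) (β (s' : E')) h.2 hhy hs
      refine ⟨h ^ d, fun hh => hh𝔪 (h𝔪p.mem_of_pow_mem d hh), ?_⟩
      exact hd
    · exact ⟨h, u, hh𝔪, hu𝔪, by rw [hβy]⟩

end Abstract

section Model

open Fermat.Agent.H7.SS Fermat.Agent.H48.QExp Fermat.Agent.H11.SS2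

/-- **CUSP-GAUSS with the explicit valuation ring** `V = V_∞` (helper89's
`Fermat.Agent.H89.SS.modelCuspGauss`, same proof). -/
theorem cg_gauss_explicit (M q : ℕ) [NeZero M] [NeZero q] (hq : q.Prime) (hqM : ¬ q ∣ M)
    (K₁ : Type) [Field K₁] [Algebra ℚ K₁] [FiniteDimensional ℚ K₁]
    (A₀ : Type) [CommRing A₀] [IsDomain A₀] [IsDiscreteValuationRing A₀]
    [Algebra A₀ K₁] [IsFractionRing A₀ K₁]
    [Algebra A₀ (ModelField K₁ M)] [IsScalarTower A₀ K₁ (ModelField K₁ M)]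
    [Algebra A₀ (ModelField K₁ (M * q))] [IsScalarTower A₀ K₁ (ModelField K₁ (M * q))]
    (hqA : ¬ IsUnit ((q : ℕ) : A₀)) (ϖ : A₀) (hϖ : Irreducible ϖ)
    (x' : ModelField K₁ M) (hx' : (x' : LaurentSeries K₁) = coeffEmb K₁ jq)
    (W : ModelField K₁ (M * q) ≃ₐ[K₁] ModelField K₁ (M * q))
    (hW : IsAtkinLehnerModel K₁ M q W) :
    (∀ z : ModelField K₁ (M * q), z ∈ gaussValM K₁ A₀ (M * q) →
      W z ∈ gaussValM K₁ A₀ (M * q) →
        z ∈ gaussClosure A₀ (ModelField K₁ (M * q)) ϖ (heckeAlphaBar K₁ M q x')⁻¹) ∧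
      (∀ z ∈ gaussClosure A₀ (ModelField K₁ (M * q)) ϖ (heckeAlphaBar K₁ M q x')⁻¹,
        z ∈ gaussValM K₁ A₀ (M * q) ∧ W z ∈ gaussValM K₁ A₀ (M * q)) ∧
      (∀ z' : ModelField K₁ M, heckeAlphaBar K₁ M q z' ∈ gaussValM K₁ A₀ (M * q) →
        z' ∈ gaussClosure A₀ (ModelField K₁ M) ϖ x'⁻¹) ∧
      (∀ z' ∈ gaussClosure A₀ (ModelField K₁ M) ϖ x'⁻¹,
        heckeAlphaBar K₁ M q z' ∈ gaussValM K₁ A₀ (M * q)) ∧
      algebraMap A₀ (ModelField K₁ (M * q)) ϖ ∈ (gaussValM K₁ A₀ (M * q)).nonunits ∧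
      (∀ z ∈ (gaussValM K₁ A₀ (M * q)).nonunits,
        z / algebraMap A₀ (ModelField K₁ (M * q)) ϖ ∈ gaussValM K₁ A₀ (M * q)) ∧
      heckeBetaBar K₁ M q x' - heckeAlphaBar K₁ M q x' ^ q ∈
        (gaussValM K₁ A₀ (M * q)).nonunits ∧
      (∀ z ∈ gaussValM K₁ A₀ (M * q), ∃ z' : ModelField K₁ M,
        heckeAlphaBar K₁ M q z' ∈ gaussValM K₁ A₀ (M * q) ∧
        z - heckeAlphaBar K₁ M q z' ∈ (gaussValM K₁ A₀ (M * q)).nonunits) := by
  haveI : NeZero (M * q) := ⟨Nat.mul_ne_zero (NeZero.ne M) (NeZero.ne q)⟩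
  have hinj : Function.Injective (algebraMap A₀ (ModelField K₁ (M * q))) := by
    rw [IsScalarTower.algebraMap_eq A₀ K₁ (ModelField K₁ (M * q))]
    exact (algebraMap K₁ (ModelField K₁ (M * q))).injective.comp (IsFractionRing.injective A₀ K₁)
  have hinj' : Function.Injective (algebraMap A₀ (ModelField K₁ M)) := by
    rw [IsScalarTower.algebraMap_eq A₀ K₁ (ModelField K₁ M)]
    exact (algebraMap K₁ (ModelField K₁ M)).injective.comp (IsFractionRing.injective A₀ K₁)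
  have hx : ((heckeAlphaBar K₁ M q x' : ModelField K₁ (M * q)) : LaurentSeries K₁)
      = coeffEmb K₁ jq := by
    rw [coe_heckeAlphaBar, hx']
  have hxtr : Transcendental A₀ (heckeAlphaBar K₁ M q x') :=
    Fermat.Agent.H58.modelTranscendental_jq (M * q) K₁ A₀ _ hx
  have hx'tr : Transcendental A₀ x' :=
    Fermat.Agent.H58.modelTranscendental_jq M K₁ A₀ x' hx'
  have hC : gaussClosure A₀ (ModelField K₁ (M * q)) ϖ (heckeAlphaBar K₁ M q x')⁻¹
      = gaussClosure A₀ (ModelField K₁ (M * q)) ϖ (heckeAlphaBar K₁ M q x') :=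
    (Fermat.Agent.H89.gaussClosureStatement A₀ (ModelField K₁ (M * q)) hinj ϖ hϖ _ hxtr).2.2
  have hC' : gaussClosure A₀ (ModelField K₁ M) ϖ x'⁻¹ = gaussClosure A₀ (ModelField K₁ M) ϖ x' :=
    (Fermat.Agent.H89.gaussClosureStatement A₀ (ModelField K₁ M) hinj' ϖ hϖ _ hx'tr).2.2
  refine ⟨?_, ?_, ?_, ?_, ?_, ?_, ?_, ?_⟩
  · -- (1) `V ∩ W⁻¹ V ⊆ C(x⁻¹)`
    intro z hz hWz
    rw [hC]
    exact mem_gaussClosure_of_two M q hq hqM hqA hϖ _ hx W hW z hz
      ((mem_gaussValZero_iff W z).2 hWz)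
  · -- (2) `C(x⁻¹) ⊆ V ∩ W⁻¹ V`
    intro z hz
    rw [hC] at hz
    refine ⟨mem_gaussValM_of_mem_gaussClosure (M * q) hϖ _ hx z hz, ?_⟩
    obtain ⟨-, ⟨a', b', ha', hb', hbu', hab'⟩⟩ :=
      Fermat.Agent.H55.SS.modelGaussConverse M q K₁ A₀ hqA ϖ hϖ _ hx W hW z hz
    rw [mem_gaussValM_iff]
    refine inV_of_quot _ (W a').2 (W b').2 ha' hb' hbu' ?_
    have h1 : W z * W b' = W a' := by rw [← map_mul, hab']
    exact congrArg Subtype.val h1
  · -- (3) `α⁻¹ V ⊆ C'(x'⁻¹)`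
    intro z' hz'
    rw [hC']
    exact mem_gaussClosure_of_mem_gaussValM M q hq hqM hqA hϖ x' hx' z'
      ((alpha_mem_gaussValM_iff M q K₁ A₀ z').1 hz')
  · -- (4) `C'(x'⁻¹) ⊆ α⁻¹ V`
    intro z' hz'
    rw [hC'] at hz'
    exact (alpha_mem_gaussValM_iff M q K₁ A₀ z').2
      (mem_gaussValM_of_mem_gaussClosure M hϖ x' hx' z' hz')
  · -- (5) `ϖ ∈ 𝔪_V`
    exact pi_mem_nonunits_gaussValM hϖ
  · -- (6) `ϖ` generates `𝔪_V`
    intro z hz
    exact div_pi_mem_gaussValM hϖ z hz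
  · -- (7) Frobenius congruence
    rw [mem_nonunits_gaussValM_iff]
    have hcoe : ((heckeBetaBar K₁ M q x' - heckeAlphaBar K₁ M q x' ^ q :
        ModelField K₁ (M * q)) : LaurentSeries K₁)
        = qExpand K₁ q (jqModC K₁) - jqModC K₁ ^ q := by
      have h1 : ((heckeBetaBar K₁ M q x' : ModelField K₁ (M * q)) : LaurentSeries K₁)
          = qExpand K₁ q (jqModC K₁) := by
        rw [coe_heckeBetaBar, hx', coeffEmb_jq]
      have h2 : ((heckeAlphaBar K₁ M q x' : ModelField K₁ (M * q)) : LaurentSeries K₁)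
          = jqModC K₁ := by
        rw [hx, coeffEmb_jq]
      rw [← h1, ← h2]
      rfl
    rw [hcoe]
    apply Fermat.Agent.H89.SS.cg_frob_inM q hq hqA
    rw [← hcoe]
    exact Subtype.mem _
  · -- (8) FRAC
    intro z hz
    obtain ⟨z', hz'V, hz'M⟩ :=
      Fermat.Agent.H66.SS.modelFrac41 M q hq hqM K₁ A₀ hqA (z : LaurentSeries K₁)
        ((mem_gaussValM_iff z).1 hz)
    have hz'E : z' ∈ laurentBaseChange K₁ (modularFunctionFieldFull M) := InV.mem hz'V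
    refine ⟨⟨z', hz'E⟩, ?_, ?_⟩
    · rw [alpha_mem_gaussValM_iff, mem_gaussValM_iff]
      exact hz'V
    · rw [mem_nonunits_gaussValM_iff]
      have hcoe : ((z - heckeAlphaBar K₁ M q ⟨z', hz'E⟩ : ModelField K₁ (M * q)) :
          LaurentSeries K₁) = (z : LaurentSeries K₁) - z' := by
        show (z : LaurentSeries K₁) - ((heckeAlphaBar K₁ M q ⟨z', hz'E⟩ :
          ModelField K₁ (M * q)) : LaurentSeries K₁) = _
        rw [coe_heckeAlphaBar]
      rw [hcoe]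
      exact hz'M

/-- **INPUT (C) of REGL, unconditional**: the cusps, all primes `q ∤ M`, `R = M`. -/
theorem cuspGenR (M q : ℕ) [NeZero M] [NeZero q] (hq : q.Prime) (hqM : ¬ q ∣ M) :
    CuspGenRStatement M q M := by
  intro K₁ _ _ _ A₀ _ _ _ _ _ _ _ hqA hζ ϖ hϖ x hx W hW 𝔪 h𝔪 hϖ𝔪 hy𝔪
  -- the algebra structure of level `M`
  letI algM : Algebra A₀ (ModelField K₁ M) :=
    ((algebraMap K₁ (ModelField K₁ M)).comp (algebraMap A₀ K₁)).toAlgebra
  haveI towM : IsScalarTower A₀ K₁ (ModelField K₁ M) :=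
    IsScalarTower.of_algebraMap_eq (fun _ => rfl)
  haveI cz : CharZero K₁ := charZero_of_injective_algebraMap (algebraMap ℚ K₁).injective
  haveI czM : CharZero (ModelField K₁ M) :=
    charZero_of_injective_algebraMap (algebraMap K₁ (ModelField K₁ M)).injective
  haveI czMq : CharZero (ModelField K₁ (M * q)) :=
    charZero_of_injective_algebraMap (algebraMap K₁ (ModelField K₁ (M * q))).injective
  have hφ : Function.Injective (algebraMap A₀ K₁) := IsFractionRing.injective A₀ K₁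
  have hinj' : Function.Injective (algebraMap A₀ (ModelField K₁ M)) := by
    rw [IsScalarTower.algebraMap_eq A₀ K₁ (ModelField K₁ M)]
    exact (algebraMap K₁ (ModelField K₁ M)).injective.comp hφ
  have hinj : Function.Injective (algebraMap A₀ (ModelField K₁ (M * q))) := by
    rw [IsScalarTower.algebraMap_eq A₀ K₁ (ModelField K₁ (M * q))]
    exact (algebraMap K₁ (ModelField K₁ (M * q))).injective.comp hφ
  -- the coordinate of level `M`
  have hjq : jq ∈ modularFunctionFieldFull M := by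
    have h := jqd_mem_full M (one_dvd M)
    rwa [qExpand_one_apply] at h
  set x' : ModelField K₁ M := ⟨coeffEmb K₁ jq, coeffEmb_mem_laurentBaseChange K₁ hjq⟩ with hx'def
  have hx' : (x' : LaurentSeries K₁) = coeffEmb K₁ jq := rfl
  have hxα : x = heckeAlphaBar K₁ M q x' := by
    apply Subtype.ext
    rw [hx, coe_heckeAlphaBar]
  subst hxα
  -- the leaves
  obtain ⟨hy', hy, hfd', hfd, hGB', hBr', hInt⟩ :=
    Fermat.Agent.H42.SS.modelCuspChart M q hq hqM K₁ A₀ hqA hζ ϖ hϖ x' hx'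
  obtain ⟨hC, hCV, hQ', hGC', hϖV, hdiv, hFrob, hFR⟩ :=
    cg_gauss_explicit M q hq hqM K₁ A₀ hqA ϖ hϖ x' hx' W hW
  have hρ := Fermat.Agent.H46.SS.modelCuspRho M q hq K₁ A₀ (heckeAlphaBar K₁ M q x')
    (heckeBetaBar K₁ M q x') (by rw [coe_heckeAlphaBar]) (by rw [coe_heckeBetaBar])
  -- compatibility with `A₀`
  have hα : ∀ a : A₀, (heckeAlphaBar K₁ M q : ModelField K₁ M →+* ModelField K₁ (M * q))
      (algebraMap A₀ (ModelField K₁ M) a) = algebraMap A₀ (ModelField K₁ (M * q)) a := by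
    intro a
    rw [IsScalarTower.algebraMap_apply A₀ K₁ (ModelField K₁ M),
      IsScalarTower.algebraMap_apply A₀ K₁ (ModelField K₁ (M * q))]
    exact (heckeAlphaBar K₁ M q).commutes _
  have hWA : ∀ a : A₀, (W : ModelField K₁ (M * q) ≃+* ModelField K₁ (M * q))
      (algebraMap A₀ (ModelField K₁ (M * q)) a) = algebraMap A₀ (ModelField K₁ (M * q)) a := by
    intro a
    rw [IsScalarTower.algebraMap_apply A₀ K₁ (ModelField K₁ (M * q))]
    exact W.commutes _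
  obtain ⟨⟨e, he𝔪, hcase⟩, u, hu𝔪, hreg, -⟩ := cg_cusp_aux
    Fermat.Agent.H16.intLocLeading Fermat.Agent.H16.intLocScale hinj' hinj
    (heckeAlphaBar K₁ M q : ModelField K₁ M →+* ModelField K₁ (M * q))
    (heckeBetaBar K₁ M q : ModelField K₁ M →+* ModelField K₁ (M * q)) hα
    (W : ModelField K₁ (M * q) ≃+* ModelField K₁ (M * q)) hWA
    (fun f => hW.1 f) (fun f => hW.2 f) hϖ x' q hq.two_le (heckeAlphaBar K₁ M q x')
    (heckeBetaBar K₁ M q x') (heckeAlphaBar K₁ M q x')⁻¹ rfl rfl rfl hy' hy hfd' hGB' hBr'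
    (gaussValM K₁ A₀ (M * q)) hC hCV hQ' hGC' hϖV hdiv hFrob hInt hρ hFR 𝔪 h𝔪 hϖ𝔪 hy𝔪
  refine ⟨?_, u, hu𝔪, hreg⟩
  rintro ⟨hT1, hT2⟩
  rcases hcase with h | h
  · exact he𝔪 (hT1 e h)
  · exact he𝔪 (hT2 e ((mem_nonunits_vZero_iff W (e : ModelField K₁ (M * q))).2 h))

end Model

end Fermat.Agent.H7.SS2

end
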