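/-
P-SS2 row 900 (SS2-C3 REGL), input (N): THE CROSSING POINTS, abstract part.  helper7.

Setting: `A` a DVR with uniformiser `ϖ`; `ι : E' → E` (level `M` into level `M q`), charts
`y' ∈ E'`, `y ∈ E` with `ι(B') ⊆ B`; `V₁, V₂` the two vertical valuations of `E`
(`C(y) = V₁ ∩ V₂`, both with uniformiser `ϖ`); `𝔪 ∋ ϖ` a maximal ideal of `B` through which both
pass; `X, Y, d, ψ ∈ B` with `d X Y = ϖ ψ`, `ψ ∉ 𝔪`, `X ∈ 𝔪_{V₁}`, `Y ∈ 𝔪_{V₂}`; level `M` is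
regular at `𝔫 = ι⁻¹ 𝔪` with parameters `(ϖ, U')`, and the residue field of `V₁` is generated by
level `M` (FRAC).

* `node_regcrit` : `𝔪 B_𝔪 = (X, ι U')`  (REGCRIT of helper60, with `D₀ = ι(B'_𝔫)`);
* `node_switch`  : if `Y = U h + ϖ r + X c` with `h ∉ 𝔪`, then `(X, U)` may be replaced by
  `(X, Y)`;
* `node_gen_abs` : `𝔪 B_𝔪 = (X, Y)`.
-/
import Fermat.Agent.H60.SS2.RegCrit
import Fermat.Agent.H67.SS.CuspComp

set_option autoImplicit false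
set_option linter.style.haveILetI false
set_option linter.unusedSectionVars false
set_option linter.unusedVariables false

noncomputable section

namespace Fermat.Agent.H7.SS2

open Polynomial
open Fermat.Agent.H22.KL Fermat.Agent.H45 Fermat.Agent.H41.SS
open Fermat.Agent.H67.SS
open Fermat.Agent.H67.KLConn (PiDvd)

section NodeAbs

variable {A : Type} [CommRing A] [IsDomain A] [IsDiscreteValuationRing A]
  {E' : Type} [Field E'] [Algebra A E'] [CharZero E']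
  {E : Type} [Field E] [Algebra A E] [CharZero E]

/-- **Change of the second parameter at a node.** -/
theorem node_switch {y : E} {𝔪 : Ideal (chartClosure A E y)} (h𝔪 : 𝔪.IsPrime) {ϖ : A}
    (X Y U d ψ h r c : chartClosure A E y) (hψ : ψ ∉ 𝔪) (hh : h ∉ 𝔪)
    (hrel : d * (X * Y) = algebraMap A (chartClosure A E y) ϖ * ψ)
    (hY : Y = U * h + algebraMap A (chartClosure A E y) ϖ * r + X * c)
    (hgen : ∀ z ∈ 𝔪, ∃ s, s ∉ 𝔪 ∧ ∃ b₁ b₂ : chartClosure A E y, s * z = X * b₁ + U * b₂) :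
    ∀ z ∈ 𝔪, ∃ s, s ∉ 𝔪 ∧ ∃ b₁ b₂ : chartClosure A E y, s * z = X * b₁ + Y * b₂ := by
  intro z hz
  obtain ⟨s, hs, b₁, b₂, hsz⟩ := hgen z hz
  refine ⟨ψ * h * s, ?_, ψ * h * b₁ - ψ * c * b₂ - d * Y * r * b₂, ψ * b₂, ?_⟩
  · intro hmem
    rcases h𝔪.mem_or_mem hmem with h1 | h1
    · rcases h𝔪.mem_or_mem h1 with h2 | h2
      · exact hψ h2
      · exact hh h2
    · exact hs h1
  · have hUh : U * h = Y - algebraMap A (chartClosure A E y) ϖ * r - X * c := by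
      rw [hY]; ring
    calc ψ * h * s * z = ψ * h * (s * z) := by ring
      _ = ψ * h * (X * b₁ + U * b₂) := by rw [hsz]
      _ = X * (ψ * h * b₁) + ψ * (U * h) * b₂ := by ring
      _ = X * (ψ * h * b₁) +
          ψ * (Y - algebraMap A (chartClosure A E y) ϖ * r - X * c) * b₂ := by rw [hUh]
      _ = X * (ψ * h * b₁ - ψ * c * b₂) + Y * (ψ * b₂) -
          (algebraMap A (chartClosure A E y) ϖ * ψ) * r * b₂ := by ring
      _ = X * (ψ * h * b₁ - ψ * c * b₂) + Y * (ψ * b₂) - (d * (X * Y)) * r * b₂ := by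
          rw [hrel]
      _ = X * (ψ * h * b₁ - ψ * c * b₂ - d * Y * r * b₂) + Y * (ψ * b₂) := by ring

/-- **The crossing points by REGCRIT**: `𝔪 B_𝔪 = (X, ι U')`. -/
theorem node_regcrit (hH : LocalHartogsStatement)
    (hinj' : Function.Injective (algebraMap A E')) (hinj : Function.Injective (algebraMap A E))
    (ι : E' →+* E) (hι : ∀ a : A, ι (algebraMap A E' a) = algebraMap A E a)
    {ϖ : A} (hϖ : Irreducible ϖ) {y' : E'} {y : E}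
    (hy' : Transcendental A y') (hy : Transcendental A y)
    (hfd : ∃ n : ℕ, Nonempty (Module.Basis (Fin n) (chartField A E y) E))
    (V₁ V₂ : ValuationSubring E)
    (hV₁ : V₁ ≠ ⊤ ∧ IsPrincipalIdealRing V₁) (hV₂ : V₂ ≠ ⊤ ∧ IsPrincipalIdealRing V₂)
    (hC : ∀ z : E, z ∈ gaussClosure A E ϖ y ↔ z ∈ V₁ ∧ z ∈ V₂)
    (hϖ₁ : IsUniformiser E V₁ (algebraMap A E ϖ))
    (hϖ₂ : IsUniformiser E V₂ (algebraMap A E ϖ))
    (hGC' : ∀ z' ∈ gaussClosure A E' ϖ y', ι z' ∈ V₁)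
    (hQ' : ∀ z' : E', ι z' ∈ V₁ → z' ∈ gaussClosure A E' ϖ y')
    (hFR : ∀ z ∈ V₁, ∃ z' : E', ι z' ∈ V₁ ∧ z - ι z' ∈ V₁.nonunits)
    (hιB : ∀ b ∈ chartClosure A E' y', ι b ∈ chartClosure A E y)
    (𝔪 : Ideal (chartClosure A E y)) (h𝔪 : 𝔪.IsMaximal)
    (hϖ𝔪 : algebraMap A (chartClosure A E y) ϖ ∈ 𝔪)
    (hT₁ : ∀ s : chartClosure A E y, (s : E) ∈ V₁.nonunits → s ∈ 𝔪)
    (hT₂ : ∀ s : chartClosure A E y, (s : E) ∈ V₂.nonunits → s ∈ 𝔪)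
    (X Y d ψ : chartClosure A E y) (hψ : ψ ∉ 𝔪)
    (hrel : d * (X * Y) = algebraMap A (chartClosure A E y) ϖ * ψ)
    (hXV : (X : E) ∈ V₁.nonunits) (hYV : (Y : E) ∈ V₂.nonunits)
    (𝔫 : Ideal (chartClosure A E' y')) (h𝔫 : 𝔫.IsPrime)
    (h𝔫𝔪 : ∀ b : chartClosure A E' y',
      b ∈ 𝔫 ↔ (⟨ι b, hιB b b.2⟩ : chartClosure A E y) ∈ 𝔪)
    (U' : chartClosure A E' y') (hU' : U' ∈ 𝔫)
    (hreg' : ∀ z ∈ 𝔫, ∃ s, s ∉ 𝔫 ∧ ∃ b₁ b₂ : chartClosure A E' y',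
      s * z = algebraMap A (chartClosure A E' y') ϖ * b₁ + U' * b₂)
    (g₀ : A[X]) (hg₀m : g₀.Monic)
    (hg₀ : (⟨aeval y' g₀, etale_aeval_mem_chartClosure A E' y' g₀⟩ :
      chartClosure A E' y') ∈ 𝔫) :
    ∀ z ∈ 𝔪, ∃ s, s ∉ 𝔪 ∧ ∃ b₁ b₂ : chartClosure A E y,
      s * z = X * b₁ + (⟨ι U', hιB _ U'.2⟩ : chartClosure A E y) * b₂ := by
  classical
  haveI h𝔪p : 𝔪.IsPrime := h𝔪.isPrime
  have hϖE : algebraMap A E ϖ ≠ 0 := fun h0 => hϖ.ne_zero (hinj (by rw [h0, map_zero]))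
  have hϖE' : algebraMap A E' ϖ ≠ 0 := fun h0 => hϖ.ne_zero (hinj' (by rw [h0, map_zero]))
  -- `B ⊆ V₁, V₂`
  have hB₁ : ∀ s ∈ chartClosure A E y, s ∈ V₁ := fun s hs =>
    ((hC s).1 (Fermat.Agent.H89.klg_chartClosure_le_gaussClosure hϖ hy hs)).1
  have hB₂ : ∀ s ∈ chartClosure A E y, s ∈ V₂ := fun s hs =>
    ((hC s).1 (Fermat.Agent.H89.klg_chartClosure_le_gaussClosure hϖ hy hs)).2
  -- elements outside `𝔪` are units of `V₁` and `V₂`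
  have hu₁ : ∀ b : chartClosure A E y, b ∉ 𝔪 → (b : E) ∉ V₁.nonunits :=
    fun b hb h => hb (hT₁ b h)
  have hu₂ : ∀ b : chartClosure A E y, b ∉ 𝔪 → (b : E) ∉ V₂.nonunits :=
    fun b hb h => hb (hT₂ b h)
  have hne0 : ∀ b : chartClosure A E y, b ∉ 𝔪 → (b : E) ≠ 0 := by
    intro b hb h0
    apply hb
    have : b = 0 := Subtype.ext h0
    rw [this]; exact 𝔪.zero_mem
  have hne0' : ∀ b : chartClosure A E' y', b ∉ 𝔫 → (b : E') ≠ 0 := by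
    intro b hb h0
    apply hb
    have : b = 0 := Subtype.ext h0
    rw [this]; exact 𝔫.zero_mem
  -- the relation in `E`
  have hrelE : (d : E) * ((X : E) * (Y : E)) = algebraMap A E ϖ * (ψ : E) :=
    congrArg Subtype.val hrel
  have hψ0 : (ψ : E) ≠ 0 := hne0 ψ hψ
  have hdXY0 : (d : E) * ((X : E) * (Y : E)) ≠ 0 := by
    rw [hrelE]; exact mul_ne_zero hϖE hψ0
  have hd0 : (d : E) ≠ 0 := left_ne_zero_of_mul hdXY0
  have hX0 : (X : E) ≠ 0 := left_ne_zero_of_mul (right_ne_zero_of_mul hdXY0)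
  have hY0 : (Y : E) ≠ 0 := right_ne_zero_of_mul (right_ne_zero_of_mul hdXY0)
  -- `ι` on `B'`
  have hι𝔫 : ∀ b : chartClosure A E' y', b ∉ 𝔫 → ι (b : E') ∉ V₁.nonunits := by
    intro b hb
    exact hu₁ ⟨ι b, hιB b b.2⟩ (fun h => hb ((h𝔫𝔪 b).2 h))
  have hιV : ∀ b : chartClosure A E' y', ι (b : E') ∈ V₁ := fun b => hB₁ _ (hιB b b.2)
  -- (l) `ι U'` is a unit of `V₁`
  have hUV : ι (U' : E') ∉ V₁.nonunits := by
    intro hUn
    obtain ⟨r, hr, hUr⟩ := hINJ_of_val hinj' ι hι hϖ hy' V₁ hϖ₁.2.2 hQ' U' hUn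
    rw [pow_one, Algebra.smul_def] at hUr
    obtain ⟨s, hs, b₁, b₂, hsz⟩ := hreg' _ hg₀
    have hszE : (s : E') * aeval y' g₀ = algebraMap A E' ϖ * (b₁ : E') + (U' : E') * (b₂ : E') :=
      congrArg Subtype.val hsz
    have h1 : ι (s : E') * ι (aeval y' g₀) =
        algebraMap A E ϖ * (ι (b₁ : E') + ι r * ι (b₂ : E')) := by
      rw [← map_mul, hszE, hUr, map_add, map_mul, map_mul, map_mul, hι]
      ring
    have h2 : ι (s : E') * ι (aeval y' g₀) ∈ V₁.nonunits := by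
      rw [h1, mul_comm]
      exact nu_mul_left V₁ (V₁.add_mem _ _ (hιV b₁)
        (V₁.mul_mem _ _ (hιV ⟨r, hr⟩) (hιV b₂))) hϖ₁.2.1
    have h3 : ι (aeval y' g₀) ∈ V₁.nonunits := nu_cancel V₁ (hιV s) (hι𝔫 s hs) h2
    refine unit_of_primitive ι V₁ hGC' (aeval y' g₀)
      ((Fermat.Agent.H87.KL.mem_chartRing_iff y' _).2 ⟨g₀, rfl⟩) ?_ h3
    intro hdv
    rw [Fermat.Agent.H87.KL.piDvd_aeval_iff hy', Polynomial.C_dvd_iff_dvd_coeff] at hdv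
    have h4 := hdv g₀.natDegree
    rw [hg₀m.coeff_natDegree] at h4
    exact hϖ.not_isUnit (isUnit_of_dvd_one h4)
  -- REGCRIT
  have hreg := Fermat.Agent.H60.SS2.regCrit hH A E hinj ϖ hϖ y hy hfd 𝔪 h𝔪 hϖ𝔪
    ({V₁, V₂} : Set (ValuationSubring E)) ((Set.finite_singleton V₂).insert V₁)
    (by
      rintro W (rfl | rfl)
      · exact hV₁
      · exact hV₂)
    (by
      intro z
      rw [hC]
      constructor
      · rintro ⟨h1, h2⟩ W (rfl | rfl)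
        · exact h1
        · exact h2
      · intro h
        exact ⟨h V₁ (Set.mem_insert _ _), h V₂ (Set.mem_insert_of_mem _ rfl)⟩)
    V₁ (Set.mem_insert _ _) hT₁ (X : E) (ι (U' : E'))
    (by
      -- `X` is a uniformiser of `V₁`
      refine ⟨hX0, hXV, ?_⟩
      intro z hz
      have e1 : z / (X : E) = z / algebraMap A E ϖ * ((d : E) * (Y : E) * (ψ : E)⁻¹) := by
        field_simp
        linear_combination (-z) * hrelE
      rw [e1]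
      exact V₁.mul_mem _ _ (hϖ₁.2.2 z hz)
        (V₁.mul_mem _ _ (V₁.mul_mem _ _ (hB₁ _ d.2) (hB₁ _ Y.2))
          (nu_inv_mem V₁ (hB₁ _ ψ.2) (hu₁ ψ hψ))))
    X.2
    (by
      -- HYP1 (a)
      rintro W (rfl | hW) hne hthr hXW
      · exact hne rfl
      · rw [Set.mem_singleton_iff] at hW
        subst hW
        have e1 : (ψ : E) = (d : E) * ((Y : E) / algebraMap A E ϖ) * (X : E) := by
          field_simp
          linear_combination (-1 : E) * hrelE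
        apply hu₂ ψ hψ
        rw [e1]
        exact nu_mul_left W (W.mul_mem _ _ (hB₂ _ d.2) (hϖ₂.2.2 _ hYV)) hXW)
    (by
      -- HYP1 (b)
      intro V' hV' hXV'
      have hBV' : ∀ s ∈ chartClosure A E y, s ∈ V' := fun s hs =>
        Fermat.Agent.H59.SS.ssp_chartClosure_le hV'.1 hs
      have hϖinv : (algebraMap A E ϖ)⁻¹ ∈ V' := (hV'.1.1.2.2 ϖ hϖ.ne_zero).2
      have e1 : (ψ : E) = (algebraMap A E ϖ)⁻¹ * ((d : E) * (Y : E)) * (X : E) := by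
        field_simp
        linear_combination (-1 : E) * hrelE
      apply hψ
      apply hV'.2 ψ
      rw [e1]
      exact nu_mul_left V' (V'.mul_mem _ _ hϖinv (V'.mul_mem _ _ (hBV' _ d.2) (hBV' _ Y.2)))
        hXV')
    ((Fermat.Agent.H60.SS2.locSubring A E' y' 𝔫 h𝔫).map ι)
    (by
      -- `D₀ ⊆ B_𝔪`
      rintro _ ⟨d₀, ⟨b', hb', hbd⟩, rfl⟩
      refine ⟨⟨ι b', hιB b' b'.2⟩, fun h => hb' ((h𝔫𝔪 b').2 h), ?_⟩
      show ι (b' : E') * ι d₀ ∈ chartClosure A E y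
      rw [← map_mul]
      exact hιB _ hbd)
    (by
      -- `x₂ ∈ D₀`
      exact ⟨(U' : E'), Fermat.Agent.H60.SS2.inLoc_of_mem h𝔫.ne_top U'.2, rfl⟩)
    ⟨⟨ι U', hιB _ U'.2⟩, (h𝔫𝔪 U').1 hU', rfl⟩
    hUV
    (by
      -- HYP2 (i)
      rintro _ ⟨d₀, ⟨b', hb', hbd⟩, rfl⟩
      by_cases hc : (⟨(b' : E') * d₀, hbd⟩ : chartClosure A E' y') ∈ 𝔫
      · left
        obtain ⟨s, hs, b₁, b₂, hsz⟩ := hreg' _ hc
        have hszE : (s : E') * ((b' : E') * d₀) =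
            algebraMap A E' ϖ * (b₁ : E') + (U' : E') * (b₂ : E') := congrArg Subtype.val hsz
        have hs0 : (s : E') ≠ 0 := hne0' s hs
        have hb0 : (b' : E') ≠ 0 := hne0' b' hb'
        have hsb : s * b' ∉ 𝔫 := fun h => (h𝔫.mem_or_mem h).elim hs hb'
        refine ⟨ι ((b₂ : E') * ((s : E') * (b' : E'))⁻¹), ⟨_, ⟨s * b', hsb, ?_⟩, rfl⟩, ?_⟩
        · have e1 : ((s * b' : chartClosure A E' y') : E') *
              ((b₂ : E') * ((s : E') * (b' : E'))⁻¹) = (b₂ : E') := by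
            push_cast
            field_simp
          rw [e1]
          exact b₂.2
        · have e2 : d₀ - (U' : E') * ((b₂ : E') * ((s : E') * (b' : E'))⁻¹) =
              algebraMap A E' ϖ * ((b₁ : E') * ((s : E') * (b' : E'))⁻¹) := by
            have e3 : d₀ = (algebraMap A E' ϖ * (b₁ : E') + (U' : E') * (b₂ : E')) *
                ((s : E') * (b' : E'))⁻¹ := by
              rw [← hszE]
              field_simp
            conv_lhs => rw [e3]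
            ring
          have e4 : ι d₀ - ι (U' : E') * ι ((b₂ : E') * ((s : E') * (b' : E'))⁻¹) =
              (ι (b₁ : E') * (ι ((s * b' : chartClosure A E' y') : E'))⁻¹) *
                algebraMap A E ϖ := by
            rw [← map_mul, ← map_sub, e2, map_mul, map_mul, hι, map_inv₀]
            push_cast
            ring
          rw [e4]
          exact nu_mul_left V₁ (V₁.mul_mem _ _ (hιV b₁)
            (nu_inv_mem V₁ (hιV (s * b')) (hι𝔫 (s * b') hsb))) hϖ₁.2.1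
      · right
        have hc0 : (b' : E') * d₀ ≠ 0 := hne0' ⟨_, hbd⟩ hc
        have hd₀ : d₀ ≠ 0 := right_ne_zero_of_mul hc0
        refine ⟨⟨ι ((b' : E') * d₀), hιB _ hbd⟩, fun h => hc ((h𝔫𝔪 ⟨_, hbd⟩).2 h), ?_⟩
        show ι ((b' : E') * d₀) * (ι d₀)⁻¹ ∈ chartClosure A E y
        have e1 : ι ((b' : E') * d₀) * (ι d₀)⁻¹ = ι (b' : E') := by
          rw [map_mul, mul_assoc, mul_inv_cancel₀ ((map_ne_zero ι).2 hd₀), mul_one]
        rw [e1]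
        exact hιB b' b'.2)
    (by
      -- HYP2 (ii)
      intro z hz
      obtain ⟨z', hz'V, hzz'⟩ := hFR z hz
      obtain ⟨h, hh, hnd, hhz⟩ := hQ' z' hz'V
      have hhB : h ∈ chartClosure A E' y' := by
        obtain ⟨P, rfl⟩ := (Fermat.Agent.H87.KL.mem_chartRing_iff y' h).1 hh
        exact etale_aeval_mem_chartClosure A E' y' P
      refine ⟨ι (h * z'), ⟨_, Fermat.Agent.H60.SS2.inLoc_of_mem h𝔫.ne_top hhz, rfl⟩,
        ι h, ⟨_, Fermat.Agent.H60.SS2.inLoc_of_mem h𝔫.ne_top hhB, rfl⟩,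
        unit_of_primitive ι V₁ hGC' h hh hnd, ?_⟩
      have e1 : z * ι h - ι (h * z') = ι h * (z - ι z') := by
        rw [map_mul]; ring
      rw [e1]
      exact nu_mul_left V₁ (hιV ⟨h, hhB⟩) hzz')
  intro z hz
  obtain ⟨b, hb, c₁, c₂, hbz⟩ := hreg.reg z hz
  exact ⟨b, hb, c₁, c₂, Subtype.ext hbz⟩

/-- **The crossing points**: `𝔪 B_𝔪 = (X, Y)`. -/
theorem node_gen_abs (hH : LocalHartogsStatement)
    (hinj' : Function.Injective (algebraMap A E')) (hinj : Function.Injective (algebraMap A E))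
    (ι : E' →+* E) (hι : ∀ a : A, ι (algebraMap A E' a) = algebraMap A E a)
    {ϖ : A} (hϖ : Irreducible ϖ) {y' : E'} {y : E}
    (hy' : Transcendental A y') (hy : Transcendental A y)
    (hfd : ∃ n : ℕ, Nonempty (Module.Basis (Fin n) (chartField A E y) E))
    (V₁ V₂ : ValuationSubring E)
    (hV₁ : V₁ ≠ ⊤ ∧ IsPrincipalIdealRing V₁) (hV₂ : V₂ ≠ ⊤ ∧ IsPrincipalIdealRing V₂)
    (hC : ∀ z : E, z ∈ gaussClosure A E ϖ y ↔ z ∈ V₁ ∧ z ∈ V₂)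
    (hϖ₁ : IsUniformiser E V₁ (algebraMap A E ϖ))
    (hϖ₂ : IsUniformiser E V₂ (algebraMap A E ϖ))
    (hGC' : ∀ z' ∈ gaussClosure A E' ϖ y', ι z' ∈ V₁)
    (hQ' : ∀ z' : E', ι z' ∈ V₁ → z' ∈ gaussClosure A E' ϖ y')
    (hFR : ∀ z ∈ V₁, ∃ z' : E', ι z' ∈ V₁ ∧ z - ι z' ∈ V₁.nonunits)
    (hιB : ∀ b ∈ chartClosure A E' y', ι b ∈ chartClosure A E y)
    (𝔪 : Ideal (chartClosure A E y)) (h𝔪 : 𝔪.IsMaximal)
    (hϖ𝔪 : algebraMap A (chartClosure A E y) ϖ ∈ 𝔪)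
    (hT₁ : ∀ s : chartClosure A E y, (s : E) ∈ V₁.nonunits → s ∈ 𝔪)
    (hT₂ : ∀ s : chartClosure A E y, (s : E) ∈ V₂.nonunits → s ∈ 𝔪)
    (X Y d ψ : chartClosure A E y) (hψ : ψ ∉ 𝔪)
    (hrel : d * (X * Y) = algebraMap A (chartClosure A E y) ϖ * ψ)
    (hXV : (X : E) ∈ V₁.nonunits) (hYV : (Y : E) ∈ V₂.nonunits)
    (𝔫 : Ideal (chartClosure A E' y')) (h𝔫 : 𝔫.IsPrime)
    (h𝔫𝔪 : ∀ b : chartClosure A E' y',
      b ∈ 𝔫 ↔ (⟨ι b, hιB b b.2⟩ : chartClosure A E y) ∈ 𝔪)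
    (U' : chartClosure A E' y') (hU' : U' ∈ 𝔫)
    (hreg' : ∀ z ∈ 𝔫, ∃ s, s ∉ 𝔫 ∧ ∃ b₁ b₂ : chartClosure A E' y',
      s * z = algebraMap A (chartClosure A E' y') ϖ * b₁ + U' * b₂)
    (g₀ : A[X]) (hg₀m : g₀.Monic)
    (hg₀ : (⟨aeval y' g₀, etale_aeval_mem_chartClosure A E' y' g₀⟩ :
      chartClosure A E' y') ∈ 𝔫)
    (h r c : chartClosure A E y) (hh : h ∉ 𝔪)
    (hY : (Y : E) = ι (U' : E') * (h : E) + algebraMap A E ϖ * (r : E) + (X : E) * (c : E)) :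
    ∀ z ∈ 𝔪, ∃ s, s ∉ 𝔪 ∧ ∃ b₁ b₂ : chartClosure A E y, s * z = X * b₁ + Y * b₂ :=
  node_switch h𝔪.isPrime X Y ⟨ι U', hιB _ U'.2⟩ d ψ h r c hψ hh hrel (Subtype.ext hY)
    (node_regcrit hH hinj' hinj ι hι hϖ hy' hy hfd V₁ V₂ hV₁ hV₂ hC hϖ₁ hϖ₂ hGC' hQ' hFR hιB
      𝔪 h𝔪 hϖ𝔪 hT₁ hT₂ X Y d ψ hψ hrel hXV hYV 𝔫 h𝔫 h𝔫𝔪 U' hU' hreg' g₀ hg₀m hg₀)

end NodeAbs

end Fermat.Agent.H7.SS2

end
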