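/-
P-SS2 row 900 (SS2-C3 REGL), input (N): a separability lemma (Mathlib only).  helper7.

`A` a discrete valuation ring with uniformiser `ϖ ∣ q`, `g ∈ A[X]` with irreducible reduction.
If `X - X ^ (q ^ 2) ∈ (ϖ, g)`, then `X - X ^ (q ^ 2) = g h + ϖ r` with `h ∉ (ϖ, g)`
(the polynomial `X - X ^ (q ^ 2)` is separable in characteristic `q`: its derivative is `1`).
-/
import Mathlib

set_option autoImplicit false

noncomputable section

namespace Fermat.Agent.H7.SS2

open Polynomial

theorem node_sep_factor {A : Type} [CommRing A] [IsDomain A] [IsDiscreteValuationRing A]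
    {ϖ : A} (hϖ : Irreducible ϖ) (q : ℕ) (hqϖ : ϖ ∣ ((q : ℕ) : A))
    (g : A[X]) (hgirr : Irreducible (g.map (IsLocalRing.residue A)))
    (hmem : (X - X ^ (q ^ 2) : A[X]) ∈ Ideal.span {C ϖ, g}) :
    ∃ h r : A[X], (X - X ^ (q ^ 2) : A[X]) = g * h + C ϖ * r ∧
      h ∉ Ideal.span {C ϖ, g} := by
  obtain ⟨a, b, hab⟩ := Ideal.mem_span_pair.1 hmem
  refine ⟨b, a, by rw [← hab]; ring, ?_⟩
  intro hb
  obtain ⟨a', b', hab'⟩ := Ideal.mem_span_pair.1 hb
  have hres : IsLocalRing.residue A ϖ = 0 := by
    rw [IsLocalRing.residue_eq_zero_iff, IsLocalRing.mem_maximalIdeal, mem_nonunits_iff]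
    exact hϖ.not_isUnit
  have hqk : ((q : ℕ) : IsLocalRing.ResidueField A) = 0 := by
    obtain ⟨c, hc⟩ := hqϖ
    rw [← map_natCast (IsLocalRing.residue A), hc, map_mul, hres, zero_mul]
  set G := g.map (IsLocalRing.residue A) with hG
  set B' := b'.map (IsLocalRing.residue A) with hB'
  have hk : (X - X ^ (q ^ 2) : (IsLocalRing.ResidueField A)[X]) = B' * G ^ 2 := by
    have h1 : (X - X ^ (q ^ 2) : A[X]) = C ϖ * (a + a' * g) + b' * g ^ 2 := by
      rw [← hab, ← hab']
      ring
    have h2 := congrArg (Polynomial.map (IsLocalRing.residue A)) h1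
    simp only [Polynomial.map_sub, Polynomial.map_pow, Polynomial.map_X, Polynomial.map_add,
      Polynomial.map_mul, Polynomial.map_C, hres, map_zero, zero_mul, zero_add] at h2
    exact h2
  have hd := congrArg Polynomial.derivative hk
  have hq2 : ((q ^ 2 : ℕ) : IsLocalRing.ResidueField A) = 0 := by
    rw [Nat.cast_pow, hqk]
    exact zero_pow (by norm_num)
  rw [derivative_sub, derivative_X, derivative_X_pow, hq2, map_zero, zero_mul, sub_zero,
    derivative_mul, derivative_pow] at hd
  have hunit : IsUnit G := by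
    refine IsUnit.of_mul_eq_one (derivative B' * G + B' * (C ((2 : ℕ) : IsLocalRing.ResidueField A)
      * derivative G)) ?_
    rw [hd]
    simp only [Nat.add_one_sub_one, pow_one]
    ring
  exact hgirr.not_isUnit hunit

end Fermat.Agent.H7.SS2

end
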