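/-
P-SS2 row 900 (SS2-C3 REGL), input (N): THE CROSSING POINTS IN A HAUPTMODUL CHART, abstract.
helper7.

Setting of `Fermat.Agent.H7.SS2.node_regcrit`; in addition `H' ∈ B'` (an étale coordinate of
level `M` at `𝔫 = ι⁻¹ 𝔪`: `𝔫 B'_𝔫 = (ϖ, g(H'))`, `g` with irreducible reduction), `H = ι H'`,
`H_q ∈ B`, `X = H_q - H ^ q ∈ 𝔪`, `Y = H - H_q ^ q ∈ 𝔪`, `d X Y = ϖ ψ`, `ψ ∉ 𝔪`, `ϖ ∣ q`.

`node_gen_haupt` : `𝔪 B_𝔪 = (X, Y)`.

(`Y ≡ H - H ^ (q ^ 2)` modulo `X`, and `T - T ^ (q ^ 2) = g h + ϖ r` with `h(H') ∉ 𝔫` because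
`T - T ^ (q ^ 2)` is separable in characteristic `q`.)
-/
import Fermat.Agent.H7.SS2.NodeAbs
import Fermat.Agent.H7.SS2.NodeSep

set_option autoImplicit false
set_option linter.style.haveILetI false
set_option linter.unusedSectionVars false
set_option linter.unusedVariables false

noncomputable section

namespace Fermat.Agent.H7.SS2

open Polynomial
open Fermat.Agent.H22.KL Fermat.Agent.H45 Fermat.Agent.H41.SS
open Fermat.Agent.H67.SS
open Fermat.Agent.H67.KLConn (PiDvd)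

section NodeHaupt

variable {A : Type} [CommRing A] [IsDomain A] [IsDiscreteValuationRing A]
  {E' : Type} [Field E'] [Algebra A E'] [CharZero E']
  {E : Type} [Field E] [Algebra A E] [CharZero E]

/-- `ι` commutes with the evaluation of polynomials over `A`. -/
theorem node_map_aeval (ι : E' →+* E) (hι : ∀ a : A, ι (algebraMap A E' a) = algebraMap A E a)
    (z' : E') (F : A[X]) : ι (aeval z' F) = aeval (ι z') F := by
  have h := RingHom.congr_fun (comp_evX ι hι z') F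
  simpa [Fermat.Agent.H87.KL.evX_apply] using h

/-- **The crossing points in a Hauptmodul chart**: `𝔪 B_𝔪 = (X, Y)`. -/
theorem node_gen_haupt (hH : LocalHartogsStatement)
    (hinj' : Function.Injective (algebraMap A E')) (hinj : Function.Injective (algebraMap A E))
    (ι : E' →+* E) (hι : ∀ a : A, ι (algebraMap A E' a) = algebraMap A E a)
    {ϖ : A} (hϖ : Irreducible ϖ) {y' : E'} {y : E}
    (hy' : Transcendental A y') (hy : Transcendental A y)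
    (hfd : ∃ n : ℕ, Nonempty (Module.Basis (Fin n) (chartField A E y) E))
    (V₁ V₂ : ValuationSubring E)
    (hV₁ : V₁ ≠ ⊤ ∧ IsPrincipalIdealRing V₁) (hV₂ : V₂ ≠ ⊤ ∧ IsPrincipalIdealRing V₂)
    (hC : ∀ z : E, z ∈ gaussClosure A E ϖ y ↔ z ∈ V₁ ∧ z ∈ V₂)
    (hϖ₁ : IsUniformiser E V₁ (algebraMap A E ϖ))
    (hϖ₂ : IsUniformiser E V₂ (algebraMap A E ϖ))
    (hGC' : ∀ z' ∈ gaussClosure A E' ϖ y', ι z' ∈ V₁)
    (hQ' : ∀ z' : E', ι z' ∈ V₁ → z' ∈ gaussClosure A E' ϖ y')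
    (hFR : ∀ z ∈ V₁, ∃ z' : E', ι z' ∈ V₁ ∧ z - ι z' ∈ V₁.nonunits)
    (hιB : ∀ b ∈ chartClosure A E' y', ι b ∈ chartClosure A E y)
    (𝔪 : Ideal (chartClosure A E y)) (h𝔪 : 𝔪.IsMaximal)
    (hϖ𝔪 : algebraMap A (chartClosure A E y) ϖ ∈ 𝔪)
    (hT₁ : ∀ s : chartClosure A E y, (s : E) ∈ V₁.nonunits → s ∈ 𝔪)
    (hT₂ : ∀ s : chartClosure A E y, (s : E) ∈ V₂.nonunits → s ∈ 𝔪)
    (q : ℕ) (hqϖ : ϖ ∣ ((q : ℕ) : A))
    (H' : chartClosure A E' y') (HB HqB : chartClosure A E y)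
    (hιH : ι (H' : E') = (HB : E))
    (d ψ : chartClosure A E y) (hψ : ψ ∉ 𝔪)
    (hrel : d * ((HqB - HB ^ q) * (HB - HqB ^ q)) =
      algebraMap A (chartClosure A E y) ϖ * ψ)
    (hXm : HqB - HB ^ q ∈ 𝔪) (hYm : HB - HqB ^ q ∈ 𝔪)
    (hXV : ((HqB - HB ^ q : chartClosure A E y) : E) ∈ V₁.nonunits)
    (hYV : ((HB - HqB ^ q : chartClosure A E y) : E) ∈ V₂.nonunits)
    (𝔫 : Ideal (chartClosure A E' y')) (h𝔫 : 𝔫.IsPrime)
    (h𝔫𝔪 : ∀ b : chartClosure A E' y',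
      b ∈ 𝔫 ↔ (⟨ι b, hιB b b.2⟩ : chartClosure A E y) ∈ 𝔪)
    (g : A[X]) (hgirr : Irreducible (g.map (IsLocalRing.residue A)))
    (hg𝔫 : aeval H' g ∈ 𝔫)
    (hreg' : ∀ z ∈ 𝔫, ∃ s, s ∉ 𝔫 ∧ ∃ b₁ b₂ : chartClosure A E' y',
      s * z = algebraMap A (chartClosure A E' y') ϖ * b₁ + aeval H' g * b₂)
    (g₀ : A[X]) (hg₀m : g₀.Monic)
    (hg₀ : (⟨aeval y' g₀, etale_aeval_mem_chartClosure A E' y' g₀⟩ :
      chartClosure A E' y') ∈ 𝔫) :
    ∀ z ∈ 𝔪, ∃ s, s ∉ 𝔪 ∧ ∃ b₁ b₂ : chartClosure A E y,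
      s * z = (HqB - HB ^ q) * b₁ + (HB - HqB ^ q) * b₂ := by
  classical
  haveI h𝔪p : 𝔪.IsPrime := h𝔪.isPrime
  -- the evaluation at `H'`
  set φ : A[X] →ₐ[A] ↥(chartClosure A E' y') := aeval H' with hφ
  have hφE : ∀ F : A[X], ((φ F : chartClosure A E' y') : E') = aeval (H' : E') F := fun F =>
    Polynomial.aeval_subalgebra_coe F _ H'
  have hιφ : ∀ F : A[X], ι ((φ F : chartClosure A E' y') : E') = aeval (HB : E) F := by
    intro F
    rw [hφE, node_map_aeval ι hι, hιH]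
  -- `X c₀ = H_q ^ q - H ^ (q ^ 2)`
  obtain ⟨c₀, hc₀⟩ := sub_dvd_pow_sub_pow HqB (HB ^ q) q
  have hpow : (HB ^ q) ^ q = HB ^ (q ^ 2) := by rw [← pow_mul, sq]
  rw [hpow] at hc₀
  -- the kernel of the evaluation
  set I : Ideal A[X] := Ideal.span {(C ϖ : A[X]), g} with hI
  have hImax : I.IsMaximal := Fermat.Agent.H91.KLNorm.isMaximal_span_pair A hϖ hgirr
  have hIK : I ≤ 𝔫.comap (φ : A[X] →+* ↥(chartClosure A E' y')) := by
    rw [hI, Ideal.span_le]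
    rintro p (rfl | rfl)
    · show φ (C ϖ) ∈ 𝔫
      rw [hφ, aeval_C]
      rw [h𝔫𝔪]
      have e1 : (⟨ι ((algebraMap A ↥(chartClosure A E' y') ϖ : chartClosure A E' y') : E'),
          hιB _ (algebraMap A ↥(chartClosure A E' y') ϖ).2⟩ : chartClosure A E y) =
          algebraMap A (chartClosure A E y) ϖ := Subtype.ext (hι ϖ)
      rw [e1]
      exact hϖ𝔪
    · exact hg𝔫
  have hKtop : 𝔫.comap (φ : A[X] →+* ↥(chartClosure A E' y')) ≠ ⊤ := by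
    intro htop
    have h1 : (1 : A[X]) ∈ 𝔫.comap (φ : A[X] →+* ↥(chartClosure A E' y')) := by
      rw [htop]; trivial
    rw [Ideal.mem_comap, map_one] at h1
    exact h𝔫.ne_top ((Ideal.eq_top_iff_one _).2 h1)
  have hIeq : I = 𝔫.comap (φ : A[X] →+* ↥(chartClosure A E' y')) :=
    hImax.eq_of_le hKtop hIK
  -- `T - T ^ (q ^ 2)` lies in the kernel
  have hPK : (X - X ^ (q ^ 2) : A[X]) ∈ I := by
    rw [hIeq, Ideal.mem_comap]
    show φ (X - X ^ (q ^ 2)) ∈ 𝔫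
    rw [h𝔫𝔪]
    have e1 : (⟨ι ((φ (X - X ^ (q ^ 2)) : chartClosure A E' y') : E'),
        hιB _ (φ (X - X ^ (q ^ 2))).2⟩ : chartClosure A E y) =
        (HB - HqB ^ q) + (HqB - HB ^ q) * c₀ := by
      apply Subtype.ext
      show ι ((φ (X - X ^ (q ^ 2)) : chartClosure A E' y') : E') = _
      rw [hιφ, ← hc₀]
      simp only [map_sub, aeval_X, map_pow]
      push_cast
      ring
    rw [e1]
    exact 𝔪.add_mem hYm (𝔪.mul_mem_right _ hXm)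
  obtain ⟨hp, rp, hfac, hhp⟩ := node_sep_factor hϖ q hqϖ g hgirr hPK
  have hhp𝔫 : φ hp ∉ 𝔫 := by
    intro h
    apply hhp
    have h1 : hp ∈ I := by
      rw [hIeq, Ideal.mem_comap]
      exact h
    exact h1
  -- the elements of `B`
  set hB : chartClosure A E y := ⟨ι ((φ hp : chartClosure A E' y') : E'), hιB _ (φ hp).2⟩
    with hhB
  set rB : chartClosure A E y := ⟨ι ((φ rp : chartClosure A E' y') : E'), hιB _ (φ rp).2⟩
    with hrB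
  have hhB𝔪 : hB ∉ 𝔪 := fun h => hhp𝔫 ((h𝔫𝔪 _).2 h)
  refine node_gen_abs hH hinj' hinj ι hι hϖ hy' hy hfd V₁ V₂ hV₁ hV₂ hC hϖ₁ hϖ₂ hGC' hQ' hFR
    hιB 𝔪 h𝔪 hϖ𝔪 hT₁ hT₂ (HqB - HB ^ q) (HB - HqB ^ q) d ψ hψ hrel hXV hYV 𝔫 h𝔫 h𝔫𝔪
    (φ g) hg𝔫 hreg' g₀ hg₀m hg₀ hB rB (-c₀) hhB𝔪 ?_
  -- the relation `Y = g(H) h(H) + ϖ r(H) - X c₀`
  have e2 : aeval (HB : E) (X - X ^ (q ^ 2) : A[X]) =
      aeval (HB : E) g * aeval (HB : E) hp + algebraMap A E ϖ * aeval (HB : E) rp := by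
    rw [hfac, map_add, map_mul, map_mul, aeval_C]
  have e3 : ((HqB : E) - (HB : E) ^ q) * (c₀ : E) = (HqB : E) ^ q - (HB : E) ^ (q ^ 2) := by
    have := congrArg Subtype.val hc₀
    push_cast at this
    rw [← this]
  show ((HB - HqB ^ q : chartClosure A E y) : E) =
    ι ((φ g : chartClosure A E' y') : E') * ι ((φ hp : chartClosure A E' y') : E') +
      algebraMap A E ϖ * ι ((φ rp : chartClosure A E' y') : E') +
      ((HqB - HB ^ q : chartClosure A E y) : E) * ((-c₀ : chartClosure A E y) : E)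
  rw [hιφ, hιφ, hιφ, ← e2]
  simp only [map_sub, aeval_X, map_pow]
  push_cast
  linear_combination e3

end NodeHaupt

end Fermat.Agent.H7.SS2

end
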