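/-
P-SS2 row 900 (SS2-C3 REGL), input (N): THE CROSSING POINTS, abstract, with the contraction to
level `M` built in.  helper7.

`node_gen_contract` : `node_gen_haupt` with `𝔫 = ι⁻¹ 𝔪`; the regularity of level `M` is a
hypothesis on ALL maximal ideals `𝔫 ∋ ϖ` of `B'` (`H' ∈ B'` and `𝔫 B'_𝔫 = (ϖ, g(H'))`).

`node_rel_of_isSSData` : the relation `d X Y = q ψ` of supersingular data (helper59's
`IsSSData`).
-/
import Fermat.Agent.H7.SS2.NodeHaupt
import Fermat.Agent.H59.SS.TubeValues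
import Fermat.Agent.H41.SS.OrdPoint

set_option autoImplicit false
set_option linter.style.haveILetI false
set_option linter.unusedSectionVars false
set_option linter.unusedVariables false

noncomputable section

namespace Fermat.Agent.H7.SS2

open Polynomial
open scoped Polynomial.Bivariate
open Fermat.Agent.H22.KL Fermat.Agent.H45 Fermat.Agent.H41.SS
open Fermat.Agent.H67.SS Fermat.Agent.H60.SS Fermat.Agent.H59.SS
open Fermat.Agent.H67.KLConn (PiDvd)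

section NodeContract

variable {A : Type} [CommRing A] [IsDomain A] [IsDiscreteValuationRing A]
  {E' : Type} [Field E'] [Algebra A E'] [CharZero E']
  {E : Type} [Field E] [Algebra A E] [CharZero E]

/-- The relation `d X Y = q ψ` of supersingular data. -/
theorem node_rel_of_isSSData {y : E} {𝔪 : Ideal (chartClosure A E y)} {q : ℕ}
    {D Ψ : A[X][Y]} {HB HqB : chartClosure A E y} (hss : IsSSData 𝔪 q D Ψ HB HqB) :
    (D.map (mapRingHom (algebraMap A (chartClosure A E y)))).evalEval HB HqB *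
        ((HqB - HB ^ q) * (HB - HqB ^ q)) =
      algebraMap A (chartClosure A E y) ((q : ℕ) : A) *
        (Ψ.map (mapRingHom (algebraMap A (chartClosure A E y)))).evalEval HB HqB := by
  have hc := hss.curve
  rw [ssp_tubeEq_map, evalEval_sub, evalEval_mul, evalEval_tubeKernel, evalEval_mul,
    evalEval_C, eval_C, sub_eq_zero] at hc
  rw [hc, map_natCast]

/-- **The crossing points in a Hauptmodul chart**, contraction built in. -/
theorem node_gen_contract (hH : LocalHartogsStatement)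
    (hinj' : Function.Injective (algebraMap A E')) (hinj : Function.Injective (algebraMap A E))
    (ι : E' →+* E) (hι : ∀ a : A, ι (algebraMap A E' a) = algebraMap A E a)
    {ϖ : A} (hϖ : Irreducible ϖ) {y' : E'} {y : E} (hιy : ι y' = y)
    (hy' : Transcendental A y') (hy : Transcendental A y)
    (hfd : ∃ n : ℕ, Nonempty (Module.Basis (Fin n) (chartField A E y) E))
    (V₁ V₂ : ValuationSubring E)
    (hV₁ : V₁ ≠ ⊤ ∧ IsPrincipalIdealRing V₁) (hV₂ : V₂ ≠ ⊤ ∧ IsPrincipalIdealRing V₂)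
    (hC : ∀ z : E, z ∈ gaussClosure A E ϖ y ↔ z ∈ V₁ ∧ z ∈ V₂)
    (hϖ₁ : IsUniformiser E V₁ (algebraMap A E ϖ))
    (hϖ₂ : IsUniformiser E V₂ (algebraMap A E ϖ))
    (hGC' : ∀ z' ∈ gaussClosure A E' ϖ y', ι z' ∈ V₁)
    (hQ' : ∀ z' : E', ι z' ∈ V₁ → z' ∈ gaussClosure A E' ϖ y')
    (hFR : ∀ z ∈ V₁, ∃ z' : E', ι z' ∈ V₁ ∧ z - ι z' ∈ V₁.nonunits)
    (𝔪 : Ideal (chartClosure A E y)) (h𝔪 : 𝔪.IsMaximal)
    (hϖ𝔪 : algebraMap A (chartClosure A E y) ϖ ∈ 𝔪)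
    (hT₁ : ∀ s : chartClosure A E y, (s : E) ∈ V₁.nonunits → s ∈ 𝔪)
    (hT₂ : ∀ s : chartClosure A E y, (s : E) ∈ V₂.nonunits → s ∈ 𝔪)
    (q : ℕ) (hqϖ : ϖ ∣ ((q : ℕ) : A))
    (H' : E') (HB HqB : chartClosure A E y)
    (hιH : ι H' = (HB : E))
    (d ψ : chartClosure A E y) (hψ : ψ ∉ 𝔪)
    (hrel : d * ((HqB - HB ^ q) * (HB - HqB ^ q)) =
      algebraMap A (chartClosure A E y) ϖ * ψ)
    (hXm : HqB - HB ^ q ∈ 𝔪) (hYm : HB - HqB ^ q ∈ 𝔪)
    (hXV : ((HqB - HB ^ q : chartClosure A E y) : E) ∈ V₁.nonunits)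
    (hYV : ((HB - HqB ^ q : chartClosure A E y) : E) ∈ V₂.nonunits)
    (hREG' : ∀ 𝔫 : Ideal (chartClosure A E' y'), 𝔫.IsMaximal →
      algebraMap A (chartClosure A E' y') ϖ ∈ 𝔫 →
      ∃ H'B : chartClosure A E' y', (H'B : E') = H' ∧
      ∃ g : A[X], Irreducible (g.map (IsLocalRing.residue A)) ∧ aeval H'B g ∈ 𝔫 ∧
        ∀ z ∈ 𝔫, ∃ s, s ∉ 𝔫 ∧ ∃ b₁ b₂ : chartClosure A E' y',
          s * z = algebraMap A (chartClosure A E' y') ϖ * b₁ + aeval H'B g * b₂) :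
    ∀ z ∈ 𝔪, ∃ s, s ∉ 𝔪 ∧ ∃ b₁ b₂ : chartClosure A E y,
      s * z = (HqB - HB ^ q) * b₁ + (HB - HqB ^ q) * b₂ := by
  classical
  haveI h𝔪p : 𝔪.IsPrime := h𝔪.isPrime
  have hιB : ∀ b ∈ chartClosure A E' y', ι b ∈ chartClosure A E y := by
    intro b hb
    have := map_mem_chartClosure ι hι hb
    rwa [hιy] at this
  -- the contraction to level `M`
  set φB : ↥(chartClosure A E' y') →+* ↥(chartClosure A E y) :=
    (ι.comp (chartClosure A E' y').val.toRingHom).codRestrict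
      (chartClosure A E y).toSubring (fun b => hιB b b.2) with hφB
  set 𝔫 : Ideal ↥(chartClosure A E' y') := 𝔪.comap φB with h𝔫def
  haveI h𝔫p : 𝔫.IsPrime := Ideal.comap_isPrime φB 𝔪
  have h𝔫𝔪 : ∀ b : chartClosure A E' y',
      b ∈ 𝔫 ↔ (⟨ι b, hιB b b.2⟩ : chartClosure A E y) ∈ 𝔪 :=
    fun b => Iff.rfl
  have hϖ𝔫 : algebraMap A ↥(chartClosure A E' y') ϖ ∈ 𝔫 := by
    rw [h𝔫𝔪]
    have e1 : (⟨ι ((algebraMap A ↥(chartClosure A E' y') ϖ : chartClosure A E' y') : E'),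
        hιB _ (algebraMap A ↥(chartClosure A E' y') ϖ).2⟩ : chartClosure A E y) =
        algebraMap A (chartClosure A E y) ϖ := Subtype.ext (hι ϖ)
    rw [e1]
    exact hϖ𝔪
  -- a monic polynomial in `y` vanishing at the point
  obtain ⟨g₀, hg₀m, hg₀irr, hg₀𝔪⟩ := ordPoint_exists_monic A E ϖ hϖ y 𝔪 h𝔪 hϖ𝔪
  have hg₀ : (⟨aeval y' g₀, etale_aeval_mem_chartClosure A E' y' g₀⟩ :
      chartClosure A E' y') ∈ 𝔫 := by
    rw [h𝔫𝔪]
    have e1 : (⟨ι (aeval y' g₀), hιB _ (etale_aeval_mem_chartClosure A E' y' g₀)⟩ :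
        chartClosure A E y) = ⟨aeval y g₀, etale_aeval_mem_chartClosure A E y g₀⟩ := by
      apply Subtype.ext
      show ι (aeval y' g₀) = aeval y g₀
      rw [node_map_aeval ι hι, hιy]
    rw [e1]
    exact hg₀𝔪
  have h𝔫max : 𝔫.IsMaximal := isMaximal_of_isPrime_of_mem hϖ g₀ hg₀irr 𝔫 hϖ𝔫 hg₀
  obtain ⟨H'B, hH'B, g, hgirr, hg𝔫, hgen⟩ := hREG' 𝔫 h𝔫max hϖ𝔫
  exact node_gen_haupt hH hinj' hinj ι hι hϖ hy' hy hfd V₁ V₂ hV₁ hV₂ hC hϖ₁ hϖ₂ hGC' hQ' hFR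
    hιB 𝔪 h𝔪 hϖ𝔪 hT₁ hT₂ q hqϖ H'B HB HqB (by rw [hH'B]; exact hιH) d ψ hψ hrel hXm hYm hXV
    hYV 𝔫 h𝔫p h𝔫𝔪 g hgirr hg𝔫 hgen g₀ hg₀m hg₀

end NodeContract

end Fermat.Agent.H7.SS2

end
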