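/-
P-SS2 row 900 (SS2-C3 REGL): THE REGULARITY OF LEVEL `M` (`4 ∣ M`, `q` odd) WITH AN EXPLICIT
SECOND PARAMETER.  helper7.

`levelReg_h4_explicit` : every maximal ideal `𝔫 ∋ ϖ` of `B'(j)` (level `M`) is generated, after
localisation, by `ϖ` and `g(H)`, `H` the Hauptmodul of level `4`, `g` monic with irreducible
reduction.  (helper22's `Fermat.Agent.H22.SS.modelLevelReg_h4` with the generator exposed; same
proof, the chart change `Fermat.Agent.H22.SS.cch_reg` unfolded.)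

`modelLevelReg_h4_all : ModelLevelRegStatement M q jq R` for EVERY `R` (no roots of unity are
needed).
-/
import Fermat.Agent.H22.SS.LevelRegH4

set_option autoImplicit false
set_option linter.style.haveILetI false
set_option linter.unusedSectionVars false
set_option linter.unusedVariables false
set_option maxHeartbeats 1000000

noncomputable section

open Polynomial

namespace Fermat.Agent.H7.SS2

open ModularCurve AlgebraicCurve
open Fermat.Agent.H22.KL Fermat.Agent.H8.SS Fermat.Agent.H22.SS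
open Fermat.Agent.H41.SS (etale_aeval_mem_chartClosure ordPoint_exists_monic etale_point_chart)

/-- **REG' at level `M` with explicit parameters** (`4 ∣ M`, `q` an odd prime, `q ∤ M`), chart
`j`: `H ∈ B'(j)`, `Q(H) = H⁴ (H + 16)` is a unit of `B'(j)`, and every maximal ideal `𝔫 ∋ ϖ` is
locally generated by `ϖ` and `g(H)`. -/
theorem levelReg_h4_explicit (M q : ℕ) [NeZero M] [NeZero q] (hq : q.Prime) (hq2 : q ≠ 2)
    (hqM : ¬ q ∣ M) (h4 : 4 ∣ M)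
    (K₁ : Type) [Field K₁] [Algebra ℚ K₁] [FiniteDimensional ℚ K₁]
    (A₀ : Type) [CommRing A₀] [IsDomain A₀] [IsDiscreteValuationRing A₀]
    [Algebra A₀ K₁] [IsFractionRing A₀ K₁]
    [Algebra A₀ (ModelField K₁ M)] [IsScalarTower A₀ K₁ (ModelField K₁ M)]
    (hqA : ¬ IsUnit ((q : ℕ) : A₀)) (ϖ : A₀) (hϖ : Irreducible ϖ)
    (x : ModelField K₁ M) (hx : (x : LaurentSeries K₁) = coeffEmb K₁ jq)
    (H : ModelField K₁ M) (hHS : (H : LaurentSeries K₁) = h4S K₁)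
    (𝔫 : Ideal ↥(chartClosure A₀ (ModelField K₁ M) x)) (h𝔫 : 𝔫.IsMaximal)
    (hϖ𝔫 : algebraMap A₀ ↥(chartClosure A₀ (ModelField K₁ M) x) ϖ ∈ 𝔫) :
    H ∈ chartClosure A₀ (ModelField K₁ M) x ∧
    ∃ g : A₀[X], g.Monic ∧ Irreducible (g.map (IsLocalRing.residue A₀)) ∧
      ∃ U : ↥(chartClosure A₀ (ModelField K₁ M) x),
        (U : ModelField K₁ M) = aeval H g ∧ U ∈ 𝔫 ∧
        ∀ z ∈ 𝔫, ∃ s, s ∉ 𝔫 ∧ ∃ b₁ b₂ : ↥(chartClosure A₀ (ModelField K₁ M) x),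
          s * z = algebraMap A₀ ↥(chartClosure A₀ (ModelField K₁ M) x) ϖ * b₁ + U * b₂ := by
  haveI : CharZero K₁ := algebraRat.charZero K₁
  haveI : CharZero (ModelField K₁ M) :=
    charZero_of_injective_algebraMap (algebraMap K₁ (ModelField K₁ M)).injective
  haveI hp𝔫 := h𝔫.isPrime
  have hinj : Function.Injective (algebraMap A₀ (ModelField K₁ M)) := by
    rw [IsScalarTower.algebraMap_eq A₀ K₁ (ModelField K₁ M)]
    exact (algebraMap K₁ (ModelField K₁ M)).injective.comp (IsFractionRing.injective A₀ K₁)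
  have hHeq : H = ⟨h4S K₁, h4S_mem_laurentBaseChange K₁ M h4⟩ := Subtype.ext hHS
  subst hHeq
  set H : ModelField K₁ M := ⟨h4S K₁, h4S_mem_laurentBaseChange K₁ M h4⟩ with hH
  have hHemb : (H : LaurentSeries K₁) = coeffEmb K₁ (h4S ℚ) :=
    (Fermat.Agent.H98.SS.coeffEmb_h4S K₁).symm
  have hrelM : x * H ^ 4 * (H + 16) = (H ^ 2 + 256 * H + 4096) ^ 3 := by
    apply (IntermediateField.val (laurentBaseChange K₁ (modularFunctionFieldFull M))).injective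
    simp only [map_mul, map_pow, map_add, map_ofNat]
    show (x : LaurentSeries K₁) * h4S K₁ ^ 4 * (h4S K₁ + 16) =
      (h4S K₁ ^ 2 + 256 * h4S K₁ + 4096) ^ 3
    rw [hx, Fermat.Agent.H27.KLGB.coeffEmb_jq]
    exact h4S_j (k := K₁)
  have hH0 : H ≠ 0 := fun h => h4S_ne_zero (k := K₁) (congrArg Subtype.val h)
  have hH16 : H + 16 ≠ 0 := by
    intro h
    apply h4S_add_sixteen_ne_zero K₁
    have h1 : ((H + 16 : ModelField K₁ M) : LaurentSeries K₁) =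
        ((0 : ModelField K₁ M) : LaurentSeries K₁) := congrArg Subtype.val h
    exact h1
  -- membership in `B(x)` is integrality over `A₀[x]`
  have hmem : ∀ z : ModelField K₁ M, z ∈ chartClosure A₀ (ModelField K₁ M) x ↔
      IsIntegral ↥(chartRing A₀ (ModelField K₁ M) x) z := fun z => Iff.rfl
  have hxint : IsIntegral ↥(chartRing A₀ (ModelField K₁ M) x) x := by
    have : x = algebraMap ↥(chartRing A₀ (ModelField K₁ M) x) (ModelField K₁ M)
        ⟨x, Algebra.self_mem_adjoin_singleton A₀ x⟩ := rfl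
    rw [this]
    exact isIntegral_algebraMap
  -- `2` is a unit of `A₀`
  have h2 : IsUnit (((2 ^ 20 : ℕ) : ℕ) : A₀) := by
    apply Fermat.Agent.H2.klbr_isUnit_natCast_of_coprime hqA
    apply Nat.Coprime.pow_left
    rw [Nat.coprime_primes Nat.prime_two hq]
    exact fun h => hq2 h.symm
  obtain ⟨c₀, hc₀⟩ := h2.exists_left_inv
  have hc : algebraMap A₀ ↥(chartRing A₀ (ModelField K₁ M) x) c₀ * 2 ^ 20 = 1 := by
    have := congrArg (algebraMap A₀ ↥(chartRing A₀ (ModelField K₁ M) x)) hc₀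
    rw [map_mul, map_one] at this
    rw [← this]
    congr 1
    rw [map_natCast]
    push_cast
    norm_num
  obtain ⟨hHint, u, huint, hu⟩ :=
    Fermat.Agent.H48.SSHaupt.isIntegral_haupt_unit _ hc x H hxint hH0 hH16 hrelM
  have hHB : H ∈ chartClosure A₀ (ModelField K₁ M) x := (hmem H).2 hHint
  have huB : u ∈ chartClosure A₀ (ModelField K₁ M) x := (hmem u).2 huint
  refine ⟨hHB, ?_⟩
  -- the inverse of `Q(H) = H⁴ (H + 16)`
  have h16B : (16 : ModelField K₁ M) ∈ chartClosure A₀ (ModelField K₁ M) x := by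
    have : (16 : ModelField K₁ M) = algebraMap A₀ (ModelField K₁ M) 16 := (map_ofNat _ 16).symm
    rw [this]
    exact (chartClosure A₀ (ModelField K₁ M) x).algebraMap_mem 16
  have hvB : u ^ 4 * (H + 16) ^ 3 ∈ chartClosure A₀ (ModelField K₁ M) x :=
    (chartClosure A₀ (ModelField K₁ M) x).mul_mem
      ((chartClosure A₀ (ModelField K₁ M) x).pow_mem huB 4)
      ((chartClosure A₀ (ModelField K₁ M) x).pow_mem
        ((chartClosure A₀ (ModelField K₁ M) x).add_mem hHB h16B) 3)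
  have hvQ : u ^ 4 * (H + 16) ^ 3 * aeval H (h4Den A₀) = 1 := by
    rw [h4Den_aeval]
    have : u ^ 4 * (H + 16) ^ 3 * (H ^ 4 * (H + 16)) = (u * (H * (H + 16))) ^ 4 := by ring
    rw [this, hu, one_pow]
  have hrel : x * aeval H (h4Den A₀) = aeval H (h4Num A₀) := by
    rw [h4Den_aeval, h4Num_aeval, ← hrelM]
    ring
  have hdeg : (h4Den A₀).natDegree < (h4Num A₀).natDegree := by
    rw [h4Den_natDegree, h4Num_natDegree]
    norm_num
  -- the contraction to the chart `H`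
  set ι := cchIncl A₀ (ModelField K₁ M) x H hHB with hι
  set 𝔫' : Ideal ↥(chartClosure A₀ (ModelField K₁ M) H) := 𝔫.comap ι with h𝔫'
  have h𝔫'max : 𝔫'.IsMaximal :=
    cch_isMaximal_comap A₀ (ModelField K₁ M) ϖ hϖ x H (h4Num A₀) (h4Den A₀) (h4Num_monic A₀)
      hdeg hrel hHB 𝔫 h𝔫 hϖ𝔫
  haveI hp𝔫' := h𝔫'max.isPrime
  have hϖ𝔫' : algebraMap A₀ ↥(chartClosure A₀ (ModelField K₁ M) H) ϖ ∈ 𝔫' := by
    rw [h𝔫', Ideal.mem_comap, hι, cchIncl_algebraMap]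
    exact hϖ𝔫
  have hQunit : (⟨u ^ 4 * (H + 16) ^ 3, hvB⟩ : ↥(chartClosure A₀ (ModelField K₁ M) x)) *
      ι (cchEv A₀ (ModelField K₁ M) H (h4Den A₀)) = 1 :=
    Subtype.ext hvQ
  have hQ𝔫 : ι (cchEv A₀ (ModelField K₁ M) H (h4Den A₀)) ∉ 𝔫 := by
    intro hmem'
    apply h𝔫.ne_top
    rw [Ideal.eq_top_iff_one, ← hQunit]
    exact Ideal.mul_mem_left _ _ hmem'
  have hQ𝔫' : cchEv A₀ (ModelField K₁ M) H (h4Den A₀) ∉ 𝔫' :=
    fun h => hQ𝔫 (Ideal.mem_comap.1 h)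
  have hQ0 : aeval H (h4Den A₀) ≠ 0 := by
    intro h0
    rw [h0, mul_zero] at hvQ
    exact zero_ne_one hvQ
  -- regularity in the chart `H` off the cusps
  obtain ⟨g, hgm, hgirr, hg𝔫'⟩ :=
    ordPoint_exists_monic A₀ (ModelField K₁ M) ϖ hϖ H 𝔫' h𝔫'max hϖ𝔫'
  have hCϖ : cchEv A₀ (ModelField K₁ M) H (C ϖ) =
      algebraMap A₀ ↥(chartClosure A₀ (ModelField K₁ M) H) ϖ :=
    Subtype.ext (aeval_C H ϖ)
  have hgen : ∀ F : A₀[X], (∃ p r : A₀[X], F = C ϖ * p + g * r) →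
      cchEv A₀ (ModelField K₁ M) H F ∈ 𝔫' := by
    rintro F ⟨p, r, rfl⟩
    rw [map_add, map_mul, map_mul, hCϖ]
    exact Ideal.add_mem _ (Ideal.mul_mem_right _ _ hϖ𝔫') (Ideal.mul_mem_right _ _ hg𝔫')
  have hQsplit : cchEv A₀ (ModelField K₁ M) H (h4Den A₀) =
      cchEv A₀ (ModelField K₁ M) H X ^ 4 * cchEv A₀ (ModelField K₁ M) H (X + C 16) := by
    rw [h4Den, map_mul, map_pow]
  have hX : ¬ ∃ p r : A₀[X], (X : A₀[X]) = C ϖ * p + g * r := by
    intro h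
    apply hQ𝔫'
    rw [hQsplit]
    exact Ideal.mul_mem_right _ _ (Ideal.pow_mem_of_mem _ (hgen _ h) 4 (by norm_num))
  have hX16 : ¬ ∃ p r : A₀[X], (X + C 16 : A₀[X]) = C ϖ * p + g * r := by
    intro h
    apply hQ𝔫'
    rw [hQsplit]
    exact Ideal.mul_mem_left _ _ (hgen _ h)
  have hUN : UnramifiedNear A₀ (ModelField K₁ M) ϖ H g :=
    Fermat.Agent.H33.SS.modelUnramified_h4 M h4 K₁ A₀ ϖ hϖ H hHemb g hgm hgirr hX hX16
  have hGB : GoodBasis A₀ (ModelField K₁ M) ϖ H :=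
    Fermat.Agent.H98.SS.modelGoodBasis_h4 M q hq hqM hq2 K₁ A₀ hqA ϖ hϖ H hHemb
  have hHtr : Transcendental A₀ H :=
    Fermat.Agent.H98.SS.modelTranscendental_h4 M K₁ A₀ H hHemb
  set U' : ↥(chartClosure A₀ (ModelField K₁ M) H) :=
    ⟨aeval H g, etale_aeval_mem_chartClosure A₀ (ModelField K₁ M) H g⟩ with hU'
  refine ⟨g, hgm, hgirr, ι U', rfl, Ideal.mem_comap.1 hg𝔫', ?_⟩
  intro z hz
  obtain ⟨K, hK⟩ := cch_exists_pow_mul_intX (h4Num A₀) (h4Den A₀) hQ0 hrel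
    ((Fermat.Agent.H87.KL.mem_chartClosure_iff x z.1).1 z.2)
  have hK' : aeval H (h4Den A₀) ^ K * (z : ModelField K₁ M) ∈
      chartClosure A₀ (ModelField K₁ M) H :=
    (Fermat.Agent.H87.KL.mem_chartClosure_iff H _).2 hK
  set z' : ↥(chartClosure A₀ (ModelField K₁ M) H) :=
    ⟨aeval H (h4Den A₀) ^ K * (z : ModelField K₁ M), hK'⟩ with hz'
  have hιz' : ι z' = ι (cchEv A₀ (ModelField K₁ M) H (h4Den A₀)) ^ K * z := Subtype.ext rfl
  have hz'mem : z' ∈ 𝔫' := by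
    rw [h𝔫', Ideal.mem_comap, hιz']
    exact Ideal.mul_mem_left _ _ hz
  obtain ⟨s', hs', b₁, hb₁, b₂, hb₂, hsz⟩ :=
    etale_point_chart A₀ (ModelField K₁ M) hinj ϖ hϖ H hHtr hGB g hgm hgirr hUN 𝔫' h𝔫'max
      z' hz'mem
  have hsz' : s' * z' = algebraMap A₀ ↥(chartClosure A₀ (ModelField K₁ M) H) ϖ * ⟨b₁, hb₁⟩ +
      U' * ⟨b₂, hb₂⟩ := Subtype.ext hsz
  refine ⟨ι s' * ι (cchEv A₀ (ModelField K₁ M) H (h4Den A₀)) ^ K, ?_, ι ⟨b₁, hb₁⟩,
    ι ⟨b₂, hb₂⟩, ?_⟩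
  · intro hmem'
    rcases hp𝔫.mem_or_mem hmem' with h1 | h2
    · exact hs' (Ideal.mem_comap.2 h1)
    · exact hQ𝔫 (hp𝔫.mem_of_pow_mem K h2)
  · have h1 := congrArg ι hsz'
    rw [map_mul, map_add, map_mul, map_mul, hιz', hι, cchIncl_algebraMap] at h1
    rw [← h1]
    ring

/-- **REG' at level `M`** (`4 ∣ M`, `q` an odd prime, `q ∤ M`), chart `j`, for every `R`. -/
theorem modelLevelReg_h4_all (M q : ℕ) [NeZero M] [NeZero q] (hq : q.Prime) (hq2 : q ≠ 2)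
    (hqM : ¬ q ∣ M) (h4 : 4 ∣ M) (R : ℕ) :
    Fermat.Agent.H41.SS.ModelLevelRegStatement M q ModularCurve.jq R := by
  intro K₁ _ _ _ A₀ _ _ _ _ _ _ _ hqA _ ϖ hϖ x hx 𝔫 h𝔫 hϖ𝔫
  obtain ⟨-, g, -, -, U, -, hU, hgen⟩ := levelReg_h4_explicit M q hq hq2 hqM h4 K₁ A₀ hqA ϖ hϖ
    x hx ⟨h4S K₁, h4S_mem_laurentBaseChange K₁ M h4⟩ rfl 𝔫 h𝔫 hϖ𝔫
  exact ⟨U, hU, hgen⟩

end Fermat.Agent.H7.SS2

end
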