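/-
P-SS2 row 900 (SS2-C3 REGL), input (N): the regularity of level `M` (`4 ∣ M`, `q` odd) in the
shape needed by `Fermat.Agent.H7.SS2.node_gen_contract`.  helper7.
-/
import Fermat.Agent.H7.SS2.LevelRegExp

set_option autoImplicit false
set_option linter.style.haveILetI false
set_option linter.unusedSectionVars false
set_option linter.unusedVariables false

noncomputable section

open Polynomial

namespace Fermat.Agent.H7.SS2

open ModularCurve AlgebraicCurve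
open Fermat.Agent.H22.KL Fermat.Agent.H8.SS

/-- **REG' at level `M`**: the Hauptmodul `H` lies in `B'(j)` and every maximal ideal
`𝔫 ∋ ϖ` of `B'(j)` is locally generated by `ϖ` and `g(H)`, `g` with irreducible reduction. -/
theorem levelReg_h4_haupt (M q : ℕ) [NeZero M] [NeZero q] (hq : q.Prime) (hq2 : q ≠ 2)
    (hqM : ¬ q ∣ M) (h4 : 4 ∣ M)
    (K₁ : Type) [Field K₁] [Algebra ℚ K₁] [FiniteDimensional ℚ K₁]
    (A₀ : Type) [CommRing A₀] [IsDomain A₀] [IsDiscreteValuationRing A₀]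
    [Algebra A₀ K₁] [IsFractionRing A₀ K₁]
    [Algebra A₀ (ModelField K₁ M)] [IsScalarTower A₀ K₁ (ModelField K₁ M)]
    (hqA : ¬ IsUnit ((q : ℕ) : A₀)) (ϖ : A₀) (hϖ : Irreducible ϖ)
    (x : ModelField K₁ M) (hx : (x : LaurentSeries K₁) = coeffEmb K₁ jq)
    (H : ModelField K₁ M) (hHS : (H : LaurentSeries K₁) = h4S K₁)
    (𝔫 : Ideal ↥(chartClosure A₀ (ModelField K₁ M) x)) (h𝔫 : 𝔫.IsMaximal)
    (hϖ𝔫 : algebraMap A₀ ↥(chartClosure A₀ (ModelField K₁ M) x) ϖ ∈ 𝔫) :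
    ∃ HB : chartClosure A₀ (ModelField K₁ M) x, (HB : ModelField K₁ M) = H ∧
      ∃ g : A₀[X], Irreducible (g.map (IsLocalRing.residue A₀)) ∧ aeval HB g ∈ 𝔫 ∧
        ∀ z ∈ 𝔫, ∃ s, s ∉ 𝔫 ∧ ∃ b₁ b₂ : chartClosure A₀ (ModelField K₁ M) x,
          s * z = algebraMap A₀ (chartClosure A₀ (ModelField K₁ M) x) ϖ * b₁ +
            aeval HB g * b₂ := by
  obtain ⟨hHB, g, hgm, hgirr, U, hUe, hU𝔫, hgen⟩ :=
    levelReg_h4_explicit M q hq hq2 hqM h4 K₁ A₀ hqA ϖ hϖ x hx H hHS 𝔫 h𝔫 hϖ𝔫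
  have hUeq : U = aeval (⟨H, hHB⟩ : chartClosure A₀ (ModelField K₁ M) x) g :=
    Subtype.ext (hUe.trans (Polynomial.aeval_subalgebra_coe g _ ⟨H, hHB⟩).symm)
  rw [hUeq] at hU𝔫 hgen
  exact ⟨⟨H, hHB⟩, rfl, g, hgirr, hU𝔫, hgen⟩

end Fermat.Agent.H7.SS2

end
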