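/-
P-SS2 row 900 (SS2-C3 REGL), input (S): THE POINTS ON ONE COMPONENT, chart `j`.  helper7.

`smoothGenR_of : H41.SS.ModelLevelRegStatement M q jq R → H41.SS.ModelFracStatement M q →
  SmoothGenRStatement M q R`.

The two component theorems `smoothGen_infty`, `smoothGen_zero` are helper41's
`Fermat.Agent.H41.SS.ssPlaceGenOrd_infty / _zero` (module `H41.SS.OrdFinal`) with the abstract
theorem `ordPoint_isRegularAt` in place of `ordPoint_placeGenAt` (same proof, the conclusion is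
the regular parameter system `(ϖ, u)` instead of the place generators).
-/
import Fermat.Agent.H41.SS.OrdFinal
import Fermat.Agent.H7.SS2.RegLFinal

set_option autoImplicit false
set_option linter.style.haveILetI false
set_option linter.unusedSectionVars false
set_option linter.unusedVariables false

noncomputable section

namespace Fermat.Agent.H7.SS2

open Polynomial ModularCurve
open Fermat.Agent.H22.KL Fermat.Agent.H45 Fermat.Agent.H7.SS Fermat.Agent.H48.QExp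
open Fermat.Agent.H82.SS Fermat.Agent.H41.SS Fermat.Agent.H11.SS2
open Fermat.Agent.H87.KL (evX IntX)

section Cases

variable (M q : ℕ) [NeZero M] [NeZero q]
variable (K₁ : Type) [Field K₁] [Algebra ℚ K₁] [FiniteDimensional ℚ K₁]
  (A₀ : Type) [CommRing A₀] [IsDomain A₀] [IsDiscreteValuationRing A₀]
  [Algebra A₀ K₁] [IsFractionRing A₀ K₁]
  [Algebra A₀ (ModelField K₁ (M * q))] [IsScalarTower A₀ K₁ (ModelField K₁ (M * q))]
  [Algebra A₀ (ModelField K₁ M)] [IsScalarTower A₀ K₁ (ModelField K₁ M)]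

/-- **Component `∞`.** -/
theorem smoothGen_infty (hq : q.Prime) (hqM : ¬ q ∣ M)
    (hqA : ¬ IsUnit ((q : ℕ) : A₀)) (ϖ : A₀) (hϖ : Irreducible ϖ)
    (x : ModelField K₁ (M * q)) (hx : (x : LaurentSeries K₁) = coeffEmb K₁ jq)
    (x' : ModelField K₁ M) (hx' : (x' : LaurentSeries K₁) = coeffEmb K₁ jq)
    (W : ModelField K₁ (M * q) ≃ₐ[K₁] ModelField K₁ (M * q)) (hW : IsAtkinLehnerModel K₁ M q W)
    (hFrac : ModelFracStatement M q)
    (hREG' : ∀ 𝔫 : Ideal ↥(chartClosure A₀ (ModelField K₁ M) x'), 𝔫.IsMaximal →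
      algebraMap A₀ ↥(chartClosure A₀ (ModelField K₁ M) x') ϖ ∈ 𝔫 →
      ∃ U : ↥(chartClosure A₀ (ModelField K₁ M) x'), U ∈ 𝔫 ∧ ∀ z ∈ 𝔫, ∃ s, s ∉ 𝔫 ∧
        ∃ b₁ b₂ : ↥(chartClosure A₀ (ModelField K₁ M) x'),
          s * z = algebraMap A₀ ↥(chartClosure A₀ (ModelField K₁ M) x') ϖ * b₁ + U * b₂)
    (𝔪 : Ideal ↥(chartClosure A₀ (ModelField K₁ (M * q)) x)) (h𝔪 : 𝔪.IsMaximal)
    (hϖ𝔪 : algebraMap A₀ ↥(chartClosure A₀ (ModelField K₁ (M * q)) x) ϖ ∈ 𝔪)
    (s₀ : ↥(chartClosure A₀ (ModelField K₁ (M * q)) x))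
    (hs₀ : (s₀ : ModelField K₁ (M * q)) ∈ (gaussValZero K₁ A₀ (M * q) W).nonunits)
    (hs₀𝔪 : s₀ ∉ 𝔪) :
    ∃ u : ↥(chartClosure A₀ (ModelField K₁ (M * q)) x),
      IsRegularAt A₀ (ModelField K₁ (M * q)) ϖ x 𝔪 u := by
  classical
  haveI : NeZero (M * q) := ⟨Nat.mul_ne_zero (NeZero.ne M) (NeZero.ne q)⟩
  haveI : CharZero K₁ := charZero_of_injective_algebraMap (algebraMap ℚ K₁).injective
  haveI : CharZero (ModelField K₁ (M * q)) :=
    charZero_of_injective_algebraMap (algebraMap K₁ (ModelField K₁ (M * q))).injective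
  haveI : CharZero (ModelField K₁ M) :=
    charZero_of_injective_algebraMap (algebraMap K₁ (ModelField K₁ M)).injective
  have hinj : Function.Injective (algebraMap A₀ (ModelField K₁ (M * q))) := by
    rw [IsScalarTower.algebraMap_eq A₀ K₁ (ModelField K₁ (M * q))]
    exact (algebraMap K₁ (ModelField K₁ (M * q))).injective.comp (IsFractionRing.injective A₀ K₁)
  have hinj' : Function.Injective (algebraMap A₀ (ModelField K₁ M)) := by
    rw [IsScalarTower.algebraMap_eq A₀ K₁ (ModelField K₁ M)]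
    exact (algebraMap K₁ (ModelField K₁ M)).injective.comp (IsFractionRing.injective A₀ K₁)
  letI algT : Algebra (ModelField K₁ M) (ModelField K₁ (M * q)) :=
    (heckeAlphaBar K₁ M q).toRingHom.toAlgebra
  have halg : ∀ z' : ModelField K₁ M,
      algebraMap (ModelField K₁ M) (ModelField K₁ (M * q)) z' = heckeAlphaBar K₁ M q z' :=
    fun _ => rfl
  haveI towT : IsScalarTower A₀ (ModelField K₁ M) (ModelField K₁ (M * q)) :=
    IsScalarTower.of_algebraMap_eq (fun a => by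
      rw [halg, IsScalarTower.algebraMap_apply A₀ K₁ (ModelField K₁ (M * q)),
        IsScalarTower.algebraMap_apply A₀ K₁ (ModelField K₁ M), AlgHom.commutes])
  have hαx : algebraMap (ModelField K₁ M) (ModelField K₁ (M * q)) x' = x := by
    apply Subtype.ext
    rw [halg, coe_heckeAlphaBar, hx, hx']
  have hWx : ((W x : ModelField K₁ (M * q)) : LaurentSeries K₁)
      = coeffMap (Int.castRingHom K₁) (qExpand ℤ q (jqModC ℤ)) := by
    rw [← hαx, halg, hW.1, coe_heckeBetaBar, hx', coeffEmb_jq_int, coeffMap_qExpand]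
  have hxtr := Fermat.Agent.H58.modelTranscendental_jq (M * q) K₁ A₀ x hx
  have hx'tr := Fermat.Agent.H58.modelTranscendental_jq M K₁ A₀ x' hx'
  have hfd := Fermat.Agent.H57.SS.modelFinite (M * q) K₁ A₀ x hx
  have hfd' := Fermat.Agent.H57.SS.modelFinite M K₁ A₀ x' hx'
  have hιB : ∀ b ∈ chartClosure A₀ (ModelField K₁ M) x',
      algebraMap (ModelField K₁ M) (ModelField K₁ (M * q)) b
        ∈ chartClosure A₀ (ModelField K₁ (M * q)) x := by
    intro b hb
    rw [← hαx, Fermat.Agent.H87.KL.mem_chartClosure_iff]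
    exact Fermat.Agent.H87.KL.IntX.map_tower ((Fermat.Agent.H87.KL.mem_chartClosure_iff _ _).1 hb)
  have hxx : x ∈ chartClosure A₀ (ModelField K₁ (M * q))
      (algebraMap (ModelField K₁ M) (ModelField K₁ (M * q)) x') := by
    rw [hαx]
    have := etale_aeval_mem_chartClosure A₀ (ModelField K₁ (M * q)) x (X : A₀[X])
    rwa [aeval_X] at this
  refine ordPoint_isRegularAt hinj hinj' ϖ hϖ x x' hx'tr hfd' hιB
    (ordRestrict_isIntegral x' x hιB hxx)
    (gaussValM K₁ A₀ (M * q)) (gaussValZero K₁ A₀ (M * q) W)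
    (fun z h1 h2 => mem_gaussClosure_of_two M q hq hqM hqA hϖ x hx W hW z h1 h2)
    (div_pi_mem_gaussValM hϖ) (div_pi_mem_gaussValZero W hϖ)
    (fun s hs => chartClosure_le_gaussValM x (jqModC ℤ) (hx.trans coeffEmb_jq_int) hs)
    (fun s hs => chartClosure_le_gaussValZero W x _ hWx hs)
    (pi_mem_nonunits_gaussValM hϖ) ?_ ?_ ?_ hREG' hxtr 𝔪 h𝔪 hϖ𝔪 s₀ hs₀ hs₀𝔪
  · -- `C(x') ⊆ V_∞`
    intro z' hz'
    rw [halg, alpha_mem_gaussValM_iff]
    exact mem_gaussValM_of_mem_gaussClosure M hϖ x' hx' z' hz'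
  · -- `V_∞ ∩ E' ⊆ C(x')`
    intro z' hz'
    rw [halg, alpha_mem_gaussValM_iff] at hz'
    exact mem_gaussClosure_of_mem_gaussValM M q hq hqM hqA hϖ x' hx' z' hz'
  · -- (FRAC)
    intro z hz
    obtain ⟨z'', hz''V, hzz''⟩ := hFrac K₁ A₀ hqA (z : LaurentSeries K₁)
      ((mem_gaussValM_iff z).1 hz)
    refine ⟨⟨z'', InV.mem hz''V⟩, ?_, ?_⟩
    · rw [halg, alpha_mem_gaussValM_iff, mem_gaussValM_iff]
      exact hz''V
    · rw [mem_nonunits_gaussValM_iff, halg]
      exact hzz''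

/-- **Component `0`.** -/
theorem smoothGen_zero (hq : q.Prime) (hqM : ¬ q ∣ M)
    (hqA : ¬ IsUnit ((q : ℕ) : A₀)) (ϖ : A₀) (hϖ : Irreducible ϖ)
    (x : ModelField K₁ (M * q)) (hx : (x : LaurentSeries K₁) = coeffEmb K₁ jq)
    (x' : ModelField K₁ M) (hx' : (x' : LaurentSeries K₁) = coeffEmb K₁ jq)
    (W : ModelField K₁ (M * q) ≃ₐ[K₁] ModelField K₁ (M * q)) (hW : IsAtkinLehnerModel K₁ M q W)
    (hFrac : ModelFracStatement M q)
    (hREG' : ∀ 𝔫 : Ideal ↥(chartClosure A₀ (ModelField K₁ M) x'), 𝔫.IsMaximal →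
      algebraMap A₀ ↥(chartClosure A₀ (ModelField K₁ M) x') ϖ ∈ 𝔫 →
      ∃ U : ↥(chartClosure A₀ (ModelField K₁ M) x'), U ∈ 𝔫 ∧ ∀ z ∈ 𝔫, ∃ s, s ∉ 𝔫 ∧
        ∃ b₁ b₂ : ↥(chartClosure A₀ (ModelField K₁ M) x'),
          s * z = algebraMap A₀ ↥(chartClosure A₀ (ModelField K₁ M) x') ϖ * b₁ + U * b₂)
    (𝔪 : Ideal ↥(chartClosure A₀ (ModelField K₁ (M * q)) x)) (h𝔪 : 𝔪.IsMaximal)
    (hϖ𝔪 : algebraMap A₀ ↥(chartClosure A₀ (ModelField K₁ (M * q)) x) ϖ ∈ 𝔪)
    (s₀ : ↥(chartClosure A₀ (ModelField K₁ (M * q)) x))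
    (hs₀ : (s₀ : ModelField K₁ (M * q)) ∈ (gaussValM K₁ A₀ (M * q)).nonunits)
    (hs₀𝔪 : s₀ ∉ 𝔪) :
    ∃ u : ↥(chartClosure A₀ (ModelField K₁ (M * q)) x),
      IsRegularAt A₀ (ModelField K₁ (M * q)) ϖ x 𝔪 u := by
  classical
  haveI : NeZero (M * q) := ⟨Nat.mul_ne_zero (NeZero.ne M) (NeZero.ne q)⟩
  haveI : CharZero K₁ := charZero_of_injective_algebraMap (algebraMap ℚ K₁).injective
  haveI : CharZero (ModelField K₁ (M * q)) :=
    charZero_of_injective_algebraMap (algebraMap K₁ (ModelField K₁ (M * q))).injective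
  haveI : CharZero (ModelField K₁ M) :=
    charZero_of_injective_algebraMap (algebraMap K₁ (ModelField K₁ M)).injective
  have hinj : Function.Injective (algebraMap A₀ (ModelField K₁ (M * q))) := by
    rw [IsScalarTower.algebraMap_eq A₀ K₁ (ModelField K₁ (M * q))]
    exact (algebraMap K₁ (ModelField K₁ (M * q))).injective.comp (IsFractionRing.injective A₀ K₁)
  have hinj' : Function.Injective (algebraMap A₀ (ModelField K₁ M)) := by
    rw [IsScalarTower.algebraMap_eq A₀ K₁ (ModelField K₁ M)]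
    exact (algebraMap K₁ (ModelField K₁ M)).injective.comp (IsFractionRing.injective A₀ K₁)
  letI algT : Algebra (ModelField K₁ M) (ModelField K₁ (M * q)) :=
    (heckeBetaBar K₁ M q).toRingHom.toAlgebra
  have halg : ∀ z' : ModelField K₁ M,
      algebraMap (ModelField K₁ M) (ModelField K₁ (M * q)) z' = heckeBetaBar K₁ M q z' :=
    fun _ => rfl
  haveI towT : IsScalarTower A₀ (ModelField K₁ M) (ModelField K₁ (M * q)) :=
    IsScalarTower.of_algebraMap_eq (fun a => by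
      rw [halg, IsScalarTower.algebraMap_apply A₀ K₁ (ModelField K₁ (M * q)),
        IsScalarTower.algebraMap_apply A₀ K₁ (ModelField K₁ M), AlgHom.commutes])
  have hxα : x = heckeAlphaBar K₁ M q x' := by
    apply Subtype.ext
    rw [coe_heckeAlphaBar, hx, hx']
  have hWx : W x = heckeBetaBar K₁ M q x' := by rw [hxα, hW.1]
  have hWβ : W (heckeBetaBar K₁ M q x') = x := by rw [hW.2, hxα]
  have hβcoe : ((heckeBetaBar K₁ M q x' : ModelField K₁ (M * q)) : LaurentSeries K₁)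
      = qExpand K₁ q (jqModC K₁) := by
    rw [coe_heckeBetaBar, hx', coeffEmb_jq_int, coeffMap_jqModC]
  have hxtr := Fermat.Agent.H58.modelTranscendental_jq (M * q) K₁ A₀ x hx
  have hx'tr := Fermat.Agent.H58.modelTranscendental_jq M K₁ A₀ x' hx'
  have hfd := Fermat.Agent.H57.SS.modelFinite (M * q) K₁ A₀ x hx
  have hfd' := Fermat.Agent.H57.SS.modelFinite M K₁ A₀ x' hx'
  -- `j_q ∈ B(j)` and `j ∈ B(j_q)`
  have hβB : heckeBetaBar K₁ M q x' ∈ chartClosure A₀ (ModelField K₁ (M * q)) x :=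
    (Fermat.Agent.H87.KL.mem_chartClosure_iff _ _).2
      (Fermat.Agent.H66.SS.smi_gen x hx (heckeBetaBar K₁ M q x') q hβcoe)
  have hxx : x ∈ chartClosure A₀ (ModelField K₁ (M * q))
      (algebraMap (ModelField K₁ M) (ModelField K₁ (M * q)) x') := by
    have h1 := chartClosure_map (A := A₀)
      ((W.toRingEquiv : ModelField K₁ (M * q) ≃+* ModelField K₁ (M * q)) :
        ModelField K₁ (M * q) →+* ModelField K₁ (M * q))
      (fun a => algEquiv_algebraMap_model W a) hβB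
    have e1 : ((W.toRingEquiv : ModelField K₁ (M * q) ≃+* ModelField K₁ (M * q)) :
        ModelField K₁ (M * q) →+* ModelField K₁ (M * q)) (heckeBetaBar K₁ M q x') = x := hWβ
    have e2 : ((W.toRingEquiv : ModelField K₁ (M * q) ≃+* ModelField K₁ (M * q)) :
        ModelField K₁ (M * q) →+* ModelField K₁ (M * q)) x = heckeBetaBar K₁ M q x' := hWx
    rw [e1, e2] at h1
    rw [halg]
    exact h1
  have hιB : ∀ b ∈ chartClosure A₀ (ModelField K₁ M) x',
      algebraMap (ModelField K₁ M) (ModelField K₁ (M * q)) b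
        ∈ chartClosure A₀ (ModelField K₁ (M * q)) x := by
    intro b hb
    have h1 : algebraMap (ModelField K₁ M) (ModelField K₁ (M * q)) b
        ∈ chartClosure A₀ (ModelField K₁ (M * q))
          (algebraMap (ModelField K₁ M) (ModelField K₁ (M * q)) x') := by
      rw [Fermat.Agent.H87.KL.mem_chartClosure_iff]
      exact Fermat.Agent.H87.KL.IntX.map_tower
        ((Fermat.Agent.H87.KL.mem_chartClosure_iff _ _).1 hb)
    have h2 : algebraMap (ModelField K₁ M) (ModelField K₁ (M * q)) x'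
        ∈ chartClosure A₀ (ModelField K₁ (M * q)) x := by
      rw [halg]
      exact hβB
    exact chartClosure_le_of_mem h2 h1
  have hxint : (x : LaurentSeries K₁) = coeffMap (Int.castRingHom K₁) (jqModC ℤ) :=
    hx.trans coeffEmb_jq_int
  have hWxint : ((W x : ModelField K₁ (M * q)) : LaurentSeries K₁)
      = coeffMap (Int.castRingHom K₁) (qExpand ℤ q (jqModC ℤ)) := by
    rw [hWx, hβcoe, coeffMap_qExpand, coeffMap_jqModC]
  refine ordPoint_isRegularAt hinj hinj' ϖ hϖ x x' hx'tr hfd' hιB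
    (ordRestrict_isIntegral x' x hιB hxx)
    (gaussValZero K₁ A₀ (M * q) W) (gaussValM K₁ A₀ (M * q))
    (fun z h1 h2 => mem_gaussClosure_of_two M q hq hqM hqA hϖ x hx W hW z h2 h1)
    (div_pi_mem_gaussValZero W hϖ) (div_pi_mem_gaussValM hϖ)
    (fun s hs => chartClosure_le_gaussValZero W x _ hWxint hs)
    (fun s hs => chartClosure_le_gaussValM x (jqModC ℤ) hxint hs)
    (pi_mem_nonunits_gaussValZero W hϖ) ?_ ?_ ?_ hREG' hxtr 𝔪 h𝔪 hϖ𝔪 s₀ hs₀ hs₀𝔪
  · -- `C(x') ⊆ β⁻¹ V_0`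
    intro z' hz'
    rw [halg, mem_gaussValZero_iff, hW.2, alpha_mem_gaussValM_iff]
    exact mem_gaussValM_of_mem_gaussClosure M hϖ x' hx' z' hz'
  · -- `β⁻¹ V_0 ⊆ C(x')`
    intro z' hz'
    rw [halg, mem_gaussValZero_iff, hW.2, alpha_mem_gaussValM_iff] at hz'
    exact mem_gaussClosure_of_mem_gaussValM M q hq hqM hqA hϖ x' hx' z' hz'
  · -- (FRAC)
    intro z hz
    obtain ⟨z'', hz''V, hzz''⟩ := hFrac K₁ A₀ hqA ((W z : ModelField K₁ (M * q)) :
      LaurentSeries K₁) ((mem_gaussValM_iff (W z)).1 ((mem_gaussValZero_iff W z).1 hz))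
    refine ⟨⟨z'', InV.mem hz''V⟩, ?_, ?_⟩
    · rw [halg, mem_gaussValZero_iff, hW.2, alpha_mem_gaussValM_iff, mem_gaussValM_iff]
      exact hz''V
    · rw [mem_nonunits_gaussValZero_iff, map_sub, halg, hW.2, mem_nonunits_gaussValM_iff]
      exact hzz''

end Cases

theorem vInf_eq_gaussValM (K₁ : Type) [Field K₁] [Algebra ℚ K₁] (A₀ : Type) [CommRing A₀]
    [IsDomain A₀] [IsDiscreteValuationRing A₀] [Algebra A₀ K₁] [IsFractionRing A₀ K₁] (N : ℕ) :
    vInf K₁ A₀ N = gaussValM K₁ A₀ N := rfl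

theorem vZero_eq_gaussValZero (K₁ : Type) [Field K₁] [Algebra ℚ K₁] (A₀ : Type) [CommRing A₀]
    [IsDomain A₀] [IsDiscreteValuationRing A₀] [Algebra A₀ K₁] [IsFractionRing A₀ K₁] (N : ℕ)
    (W : ModelField K₁ N ≃ₐ[K₁] ModelField K₁ N) :
    vZero K₁ A₀ N W = gaussValZero K₁ A₀ N W :=
  SetLike.ext fun _ => Iff.rfl

/-- **INPUT (S)** of REGL from the regularity of level `M` (REG') and the birationality of the
components with level `M` (FRAC). -/
theorem smoothGenR_of (M q : ℕ) [NeZero M] [NeZero q] (hq : q.Prime) (hqM : ¬ q ∣ M) (R : ℕ)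
    (hReg : ModelLevelRegStatement M q jq R) (hFrac : ModelFracStatement M q) :
    SmoothGenRStatement M q R := by
  intro K₁ _ _ _ A₀ _ _ _ _ _ _ _ hqA hζ ϖ hϖ x hx W hW 𝔪 h𝔪 hϖ𝔪 hnot
  classical
  letI algE' : Algebra A₀ (ModelField K₁ M) :=
    ((algebraMap K₁ (ModelField K₁ M)).comp (algebraMap A₀ K₁)).toAlgebra
  haveI towE' : IsScalarTower A₀ K₁ (ModelField K₁ M) :=
    IsScalarTower.of_algebraMap_eq (fun _ => rfl)
  have hjq : jq ∈ modularFunctionFieldFull M := by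
    have := jqd_mem_full M (one_dvd M)
    rwa [qExpand_one_apply] at this
  let x' : ModelField K₁ M := ⟨coeffEmb K₁ jq, coeffEmb_mem_laurentBaseChange K₁ hjq⟩
  have hx' : (x' : LaurentSeries K₁) = coeffEmb K₁ jq := rfl
  have hREG' := hReg K₁ A₀ hqA hζ ϖ hϖ x' hx'
  have key : ∃ u : ↥(chartClosure A₀ (ModelField K₁ (M * q)) x),
      IsRegularAt A₀ (ModelField K₁ (M * q)) ϖ x 𝔪 u := by
    by_cases hZ : Through A₀ (ModelField K₁ (M * q)) x 𝔪 (vZero K₁ A₀ (M * q) W)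
    · have hI : ¬ Through A₀ (ModelField K₁ (M * q)) x 𝔪 (vInf K₁ A₀ (M * q)) :=
        fun h => hnot ⟨h, hZ⟩
      unfold Through at hI
      push Not at hI
      obtain ⟨s₀, hs₀, hs₀𝔪⟩ := hI
      exact smoothGen_zero M q K₁ A₀ hq hqM hqA ϖ hϖ x hx x' hx' W hW hFrac hREG' 𝔪 h𝔪 hϖ𝔪
        s₀ hs₀ hs₀𝔪
    · unfold Through at hZ
      push Not at hZ
      obtain ⟨s₀, hs₀, hs₀𝔪⟩ := hZ
      rw [vZero_eq_gaussValZero] at hs₀
      exact smoothGen_infty M q K₁ A₀ hq hqM hqA ϖ hϖ x hx x' hx' W hW hFrac hREG' 𝔪 h𝔪 hϖ𝔪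
        s₀ hs₀ hs₀𝔪
  obtain ⟨u, hu𝔪, hreg, -⟩ := key
  exact ⟨u, hu𝔪, hreg⟩

end Fermat.Agent.H7.SS2

end
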