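/-
P-SS2 row 900 (SS2-C3 REGL), input (N): THE CROSSING POINTS, chart `j`, `4 ∣ M`, `q` odd.
helper7.

`nodeGenR_h4_of_cross : Fermat.Agent.H59.SS.SSCrossDataStatement M q →
  NodeGenRStatement M q (h4S ℚ) R`  (every `R`):
at a maximal ideal `𝔪 ∋ q` of `B(j)` (level `M q`, `q` a uniformiser of the base) lying on both
components, `X = H_q - H ^ q` and `Y = H - H_q ^ q` generate `𝔪 B_𝔪`, and `d X Y = q ψ` with
`d, ψ ∉ 𝔪`.

Inputs: row SSH-6 (`SSCrossDataStatement`: the equation `d X Y = q ψ` with `d, ψ ∉ 𝔪`),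
REGCRIT (helper60) + LOCAL HARTOGS (helper4), FRAC (helper61), the regularity of level `M` in
the chart `H` (`levelReg_h4_haupt`).
-/
import Fermat.Agent.H7.SS2.NodeContract
import Fermat.Agent.H7.SS2.NodeLevel
import Fermat.Agent.H7.SS2.SmoothGen
import Fermat.Agent.H59.SS.CrossModel
import Fermat.Agent.H4.SS.Hartogs
import Fermat.Agent.H61.SS.FracH41

set_option autoImplicit false
set_option linter.style.haveILetI false
set_option linter.unusedSectionVars false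
set_option linter.unusedVariables false

noncomputable section

namespace Fermat.Agent.H7.SS2

open Polynomial ModularCurve
open scoped Polynomial.Bivariate
open Fermat.Agent.H22.KL Fermat.Agent.H45 Fermat.Agent.H7.SS Fermat.Agent.H48.QExp
open Fermat.Agent.H82.SS Fermat.Agent.H41.SS Fermat.Agent.H11.SS2
open Fermat.Agent.H8.SS Fermat.Agent.H60.SS Fermat.Agent.H59.SS

section Level

variable (M q : ℕ) [NeZero M] [NeZero q]
variable (K₁ : Type) [Field K₁] [Algebra ℚ K₁] [FiniteDimensional ℚ K₁]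
  (A₀ : Type) [CommRing A₀] [IsDomain A₀] [IsDiscreteValuationRing A₀]
  [Algebra A₀ K₁] [IsFractionRing A₀ K₁]
  [Algebra A₀ (ModelField K₁ (M * q))] [IsScalarTower A₀ K₁ (ModelField K₁ (M * q))]
  [Algebra A₀ (ModelField K₁ M)] [IsScalarTower A₀ K₁ (ModelField K₁ M)]

/-- The three facts relating `V_∞` to level `M`. -/
theorem ng_level_facts (hq : q.Prime) (hqM : ¬ q ∣ M)
    (hqA : ¬ IsUnit ((q : ℕ) : A₀)) (ϖ : A₀) (hϖ : Irreducible ϖ)
    (x' : ModelField K₁ M) (hx' : (x' : LaurentSeries K₁) = coeffEmb K₁ jq) :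
    (∀ z' ∈ gaussClosure A₀ (ModelField K₁ M) ϖ x',
      (heckeAlphaBar K₁ M q : ModelField K₁ M →+* ModelField K₁ (M * q)) z' ∈
        vInf K₁ A₀ (M * q)) ∧
    (∀ z' : ModelField K₁ M,
      (heckeAlphaBar K₁ M q : ModelField K₁ M →+* ModelField K₁ (M * q)) z' ∈
        vInf K₁ A₀ (M * q) → z' ∈ gaussClosure A₀ (ModelField K₁ M) ϖ x') ∧
    (∀ z ∈ vInf K₁ A₀ (M * q), ∃ z' : ModelField K₁ M,
      (heckeAlphaBar K₁ M q : ModelField K₁ M →+* ModelField K₁ (M * q)) z' ∈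
        vInf K₁ A₀ (M * q) ∧
      z - (heckeAlphaBar K₁ M q : ModelField K₁ M →+* ModelField K₁ (M * q)) z' ∈
        (vInf K₁ A₀ (M * q)).nonunits) := by
  haveI : NeZero (M * q) := ⟨Nat.mul_ne_zero (NeZero.ne M) (NeZero.ne q)⟩
  refine ⟨?_, ?_, ?_⟩
  · -- `C(x') ⊆ V_∞`
    intro z' hz'
    exact (alpha_mem_gaussValM_iff M q K₁ A₀ z').2
      (mem_gaussValM_of_mem_gaussClosure M hϖ x' hx' z' hz')
  · -- `V_∞ ∩ E' ⊆ C(x')`
    intro z' hz'
    exact mem_gaussClosure_of_mem_gaussValM M q hq hqM hqA hϖ x' hx' z'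
      ((alpha_mem_gaussValM_iff M q K₁ A₀ z').1 hz')
  · -- (FRAC)
    intro z hz
    obtain ⟨z'', hz''V, hzz''⟩ := Fermat.Agent.H61.SS.modelFracH41 M q hq hqM K₁ A₀ hqA
      (z : LaurentSeries K₁) ((mem_gaussValM_iff z).1 hz)
    refine ⟨⟨z'', InV.mem hz''V⟩, ?_, ?_⟩
    · show heckeAlphaBar K₁ M q ⟨z'', InV.mem hz''V⟩ ∈ gaussValM K₁ A₀ (M * q)
      rw [alpha_mem_gaussValM_iff, mem_gaussValM_iff]
      exact hz''V
    · show z - heckeAlphaBar K₁ M q ⟨z'', InV.mem hz''V⟩ ∈ (gaussValM K₁ A₀ (M * q)).nonunits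
      rw [mem_nonunits_gaussValM_iff]
      exact hzz''

/-- `α` is compatible with the base ring. -/
theorem ng_alpha_algebraMap (a : A₀) :
    (heckeAlphaBar K₁ M q : ModelField K₁ M →+* ModelField K₁ (M * q))
      (algebraMap A₀ (ModelField K₁ M) a) = algebraMap A₀ (ModelField K₁ (M * q)) a := by
  show heckeAlphaBar K₁ M q (algebraMap A₀ (ModelField K₁ M) a) = _
  rw [IsScalarTower.algebraMap_apply A₀ K₁ (ModelField K₁ M),
    IsScalarTower.algebraMap_apply A₀ K₁ (ModelField K₁ (M * q))]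
  exact (heckeAlphaBar K₁ M q).commutes _

/-- **The crossing points**, with the algebra structure of level `M` as a parameter. -/
theorem ng_node (hq : q.Prime) (hq2 : q ≠ 2) (hqM : ¬ q ∣ M) (h4 : 4 ∣ M)
    (hqirr : Irreducible ((q : ℕ) : A₀))
    (x : ModelField K₁ (M * q)) (hx : (x : LaurentSeries K₁) = coeffEmb K₁ jq)
    (x' : ModelField K₁ M) (hx' : (x' : LaurentSeries K₁) = coeffEmb K₁ jq)
    (W : ModelField K₁ (M * q) ≃ₐ[K₁] ModelField K₁ (M * q)) (hW : IsAtkinLehnerModel K₁ M q W)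
    (H Hq : ModelField K₁ (M * q)) (hHS : (H : LaurentSeries K₁) = h4S K₁)
    (hHqS : (Hq : LaurentSeries K₁) = qExpand K₁ q (h4S K₁))
    (𝔪 : Ideal (chartClosure A₀ (ModelField K₁ (M * q)) x)) (h𝔪 : 𝔪.IsMaximal)
    (hq𝔪 : algebraMap A₀ (chartClosure A₀ (ModelField K₁ (M * q)) x) ((q : ℕ) : A₀) ∈ 𝔪)
    (hT₁ : Through A₀ (ModelField K₁ (M * q)) x 𝔪 (vInf K₁ A₀ (M * q)))
    (hT₂ : Through A₀ (ModelField K₁ (M * q)) x 𝔪 (vZero K₁ A₀ (M * q) W))
    (D Ψ : A₀[X][Y]) (HB HqB : chartClosure A₀ (ModelField K₁ (M * q)) x)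
    (hHBe : (HB : ModelField K₁ (M * q)) = H) (hHqBe : (HqB : ModelField K₁ (M * q)) = Hq)
    (hss : IsSSData 𝔪 q D Ψ HB HqB) :
    ∀ z ∈ 𝔪, ∃ s, s ∉ 𝔪 ∧ ∃ b₁ b₂ : chartClosure A₀ (ModelField K₁ (M * q)) x,
      s * z = (HqB - HB ^ q) * b₁ + (HB - HqB ^ q) * b₂ := by
  classical
  have hqA : ¬ IsUnit ((q : ℕ) : A₀) := hqirr.not_isUnit
  haveI : NeZero (M * q) := ⟨Nat.mul_ne_zero (NeZero.ne M) (NeZero.ne q)⟩
  haveI : CharZero K₁ := charZero_of_injective_algebraMap (algebraMap ℚ K₁).injective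
  haveI : CharZero (ModelField K₁ (M * q)) :=
    charZero_of_injective_algebraMap (algebraMap K₁ (ModelField K₁ (M * q))).injective
  haveI : CharZero (ModelField K₁ M) :=
    charZero_of_injective_algebraMap (algebraMap K₁ (ModelField K₁ M)).injective
  have hinj : Function.Injective (algebraMap A₀ (ModelField K₁ (M * q))) := by
    rw [IsScalarTower.algebraMap_eq A₀ K₁ (ModelField K₁ (M * q))]
    exact (algebraMap K₁ (ModelField K₁ (M * q))).injective.comp (IsFractionRing.injective A₀ K₁)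
  have hinj' : Function.Injective (algebraMap A₀ (ModelField K₁ M)) := by
    rw [IsScalarTower.algebraMap_eq A₀ K₁ (ModelField K₁ M)]
    exact (algebraMap K₁ (ModelField K₁ M)).injective.comp (IsFractionRing.injective A₀ K₁)
  have hιx : (heckeAlphaBar K₁ M q : ModelField K₁ M →+* ModelField K₁ (M * q)) x' = x := by
    apply Subtype.ext
    show ((heckeAlphaBar K₁ M q x' : ModelField K₁ (M * q)) : LaurentSeries K₁) = _
    rw [coe_heckeAlphaBar, hx, hx']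
  have hιH : (heckeAlphaBar K₁ M q : ModelField K₁ M →+* ModelField K₁ (M * q))
      ⟨h4S K₁, h4S_mem_laurentBaseChange K₁ M h4⟩ = (HB : ModelField K₁ (M * q)) := by
    rw [hHBe]
    apply Subtype.ext
    show ((heckeAlphaBar K₁ M q ⟨h4S K₁, h4S_mem_laurentBaseChange K₁ M h4⟩ :
      ModelField K₁ (M * q)) : LaurentSeries K₁) = _
    rw [coe_heckeAlphaBar, hHS]
  have hβH : heckeBetaBar K₁ M q ⟨h4S K₁, h4S_mem_laurentBaseChange K₁ M h4⟩ = Hq := by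
    apply Subtype.ext
    rw [coe_heckeBetaBar, hHqS]
  have hαH : heckeAlphaBar K₁ M q ⟨h4S K₁, h4S_mem_laurentBaseChange K₁ M h4⟩ = H := by
    apply Subtype.ext
    rw [coe_heckeAlphaBar, hHS]
  have hWH : W H = Hq := by rw [← hαH, hW.1, hβH]
  have hWHq : W Hq = H := by rw [← hβH, hW.2, hαH]
  have hXe : ((HqB - HB ^ q : chartClosure A₀ (ModelField K₁ (M * q)) x) :
      ModelField K₁ (M * q)) = Hq - H ^ q := by
    rw [← hHBe, ← hHqBe]; rfl
  have hYe : ((HB - HqB ^ q : chartClosure A₀ (ModelField K₁ (M * q)) x) :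
      ModelField K₁ (M * q)) = H - Hq ^ q := by
    rw [← hHBe, ← hHqBe]; rfl
  have hXV : ((HqB - HB ^ q : chartClosure A₀ (ModelField K₁ (M * q)) x) :
      ModelField K₁ (M * q)) ∈ (vInf K₁ A₀ (M * q)).nonunits := by
    rw [hXe]
    exact mem_nonunits_vInf_X M q K₁ A₀ hqA W hW hq h4Z H Hq hHS hHqS
  have hYV : ((HB - HqB ^ q : chartClosure A₀ (ModelField K₁ (M * q)) x) :
      ModelField K₁ (M * q)) ∈ (vZero K₁ A₀ (M * q) W).nonunits := by
    rw [hYe]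
    exact mem_nonunits_vZero_Y M q K₁ A₀ hqA W hW hq h4Z H Hq hHS hHqS hWH hWHq
  obtain ⟨hGC', hQ', hFR⟩ := ng_level_facts M q K₁ A₀ hq hqM hqA _ hqirr x' hx'
  exact node_gen_contract Fermat.Agent.H4.SS.localHartogs hinj' hinj
    (heckeAlphaBar K₁ M q : ModelField K₁ M →+* ModelField K₁ (M * q))
    (ng_alpha_algebraMap M q K₁ A₀) hqirr hιx
    (Fermat.Agent.H58.modelTranscendental_jq M K₁ A₀ x' hx')
    (Fermat.Agent.H58.modelTranscendental_jq (M * q) K₁ A₀ x hx)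
    (Fermat.Agent.H57.SS.modelFinite (M * q) K₁ A₀ x hx)
    (vInf K₁ A₀ (M * q)) (vZero K₁ A₀ (M * q) W)
    ⟨vInf_ne_top hqirr, isPrincipalIdealRing_vInf hqirr⟩
    ⟨vZero_ne_top W hqirr, isPrincipalIdealRing_vZero W hqirr⟩
    (fun z => mem_gaussClosure_iff_vInf_vZero M q K₁ A₀ hqA _ hqirr x hx W hW hq hqM z)
    (isUniformiser_vInf hqirr) (isUniformiser_vZero W hqirr) hGC' hQ' hFR 𝔪 h𝔪 hq𝔪
    (fun s hs => hT₁ s hs) (fun s hs => hT₂ s hs) q (dvd_refl _)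
    ⟨h4S K₁, h4S_mem_laurentBaseChange K₁ M h4⟩ HB HqB hιH _ _ hss.Ψ_not_mem
    (node_rel_of_isSSData hss) hss.X_mem hss.Y_mem hXV hYV
    (fun 𝔫 h𝔫 hϖ𝔫 => levelReg_h4_haupt M q hq hq2 hqM h4 K₁ A₀ hqA _ hqirr x' hx' _ rfl
      𝔫 h𝔫 hϖ𝔫)

end Level

/-- **INPUT (N) of REGL** (`4 ∣ M`, `q` an odd prime, `q ∤ M`), from row SSH-6. -/
theorem nodeGenR_h4_of_cross (M q : ℕ) [NeZero M] [NeZero q] (hq : q.Prime) (hq2 : q ≠ 2)
    (hqM : ¬ q ∣ M) (h4 : 4 ∣ M) (R : ℕ)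
    (hData : SSCrossDataStatement M q) :
    NodeGenRStatement M q (h4S ℚ) R := by
  intro K₁ _ _ _ A₀ _ _ _ _ _ _ _ hqirr hζ x hx W hW H Hq hH hHq 𝔪 h𝔪 hq𝔪 hT₁ hT₂
  have hqA : ¬ IsUnit ((q : ℕ) : A₀) := hqirr.not_isUnit
  haveI : CharZero K₁ := charZero_of_injective_algebraMap (algebraMap ℚ K₁).injective
  haveI : CharZero (ModelField K₁ (M * q)) :=
    charZero_of_injective_algebraMap (algebraMap K₁ (ModelField K₁ (M * q))).injective
  letI algE' : Algebra A₀ (ModelField K₁ M) :=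
    ((algebraMap K₁ (ModelField K₁ M)).comp (algebraMap A₀ K₁)).toAlgebra
  haveI towE' : IsScalarTower A₀ K₁ (ModelField K₁ M) :=
    IsScalarTower.of_algebraMap_eq (fun _ => rfl)
  have hjq : jq ∈ modularFunctionFieldFull M := by
    have := jqd_mem_full M (one_dvd M)
    rwa [qExpand_one_apply] at this
  have hHS : (H : LaurentSeries K₁) = h4S K₁ :=
    hH.trans (Fermat.Agent.H98.SS.coeffEmb_h4S K₁)
  have hHqS : (Hq : LaurentSeries K₁) = qExpand K₁ q (h4S K₁) := by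
    rw [hHq, Fermat.Agent.H98.SS.coeffEmb_h4S]
  -- row SSH-6
  have hOnI : SSOnInfty K₁ (M * q) A₀ ((q : ℕ) : A₀) x 𝔪 :=
    fun s hs => hT₁ s ((ssMaxInfty_iff hqirr _).1 hs)
  have hOnZ : SSOnZero K₁ (M * q) A₀ ((q : ℕ) : A₀) W x 𝔪 :=
    fun s hs => hT₂ s ((mem_nonunits_vZero_iff W _).2 ((ssMaxInfty_iff hqirr _).1 hs))
  obtain ⟨D, Ψ, HB, HqB, hHB, hHqB, hss⟩ :=
    hData K₁ A₀ hqA _ hqirr x hx W hW 𝔪 h𝔪 hq𝔪 hOnI hOnZ
  have hHBe : (HB : ModelField K₁ (M * q)) = H := Subtype.ext (hHB.trans hHS.symm)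
  have hHqBe : (HqB : ModelField K₁ (M * q)) = Hq := Subtype.ext (hHqB.trans hHqS.symm)
  refine ⟨HqB - HB ^ q, HB - HqB ^ q, _, _, ?_, ?_, hss.D_not_mem, hss.Ψ_not_mem,
    node_rel_of_isSSData hss, ?_⟩
  · rw [← hHBe, ← hHqBe]; rfl
  · rw [← hHBe, ← hHqBe]; rfl
  · exact ng_node M q K₁ A₀ hq hq2 hqM h4 hqirr x hx
      ⟨coeffEmb K₁ jq, coeffEmb_mem_laurentBaseChange K₁ hjq⟩ rfl W hW H Hq hHS hHqS 𝔪 h𝔪
      hq𝔪 hT₁ hT₂ D Ψ HB HqB hHBe hHqBe hss

end Fermat.Agent.H7.SS2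

end
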