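/-
P-SS2 row 900 (SS2-C3 REGL), input (S), UNCONDITIONAL for `4 ∣ M`, `q` odd.  helper7.

`smoothGenR_h4 : SmoothGenRStatement M q R` for every `R` : at a maximal ideal `𝔪 ∋ ϖ` of the
chart `j` of level `M q` which does not lie on both components, `𝔪 B_𝔪 = (ϖ, U)`.
-/
import Fermat.Agent.H7.SS2.SmoothGen
import Fermat.Agent.H7.SS2.LevelRegExp
import Fermat.Agent.H61.SS.FracH41

set_option autoImplicit false

noncomputable section

namespace Fermat.Agent.H7.SS2

/-- **INPUT (S) of REGL, unconditional** (`4 ∣ M`, `q` an odd prime, `q ∤ M`), every `R`. -/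
theorem smoothGenR_h4 (M q : ℕ) [NeZero M] [NeZero q] (hq : q.Prime) (hq2 : q ≠ 2)
    (hqM : ¬ q ∣ M) (h4 : 4 ∣ M) (R : ℕ) : SmoothGenRStatement M q R :=
  smoothGenR_of M q hq hqM R (modelLevelReg_h4_all M q hq hq2 hqM h4 R)
    (Fermat.Agent.H61.SS.modelFracH41 M q hq hqM)

end Fermat.Agent.H7.SS2

end
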