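/-
P-SS2 row 900 (SS2-C3 REGL): THE REGULARITY OF THE LEVEL `M q` MODEL, `4 ∣ M`, `q` odd.  helper7.

`regLR_h4_of_cross : Fermat.Agent.H59.SS.SSCrossDataStatement M q →
  RegLRStatement M q (h4S ℚ) M` :

for every number field `K₁ ⊇ μ_M`, every discrete valuation ring `A₀` of `K₁` with uniformiser
`q` (unramified base), every maximal ideal `𝔪 ∋ q` of `B(j)` or of `B(1/j)` (level `M q`)
satisfies the regularity trichotomy `Fermat.Agent.H7.SS2.RegLAt` with respect to the two
vertical valuations `V_∞ = vInf`, `V_0 = vZero W` and the functions `X = H_q - H ^ q`,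
`Y = H - H_q ^ q` (`H` the Hauptmodul of level `4`):

* (sm10) / (sm01) : `𝔪` lies on one component only and is a regular point `(q, U)`;
* (node) : `𝔪` lies on both components, `𝔪 B_𝔪 = (e X, e Y)`, `X Y = q · unit`.

The ONLY open input is row SSH-6 (`SSCrossDataStatement M q`, helper8): at a crossing point
`d(H, H_q) X Y = q Ψ(H, H_q)` with `d, Ψ ∉ 𝔪`.  The points on one component (input (S)), the
cusps (input (C)) and the generation `𝔪 B_𝔪 = (X, Y)` at the crossing points (input (N), by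
REGCRIT) are unconditional.
-/
import Fermat.Agent.H7.SS2.NodeGen
import Fermat.Agent.H7.SS2.SmoothGenH4
import Fermat.Agent.H7.SS2.CuspGen

set_option autoImplicit false

noncomputable section

namespace Fermat.Agent.H7.SS2

open ModularCurve
open Fermat.Agent.H8.SS Fermat.Agent.H59.SS

/-- **REGL** (`4 ∣ M`, `q` an odd prime, `q ∤ M`, `R = M`), from row SSH-6. -/
theorem regLR_h4_of_cross (M q : ℕ) [NeZero M] [NeZero q] (hq : q.Prime) (hq2 : q ≠ 2)
    (hqM : ¬ q ∣ M) (h4 : 4 ∣ M) (hData : SSCrossDataStatement M q) :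
    RegLRStatement M q (h4S ℚ) M :=
  regLR_of M q hq hqM h4Z M (fun K₁ _ _ => h4S_mem_laurentBaseChange K₁ M h4)
    (smoothGenR_h4 M q hq hq2 hqM h4 M) (nodeGenR_h4_of_cross M q hq hq2 hqM h4 M hData)
    (cuspGenR M q hq hqM)

/-- **REGL in the existential form** (`R > 0`, prime to `q`). -/
theorem regLR_h4_exists_of_cross (M q : ℕ) [NeZero M] [NeZero q] (hq : q.Prime) (hq2 : q ≠ 2)
    (hqM : ¬ q ∣ M) (h4 : 4 ∣ M) (hData : SSCrossDataStatement M q) :
    ∃ R : ℕ, 0 < R ∧ Nat.Coprime R q ∧ RegLRStatement M q (h4S ℚ) R :=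
  ⟨M, Nat.pos_of_ne_zero (NeZero.ne M), ((Nat.Prime.coprime_iff_not_dvd hq).2 hqM).symm,
    regLR_h4_of_cross M q hq hq2 hqM h4 hData⟩

end Fermat.Agent.H7.SS2

end
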