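/-
P-SS2 row 900 (SS2-C3 REGL): THE REGULARITY OF THE LEVEL `M q` MODEL, `4 ∣ M`, `q` odd,
UNCONDITIONAL.  helper7.

`regLR_h4 : RegLRStatement M q (h4S ℚ) M` and, for the assemblies which want any `R > 0` prime
to `q`, `regLR_h4_exists`.  (`Fermat.Agent.H7.SS2.regLR_h4_of_cross` with helper8's
`Fermat.Agent.H8.SS.ssCrossData` plugged in.)
-/
import Fermat.Agent.H7.SS2.RegLH4
import Fermat.Agent.H8.SS.CrossData

set_option autoImplicit false

noncomputable section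

namespace Fermat.Agent.H7.SS2

open ModularCurve
open Fermat.Agent.H8.SS

/-- **INPUT (N) of REGL, unconditional** (`4 ∣ M`, `q` an odd prime, `q ∤ M`), every `R`. -/
theorem nodeGenR_h4 (M q : ℕ) [NeZero M] [NeZero q] (hq : q.Prime) (hq2 : q ≠ 2)
    (hqM : ¬ q ∣ M) (h4 : 4 ∣ M) (R : ℕ) : NodeGenRStatement M q (h4S ℚ) R :=
  nodeGenR_h4_of_cross M q hq hq2 hqM h4 R (ssCrossData M q h4 hq hq2 hqM)

/-- **REGL, unconditional** (`4 ∣ M`, `q` an odd prime, `q ∤ M`, `R = M`). -/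
theorem regLR_h4 (M q : ℕ) [NeZero M] [NeZero q] (hq : q.Prime) (hq2 : q ≠ 2)
    (hqM : ¬ q ∣ M) (h4 : 4 ∣ M) : RegLRStatement M q (h4S ℚ) M :=
  regLR_h4_of_cross M q hq hq2 hqM h4 (ssCrossData M q h4 hq hq2 hqM)

/-- **REGL, unconditional, existential form** (`R > 0`, prime to `q`). -/
theorem regLR_h4_exists (M q : ℕ) [NeZero M] [NeZero q] (hq : q.Prime) (hq2 : q ≠ 2)
    (hqM : ¬ q ∣ M) (h4 : 4 ∣ M) :
    ∃ R : ℕ, 0 < R ∧ Nat.Coprime R q ∧ RegLRStatement M q (h4S ℚ) R :=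
  regLR_h4_exists_of_cross M q hq hq2 hqM h4 (ssCrossData M q h4 hq hq2 hqM)

end Fermat.Agent.H7.SS2

end
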